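import Fermat.Agent.S18.V.Unique

set_option autoImplicit false
set_option linter.unusedSectionVars false

/-!
# V3b-UniqueDiv: the valuation induced on `F_K` by a `GaussHom` is the Gauss valuation of `q`-expansions

Sketches.
* `div_mem_nonunits`: `f = cR a / cR b = c/d` (`BR_frac`), `c = ϖ^n c'`, `d = ϖ^m d'` (`BR_normalize`; the case
  `c = 0` is trivial).  From `a ϖ^m d' = ϖ^n c' b` in `R((q))` and `c̄' b̄ ≠ 0`, `ā = 0` one gets `n > m`.
  So `φ f = φ(ϖ)^(n-m) φ(c')/φ(d') ∈ 𝔪_O`.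
* `div_mem`: same with `n ≥ m`.
(`ϖ` := any uniformizer, `IsDiscreteValuationRing.exists_irreducible R`; `cR R K` is injective
(`IsFractionRing.injective`), the reduction `coeffMap (IsLocalRing.residue R) : R((q)) → κ((q))` lands in a field,
`y` has all coefficients nonunits iff its reduction vanishes.)
-/

noncomputable section

namespace Fermat.Agent.S18.V

open ModularCurve Polynomial

variable {R : Type} {K : Type} [CommRing R] [IsDomain R] [IsDiscreteValuationRing R] [Field K] [CharZero K]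
  [Algebra R K] [IsFractionRing R K] {N : ℕ} [NeZero N] {ℓ : ℕ} [Fact ℓ.Prime]
  {Ω : Type} [Field Ω] {O : ValuationSubring Ω} {φ : ↥(FK K N) →+* Ω}

namespace UniqueDiv

open Fermat.Agent.S18.V.Unique

theorem red_algebraMap (r : R) (hr : ¬ IsUnit r) : red R (algebraMap R (LaurentSeries R) r) = 0 := by
  rw [algebraMap_eq_single, coeffMap_single]
  have : IsLocalRing.residue R (algebraMap R R r) = 0 :=
    (IsLocalRing.residue_eq_zero_iff _).2 ((IsLocalRing.mem_maximalIdeal _).2 hr)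
  rw [this, HahnSeries.single_eq_zero]

theorem algebraMap_ne_zero (r : R) (hr : r ≠ 0) : algebraMap R (LaurentSeries R) r ≠ 0 := by
  rw [algebraMap_eq_single]
  exact HahnSeries.single_ne_zero hr

/-- normal form of an element of `F_K` with integral `q`-expansion. -/
theorem normal_form (hℓR : ¬ IsUnit (ℓ : R)) (hℓN : ¬ ℓ ∣ N) (ϖ : R) (hϖ : Irreducible ϖ)
    (z : LaurentSeries R) (hz : cR R K z ∈ FK K N) (hz0 : z ≠ 0) :
    ∃ (k : ℕ) (c d : LaurentSeries R), cR R K c ∈ BR R K N ℓ ∧ cR R K d ∈ BR R K N ℓ ∧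
      (∃ i, IsUnit (c.coeff i)) ∧ (∃ i, IsUnit (d.coeff i)) ∧
      z * d = algebraMap R (LaurentSeries R) (ϖ ^ k) * c := by
  obtain ⟨c₀, hc₀, d₀, hd₀, hd₀0, hcd⟩ := BR_frac (R := R) (ℓ := ℓ) hz
  have hz0' : cR R K z ≠ 0 := fun h => hz0 (cR_injective R K (h.trans (map_zero _).symm))
  have hc₀0 : c₀ ≠ 0 := by
    rw [← hcd]
    exact mul_ne_zero hz0' hd₀0
  obtain ⟨n, c, hc, hc1, hcn⟩ := BR_normalize hℓR hℓN ϖ hϖ hc₀ hc₀0
  obtain ⟨m, d, hd, hd1, hdm⟩ := BR_normalize hℓR hℓN ϖ hϖ hd₀ hd₀0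
  have key : z * (algebraMap R (LaurentSeries R) (ϖ ^ m) * d) =
      algebraMap R (LaurentSeries R) (ϖ ^ n) * c := by
    apply cR_injective R K
    rw [map_mul, map_mul, map_mul, cR_algebraMap, cR_algebraMap, ← hcn, ← hdm, hcd]
  have hmn : m ≤ n := by
    by_contra hlt
    push Not at hlt
    obtain ⟨e, rfl⟩ := Nat.exists_eq_add_of_lt hlt
    have h1 : algebraMap R (LaurentSeries R) (ϖ ^ n) *
        (z * (algebraMap R (LaurentSeries R) (ϖ ^ (e + 1)) * d)) =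
        algebraMap R (LaurentSeries R) (ϖ ^ n) * c := by
      rw [← key, add_assoc, pow_add ϖ n (e + 1), map_mul]
      ring
    have h2 := mul_left_cancel₀ (algebraMap_ne_zero _ (pow_ne_zero _ hϖ.ne_zero)) h1
    have h3 : red R c = 0 := by
      rw [← h2, map_mul, map_mul, red_algebraMap, zero_mul, mul_zero]
      rw [pow_succ]
      exact fun h => hϖ.not_isUnit (isUnit_of_mul_isUnit_right h)
    exact (red_ne_zero_iff c).2 hc1 h3
  obtain ⟨k, rfl⟩ := Nat.exists_eq_add_of_le hmn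
  refine ⟨k, c, d, hc, hd, hc1, hd1, ?_⟩
  have h1 : algebraMap R (LaurentSeries R) (ϖ ^ m) * (z * d) =
      algebraMap R (LaurentSeries R) (ϖ ^ m) * (algebraMap R (LaurentSeries R) (ϖ ^ k) * c) := by
    rw [← mul_assoc _ _ c, ← map_mul, ← pow_add, ← key]
    ring
  exact mul_left_cancel₀ (algebraMap_ne_zero _ (pow_ne_zero _ hϖ.ne_zero)) h1

/-- the image under `φ` of the normal form. -/
theorem map_normal_form (ϖ : R) (z c d : LaurentSeries R) (k : ℕ) (hz : cR R K z ∈ FK K N)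
    (hc : cR R K c ∈ BR R K N ℓ) (hd : cR R K d ∈ BR R K N ℓ)
    (h : z * d = algebraMap R (LaurentSeries R) (ϖ ^ k) * c) :
    φ ⟨cR R K z, hz⟩ * φ ⟨cR R K d, BR_le_FK hd⟩ =
      φ (algebraMap K ↥(FK K N) (algebraMap R K ϖ)) ^ k * φ ⟨cR R K c, BR_le_FK hc⟩ := by
  rw [← map_mul, ← map_pow, ← map_mul]
  congr 1
  apply Subtype.ext
  change cR R K z * cR R K d = (algebraMap K (LaurentSeries K) (algebraMap R K ϖ)) ^ k * cR R K c
  rw [← map_mul, h, map_mul, cR_algebraMap, algebraMap_tower, map_pow, map_pow]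

theorem map_mem (h : GaussHom R O φ) (hℓR : ¬ IsUnit (ℓ : R)) (hℓN : ¬ ℓ ∣ N)
    (z : LaurentSeries R) (hz : cR R K z ∈ FK K N) :
    φ ⟨cR R K z, hz⟩ ∈ O ∧ ((∀ n, ¬ IsUnit (z.coeff n)) → φ ⟨cR R K z, hz⟩ ∈ O.nonunits) ∧
      ((∃ n, IsUnit (z.coeff n)) → φ ⟨cR R K z, hz⟩ ∉ O.nonunits) := by
  by_cases hz0 : z = 0
  · subst hz0
    have : (⟨cR R K 0, hz⟩ : ↥(FK K N)) = 0 := Subtype.ext (map_zero _)
    rw [this, map_zero]
    refine ⟨zero_mem _, fun _ => zero_mem_nonunits O, fun ⟨n, hn⟩ => ?_⟩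
    simp at hn
  obtain ⟨ϖ, hϖ⟩ := IsDiscreteValuationRing.exists_irreducible R
  obtain ⟨k, c, d, hc, hd, hc1, hd1, hzd⟩ := normal_form hℓR hℓN ϖ hϖ z hz hz0
  have e := map_normal_form (φ := φ) ϖ z c d k hz hc hd hzd
  have hu := h.map_BR_mem hℓR hc
  have hu' := h.map_BR_unit hℓR hℓN c hc hc1
  have hv := h.map_BR_mem hℓR hd
  have hv' := h.map_BR_unit hℓR hℓN d hd hd1
  have hπ := h.nonunit ϖ hϖ.not_isUnit
  set x := φ ⟨cR R K z, hz⟩
  set u := φ ⟨cR R K c, BR_le_FK hc⟩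
  set v := φ ⟨cR R K d, BR_le_FK hd⟩
  set π := φ (algebraMap K ↥(FK K N) (algebraMap R K ϖ))
  have hv0 : v ≠ 0 := fun h0 => hv' (h0 ▸ zero_mem_nonunits O)
  have hx : x = π ^ k * (u * v⁻¹) := by
    field_simp
    exact e
  have huv : u * v⁻¹ ∈ O := mul_mem hu (inv_mem_of_notMem_nonunits O hv hv')
  refine ⟨?_, ?_, ?_⟩
  · rw [hx]
    exact mul_mem (pow_mem (mem_of_mem_nonunits O hπ) _) huv
  · intro hz1
    have hk : k ≠ 0 := by
      rintro rfl
      have h1 : red R c = 0 := by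
        have := congrArg (red R) hzd
        rw [map_mul, (red_eq_zero_iff z).2 hz1, zero_mul, pow_zero, map_one, one_mul] at this
        exact this.symm
      exact (red_ne_zero_iff c).2 hc1 h1
    obtain ⟨k', rfl⟩ := Nat.exists_eq_succ_of_ne_zero hk
    rw [hx, pow_succ, mul_assoc]
    exact mul_mem_nonunits O (pow_mem (mem_of_mem_nonunits O hπ) _) (mul_mem_nonunits' O hπ huv)
  · intro hz1 hxm
    have hk : k = 0 := by
      by_contra hk
      obtain ⟨k', rfl⟩ := Nat.exists_eq_succ_of_ne_zero hk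
      have := congrArg (red R) hzd
      rw [map_mul, map_mul, red_algebraMap, zero_mul] at this
      · rcases mul_eq_zero.1 this with h1 | h1
        · exact (red_ne_zero_iff z).2 hz1 h1
        · exact (red_ne_zero_iff d).2 hd1 h1
      · rw [pow_succ]
        exact fun h => hϖ.not_isUnit (isUnit_of_mul_isUnit_right h)
    subst hk
    rw [pow_zero, one_mul] at e
    exact hu' (e ▸ mul_mem_nonunits' O hxm hv)

end UniqueDiv

/-- the valuation induced by `φ` on `F_K` is the Gauss valuation of `q`-expansions. -/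
theorem GaussHom.div_mem_nonunits (h : GaussHom R O φ) (hℓR : ¬ IsUnit (ℓ : R)) (hℓN : ¬ ℓ ∣ N)
    (a b : LaurentSeries R) (ha : cR R K a ∈ FK K N) (hb : cR R K b ∈ FK K N)
    (ha0 : ∀ n, ¬ IsUnit (a.coeff n)) (hb1 : ∃ n, IsUnit (b.coeff n)) :
    φ ⟨cR R K a, ha⟩ / φ ⟨cR R K b, hb⟩ ∈ O.nonunits := by
  obtain ⟨-, hA, -⟩ := UniqueDiv.map_mem h hℓR hℓN a ha
  obtain ⟨hB, -, hB'⟩ := UniqueDiv.map_mem h hℓR hℓN b hb
  rw [div_eq_mul_inv]
  exact mul_mem_nonunits' O (hA ha0) (inv_mem_of_notMem_nonunits O hB (hB' hb1))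

/-- same with `a` only integral. -/
theorem GaussHom.div_mem (h : GaussHom R O φ) (hℓR : ¬ IsUnit (ℓ : R)) (hℓN : ¬ ℓ ∣ N)
    (a b : LaurentSeries R) (ha : cR R K a ∈ FK K N) (hb : cR R K b ∈ FK K N)
    (hb1 : ∃ n, IsUnit (b.coeff n)) :
    φ ⟨cR R K a, ha⟩ / φ ⟨cR R K b, hb⟩ ∈ O := by
  obtain ⟨hA, -, -⟩ := UniqueDiv.map_mem h hℓR hℓN a ha
  obtain ⟨hB, -, hB'⟩ := UniqueDiv.map_mem h hℓR hℓN b hb
  rw [div_eq_mul_inv]
  exact mul_mem hA (inv_mem_of_notMem_nonunits O hB (hB' hb1))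

end Fermat.Agent.S18.V
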