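import Fermat.Agent.S18.V.EmbJ
import Fermat.Agent.S18.V.UniqueDiv

set_option autoImplicit false

/-!
# V6b-EmbG: `φ(a/b) ≡ 1` for every `φ ∈ Emb`

KERNEL WARNING: see `Hyp.lean`.

Sketch.  `hab` gives `a₀ b₀`; `φ(a/b) - 1 = φ'(a - b)/φ'(b)` with `φ' = φ.comp (inclF hFM)` (`b ≠ 0` since `b₀` has a
unit coefficient; `map_div₀`); `a - b = ⟨cR (a₀ - b₀), _⟩`, `b = ⟨cR b₀, _⟩` (`Subtype.ext`);
`GaussHom.div_mem_nonunits (H.gaussHom hFM hφ) H.hℓR H.hℓN (a₀ - b₀) b₀ ..`.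
-/

noncomputable section

namespace Fermat.Agent.S18.V

open ModularCurve Polynomial

variable {R K : Type} [CommRing R] [IsDomain R] [IsDiscreteValuationRing R] [Field K] [CharZero K]
  [Algebra R K] [IsFractionRing R K] {N : ℕ} [NeZero N] {ℓ : ℕ} [Fact ℓ.Prime]
  {M : IntermediateField K (LaurentSeries K)}

theorem VHyp.emb_g {xM : ↥M} (H : VHyp R N ℓ xM.1) (hFM : FK K N ≤ M) {a b : ↥(FK K N)}
    (hab : ABHyp R a b) {φ : ↥M →+* (vdata R K).Ω} (hφ : φ ∈ EmbV R xM) :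
    φ (inclF hFM (a / b)) - 1 ∈ (vdata R K).O.nonunits := by
  obtain ⟨a₀, b₀, ha, hb, hb1, hab0⟩ := hab
  have hinj : Function.Injective (cR R K) :=
    Fermat.Agent.S28.coeffMap_injective (IsFractionRing.injective R K)
  have hb0 : b ≠ 0 := by
    intro h0
    obtain ⟨n, hn⟩ := hb1
    have h1 : cR R K b₀ = 0 := by rw [hb, h0]; rfl
    have h2 : b₀ = 0 := hinj (by rw [h1, map_zero])
    rw [h2] at hn
    exact not_isUnit_zero hn
  have hmemb : cR R K b₀ ∈ FK K N := by rw [hb]; exact b.2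
  have hmemab : cR R K (a₀ - b₀) ∈ FK K N := by
    rw [map_sub, ha, hb]
    exact sub_mem a.2 b.2
  have e1 : (⟨cR R K b₀, hmemb⟩ : ↥(FK K N)) = b := Subtype.ext hb
  have e2 : (⟨cR R K (a₀ - b₀), hmemab⟩ : ↥(FK K N)) = a - b := by
    apply Subtype.ext
    show cR R K (a₀ - b₀) = a.1 - b.1
    rw [map_sub, ha, hb]
  have key := GaussHom.div_mem_nonunits (H.gaussHom hFM hφ) H.hℓR H.hℓN (a₀ - b₀) b₀ hmemab hmemb
    hab0 hb1
  rw [e1, e2] at key
  have hφb : (φ.comp (inclF hFM)) b ≠ 0 := by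
    rw [Ne, map_eq_zero]
    exact hb0
  have e3 : φ (inclF hFM (a / b)) - 1 = (φ.comp (inclF hFM)) (a - b) / (φ.comp (inclF hFM)) b := by
    have : φ (inclF hFM (a / b)) = (φ.comp (inclF hFM)) a / (φ.comp (inclF hFM)) b := by
      rw [← map_div₀]
      rfl
    rw [this, map_sub, sub_div, div_self hφb]
  rw [e3]
  exact key

end Fermat.Agent.S18.V
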