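import Fermat.Agent.S18.AbsDefs
import Fermat.Agent.S18.AT.Val

set_option autoImplicit false

/-!
# S18 / V / Kummer : the Kummer part of the vertical chapter (pure algebra)

`E = E₀(u)`, `u ^ p = g ∈ E₀` not a `p`-th power in `E₀`, `ζ_p ∈ K`, `p` a unit of `O`.  If every embedding
`ψ : E₀ → Ω` over `K(x)` satisfies `ψ g ≡ 1`, and the embeddings of `E₀` have distinct reductions, then the
embeddings of `E` have distinct reductions and `e = (1 + u + ⋯ + u^(p-1)) / p` is `≡ 0` or `≡ 1` at each of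
them, both cases occurring.
-/

noncomputable section

namespace Fermat.Agent.S18.VK

open Polynomial IntermediateField

section val

variable {Ω : Type*} [Field Ω] (O : ValuationSubring Ω)

theorem pow_sub_pow_mem {w c : Ω} (hw : w ∈ O) (hc : c ∈ O) (h : w - c ∈ O.nonunits) (i : ℕ) :
    w ^ i - c ^ i ∈ O.nonunits := by
  induction i with
  | zero => simp [zero_mem_nonunits O]
  | succ i ih =>
    have : w ^ (i + 1) - c ^ (i + 1) = w * (w ^ i - c ^ i) + c ^ i * (w - c) := by ring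
    rw [this]
    exact add_mem_nonunits O (mul_mem_nonunits O hw ih) (mul_mem_nonunits O (O.pow_mem hc i) h)

theorem geom_sub_geom_mem {w c : Ω} (hw : w ∈ O) (hc : c ∈ O) (h : w - c ∈ O.nonunits) (p : ℕ) :
    ∑ i ∈ Finset.range p, w ^ i - ∑ i ∈ Finset.range p, c ^ i ∈ O.nonunits := by
  rw [← Finset.sum_sub_distrib]
  exact sum_mem_nonunits O _ _ fun i _ => pow_sub_pow_mem O hw hc h i

theorem exists_mem_of_prod_mem {ι : Type*} (s : Finset ι) (f : ι → Ω) (hf : ∀ i ∈ s, f i ∈ O)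
    (h : ∏ i ∈ s, f i ∈ O.nonunits) : ∃ i ∈ s, f i ∈ O.nonunits := by
  by_contra hcon
  push Not at hcon
  have h1 : ∀ i ∈ s, O.valuation (f i) = 1 := by
    intro i hi
    have h2 := hcon i hi
    rw [ValuationSubring.mem_nonunits_iff, not_lt] at h2
    exact le_antisymm ((O.valuation_le_one_iff _).2 (hf i hi)) h2
  rw [ValuationSubring.mem_nonunits_iff, map_prod, Finset.prod_congr rfl h1,
    Finset.prod_const_one] at h
  exact lt_irrefl _ h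

theorem root_mem {μ : Ω} {p : ℕ} (hp : p ≠ 0) (hμ : μ ^ p = 1) : μ ∈ O :=
  mem_of_pow_mem O hp (hμ ▸ O.one_mem)

theorem geom_root {μ : Ω} {p : ℕ} (hμ : μ ^ p = 1) (h1 : μ ≠ 1) :
    ∑ i ∈ Finset.range p, μ ^ i = 0 := by
  have := geom_sum_mul μ p
  rw [hμ, sub_self] at this
  exact (mul_eq_zero.mp this).resolve_right (sub_ne_zero.mpr h1)

theorem natCast_mem' (p : ℕ) : (p : Ω) ∈ O := _root_.natCast_mem O p

/-- a `p`-th root of unity `≠ 1` is not `≡ 1`. -/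
theorem root_sub_one_notMem {μ : Ω} {p : ℕ} (hp : p ≠ 0) (hpO : (p : Ω) ∉ O.nonunits)
    (hμ : μ ^ p = 1) (h1 : μ ≠ 1) : μ - 1 ∉ O.nonunits := by
  intro h
  have h2 := geom_sub_geom_mem O (root_mem O hp hμ) O.one_mem h p
  rw [geom_root hμ h1] at h2
  simp only [one_pow, Finset.sum_const, Finset.card_range, nsmul_eq_mul, mul_one, zero_sub] at h2
  have := neg_mem_nonunits O h2
  rw [neg_neg] at this
  exact hpO this

/-- `w ^ p ≡ 1` implies `w ≡ μ` for a `p`-th root of unity `μ`. -/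
theorem exists_root_of_pow {z : Ω} {p : ℕ} (hp : 0 < p) (hz : IsPrimitiveRoot z p) {w : Ω}
    (hw : w ^ p - 1 ∈ O.nonunits) : ∃ μ : Ω, μ ^ p = 1 ∧ w - μ ∈ O.nonunits := by
  have hwO : w ∈ O := by
    refine mem_of_pow_mem O hp.ne' ?_
    have : w ^ p = (w ^ p - 1) + 1 := by ring
    rw [this]
    exact O.add_mem _ _ (mem_of_mem_nonunits O hw) O.one_mem
  have h1 := hz.pow_sub_pow_eq_prod_sub_mul w 1 hp
  rw [one_pow] at h1
  rw [h1] at hw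
  have hroot : ∀ μ ∈ nthRootsFinset p (1 : Ω), μ ^ p = 1 := fun μ hμ =>
    (mem_nthRootsFinset hp 1).1 hμ
  obtain ⟨μ, hμ, h2⟩ := exists_mem_of_prod_mem O _ _ (fun μ hμ => by
    rw [mul_one]
    exact O.sub_mem hwO (root_mem O hp.ne' (hroot μ hμ))) hw
  rw [mul_one] at h2
  exact ⟨μ, hroot μ hμ, h2⟩

/-- the value of `e` at `w ≡ μ`. -/
theorem e_value {p : ℕ} (hp : p ≠ 0) (hpO : (p : Ω) ∉ O.nonunits) {w μ : Ω} (hμ : μ ^ p = 1)
    (hw : w - μ ∈ O.nonunits) :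
    (μ = 1 → (∑ i ∈ Finset.range p, w ^ i) / (p : Ω) - 1 ∈ O.nonunits) ∧
    (μ ≠ 1 → (∑ i ∈ Finset.range p, w ^ i) / (p : Ω) ∈ O.nonunits) := by
  have hμO := root_mem O hp hμ
  have hwO : w ∈ O := by
    have : w = (w - μ) + μ := by ring
    rw [this]
    exact O.add_mem _ _ (mem_of_mem_nonunits O hw) hμO
  have hp0 : (p : Ω) ≠ 0 := fun h => hpO (h ▸ zero_mem_nonunits O)
  have hpinv : (p : Ω)⁻¹ ∈ O := inv_mem_of_notMem_nonunits O (natCast_mem' O p) hpO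
  have h2 := geom_sub_geom_mem O hwO hμO hw p
  refine ⟨?_, ?_⟩
  · rintro rfl
    simp only [one_pow, Finset.sum_const, Finset.card_range, nsmul_eq_mul, mul_one] at h2
    have : (∑ i ∈ Finset.range p, w ^ i) / (p : Ω) - 1 =
        (p : Ω)⁻¹ * (∑ i ∈ Finset.range p, w ^ i - (p : Ω)) := by
      field_simp
    rw [this]
    exact mul_mem_nonunits O hpinv h2
  · intro h1
    rw [geom_root hμ h1, sub_zero] at h2
    rw [div_eq_inv_mul]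
    exact mul_mem_nonunits O hpinv h2

end val

section field

variable {R K L : Type} [CommRing R] [Field K] [Algebra R K] [Field L] [Algebra K L]

/-- restriction of embeddings. -/
def res {E0 E : IntermediateField K L} (h : E0 ≤ E) {Ω : Type} [Field Ω] (φ : E →+* Ω) : E0 →+* Ω :=
  φ.comp (IntermediateField.inclusion h).toRingHom

theorem res_apply {E0 E : IntermediateField K L} (h : E0 ≤ E) {Ω : Type} [Field Ω] (φ : E →+* Ω)
    (y : L) (hy : y ∈ E0) : res h φ ⟨y, hy⟩ = φ ⟨y, h hy⟩ := rfl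

theorem res_mem_Emb {E0 E : IntermediateField K L} (h : E0 ≤ E) (𝒱 : VData R K) {x : L}
    (hx0 : x ∈ E0) (ιx : 𝒱.Ω) {φ : E →+* 𝒱.Ω} (hφ : φ ∈ Emb 𝒱 (⟨x, h hx0⟩ : E) ιx) :
    res h φ ∈ Emb 𝒱 (⟨x, hx0⟩ : E0) ιx := by
  refine ⟨?_, hφ.2⟩
  rw [← hφ.1]
  ext a
  rfl

/-- an embedding of `E₀(u)` is determined by its restriction to `E₀` and its value at `u`. -/
theorem ext_of_res {E0 : IntermediateField K L} {u : L} {Ω : Type} [Field Ω]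
    (φ φ' : IntermediateField.adjoin K ((E0 : Set L) ∪ {u}) →+* Ω)
    (h0 : ∀ (y : L) (hy : y ∈ E0), φ ⟨y, subset_adjoin _ _ (Or.inl hy)⟩ =
      φ' ⟨y, subset_adjoin _ _ (Or.inl hy)⟩)
    (hu : φ ⟨u, subset_adjoin _ _ (Or.inr rfl)⟩ = φ' ⟨u, subset_adjoin _ _ (Or.inr rfl)⟩) :
    φ = φ' := by
  ext ⟨y, hy⟩
  induction hy using IntermediateField.adjoin_induction with
  | mem y hy =>
    rcases hy with hy | hy
    · exact h0 y hy
    · obtain rfl : y = u := hy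
      exact hu
  | algebraMap a => exact h0 _ (E0.algebraMap_mem a)
  | add y y' hy hy' ih ih' =>
    have : (⟨y + y', add_mem hy hy'⟩ : IntermediateField.adjoin K ((E0 : Set L) ∪ {u})) =
      ⟨y, hy⟩ + ⟨y', hy'⟩ := rfl
    rw [this, map_add, map_add, ih, ih']
  | inv y hy ih =>
    have : (⟨y⁻¹, inv_mem hy⟩ : IntermediateField.adjoin K ((E0 : Set L) ∪ {u})) =
      (⟨y, hy⟩ : IntermediateField.adjoin K ((E0 : Set L) ∪ {u}))⁻¹ := rfl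
    rw [this, map_inv₀, map_inv₀, ih]
  | mul y y' hy hy' ih ih' =>
    have : (⟨y * y', mul_mem hy hy'⟩ : IntermediateField.adjoin K ((E0 : Set L) ∪ {u})) =
      ⟨y, hy⟩ * ⟨y', hy'⟩ := rfl
    rw [this, map_mul, map_mul, ih, ih']

/-- extension of embeddings. -/
theorem exists_ext {E0 : IntermediateField K L} {u : L} {p : ℕ} (hp : p.Prime) {g : L}
    (hg : g ∈ E0) (hug : u ^ p = g) (hirr : ¬ ∃ w ∈ E0, w ^ p = g) {Ω : Type} [Field Ω]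
    (ψ : E0 →+* Ω) (w : Ω) (hw : w ^ p = ψ ⟨g, hg⟩) :
    ∃ φ : IntermediateField.adjoin K ((E0 : Set L) ∪ {u}) →+* Ω,
      (∀ (y : L) (hy : y ∈ E0), φ ⟨y, subset_adjoin _ _ (Or.inl hy)⟩ = ψ ⟨y, hy⟩) ∧
      φ ⟨u, subset_adjoin _ _ (Or.inr rfl)⟩ = w := by
  classical
  have hI : Irreducible (X ^ p - C (⟨g, hg⟩ : E0) : E0[X]) := by
    refine X_pow_sub_C_irreducible_of_prime hp fun b hb => hirr ⟨b.1, b.2, ?_⟩
    exact congrArg Subtype.val hb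
  have hmonic : (X ^ p - C (⟨g, hg⟩ : E0) : E0[X]).Monic := monic_X_pow_sub_C _ hp.ne_zero
  have hroot : aeval u (X ^ p - C (⟨g, hg⟩ : E0) : E0[X]) = 0 := by
    rw [map_sub, map_pow, aeval_X, aeval_C, hug]
    exact sub_self _
  have hmin : minpoly E0 u = X ^ p - C (⟨g, hg⟩ : E0) :=
    (minpoly.eq_of_irreducible_of_monic hI hroot hmonic).symm
  have hint : IsIntegral E0 u := ⟨_, hmonic, hroot⟩
  let _ : Algebra E0 Ω := ψ.toAlgebra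
  have hwroot : w ∈ (minpoly E0 u).aroots Ω := by
    rw [mem_aroots]
    refine ⟨minpoly.ne_zero hint, ?_⟩
    rw [hmin, map_sub, map_pow, aeval_X, aeval_C, hw]
    exact sub_self _
  let φ₁ : E0⟮u⟯ →ₐ[E0] Ω := (algHomAdjoinIntegralEquiv E0 hint).symm ⟨w, hwroot⟩
  have hφ₁ : φ₁ (AdjoinSimple.gen E0 u) = w :=
    algHomAdjoinIntegralEquiv_symm_apply_gen E0 hint ⟨w, hwroot⟩
  have hmem : ∀ y : L, y ∈ IntermediateField.adjoin K ((E0 : Set L) ∪ {u}) → y ∈ E0⟮u⟯ := by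
    intro y hy
    rw [← restrictScalars_adjoin] at hy
    exact hy
  let inc : IntermediateField.adjoin K ((E0 : Set L) ∪ {u}) →+* E0⟮u⟯ :=
    { toFun := fun y => ⟨y.1, hmem y.1 y.2⟩
      map_one' := rfl
      map_mul' := fun _ _ => rfl
      map_zero' := rfl
      map_add' := fun _ _ => rfl }
  refine ⟨φ₁.toRingHom.comp inc, fun y hy => ?_, hφ₁⟩
  exact φ₁.commutes ⟨y, hy⟩

/-- **The Kummer part of chapter V.** -/
theorem kummer_vdata (E0 E : IntermediateField K L) (u : L)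
    (hE : E = IntermediateField.adjoin K ((E0 : Set L) ∪ {u}))
    (x : L) (hx0 : x ∈ E0) (hx : x ∈ E) (hu : u ∈ E)
    (p : ℕ) (hp : p.Prime) (ζ : K) (hζ : IsPrimitiveRoot ζ p)
    (g : L) (hg : g ∈ E0) (hug : u ^ p = g) (hirr : ¬ ∃ w ∈ E0, w ^ p = g)
    (𝒱 : VData R K) (ιx : 𝒱.Ω) (hpO : (p : 𝒱.Ω) ∉ 𝒱.O.nonunits)
    (hex : (Emb 𝒱 (⟨x, hx0⟩ : E0) ιx).Nonempty)
    (hg1 : ∀ ψ ∈ Emb 𝒱 (⟨x, hx0⟩ : E0) ιx, ψ ⟨g, hg⟩ - 1 ∈ 𝒱.O.nonunits)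
    (hD0 : DistinctRed 𝒱 (⟨x, hx0⟩ : E0) ιx) :
    DistinctRed 𝒱 (⟨x, hx⟩ : E) ιx ∧
    (∀ φ ∈ Emb 𝒱 (⟨x, hx⟩ : E) ιx,
      φ ((∑ i ∈ Finset.range p, (⟨u, hu⟩ : E) ^ i) / (p : E)) ∈ 𝒱.O.nonunits ∨
      φ ((∑ i ∈ Finset.range p, (⟨u, hu⟩ : E) ^ i) / (p : E)) - 1 ∈ 𝒱.O.nonunits) ∧
    (∃ φ ∈ Emb 𝒱 (⟨x, hx⟩ : E) ιx,
      φ ((∑ i ∈ Finset.range p, (⟨u, hu⟩ : E) ^ i) / (p : E)) ∈ 𝒱.O.nonunits) ∧
    (∃ φ ∈ Emb 𝒱 (⟨x, hx⟩ : E) ιx,
      φ ((∑ i ∈ Finset.range p, (⟨u, hu⟩ : E) ^ i) / (p : E)) - 1 ∈ 𝒱.O.nonunits) := by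
  subst hE
  set E := IntermediateField.adjoin K ((E0 : Set L) ∪ {u}) with hEdef
  have hle : E0 ≤ E := fun y hy => subset_adjoin _ _ (Or.inl hy)
  set O := 𝒱.O with hO
  have hz : IsPrimitiveRoot (𝒱.ιK ζ) p := hζ.map_of_injective 𝒱.ιK.injective
  have hφe : ∀ φ : E →+* 𝒱.Ω, φ ((∑ i ∈ Finset.range p, (⟨u, hu⟩ : E) ^ i) / (p : E)) =
      (∑ i ∈ Finset.range p, (φ ⟨u, hu⟩) ^ i) / (p : 𝒱.Ω) := by
    intro φ
    rw [map_div₀, map_sum, map_natCast]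
    simp only [map_pow]
  have hpowg : ∀ φ : E →+* 𝒱.Ω, (φ ⟨u, hu⟩) ^ p = res hle φ ⟨g, hg⟩ := by
    intro φ
    rw [← map_pow, res_apply]
    congr 1
    exact Subtype.ext hug
  have hpow : ∀ φ ∈ Emb 𝒱 (⟨x, hx⟩ : E) ιx, (φ ⟨u, hu⟩) ^ p - 1 ∈ O.nonunits := by
    intro φ hφ
    rw [hpowg]
    exact hg1 _ (res_mem_Emb hle 𝒱 hx0 ιx hφ)
  -- extensions are in `Emb`
  have hext : ∀ ψ ∈ Emb 𝒱 (⟨x, hx0⟩ : E0) ιx, ∀ w : 𝒱.Ω, w ^ p = ψ ⟨g, hg⟩ →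
      ∃ φ ∈ Emb 𝒱 (⟨x, hx⟩ : E) ιx, φ ⟨u, hu⟩ = w := by
    intro ψ hψ w hw
    obtain ⟨φ, h0, h1⟩ := exists_ext hp hg hug hirr ψ w hw
    refine ⟨φ, ⟨?_, ?_⟩, h1⟩
    · rw [← hψ.1]
      ext a
      exact h0 _ (E0.algebraMap_mem a)
    · rw [← hψ.2]
      exact h0 x hx0
  refine ⟨?_, ?_, ?_, ?_⟩
  · -- distinct reductions
    intro φ hφ φ' hφ' hne
    by_cases hres : res hle φ = res hle φ'
    · have hune : φ ⟨u, hu⟩ ≠ φ' ⟨u, hu⟩ := by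
        intro h
        refine hne (ext_of_res φ φ' (fun y hy => ?_) h)
        exact congrArg (fun f : E0 →+* 𝒱.Ω => f ⟨y, hy⟩) hres
      have huO : ∀ ψ ∈ Emb 𝒱 (⟨x, hx⟩ : E) ιx, ψ ⟨u, hu⟩ ∈ O := by
        intro ψ hψ
        refine mem_of_pow_mem O hp.ne_zero ?_
        have : (ψ ⟨u, hu⟩) ^ p = ((ψ ⟨u, hu⟩) ^ p - 1) + 1 := by ring
        rw [this]
        exact O.add_mem _ _ (mem_of_mem_nonunits O (hpow ψ hψ)) O.one_mem
      refine ⟨⟨u, hu⟩, huO, ?_⟩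
      set w := φ ⟨u, hu⟩ with hw
      set w' := φ' ⟨u, hu⟩ with hw'
      have hww' : w ^ p = w' ^ p := by rw [hw, hw', hpowg, hpowg, hres]
      have hw1 : w ∉ O.nonunits := by
        intro h
        have h1 : w ^ p ∈ O.nonunits := by
          obtain ⟨k, hk⟩ := Nat.exists_eq_succ_of_ne_zero hp.ne_zero
          rw [hk, pow_succ]
          exact mul_mem_nonunits O (O.pow_mem (mem_of_mem_nonunits O h) k) h
        have h2 := sub_mem_nonunits O h1 (hpow φ hφ)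
        rw [sub_sub_cancel] at h2
        exact one_notMem_nonunits O h2
      have hw0 : w ≠ 0 := fun h => hw1 (h ▸ zero_mem_nonunits O)
      have hμ : (w' / w) ^ p = 1 := by
        rw [div_pow, ← hww', div_self (pow_ne_zero _ hw0)]
      have hμ1 : w' / w ≠ 1 := by
        intro h
        rw [div_eq_one_iff_eq hw0] at h
        exact hune h.symm
      have h3 := root_sub_one_notMem O hp.ne_zero hpO hμ hμ1
      intro h4
      apply h3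
      have : w' / w - 1 = w⁻¹ * (-(w - w')) := by
        field_simp
        ring
      rw [this]
      exact mul_mem_nonunits O (inv_mem_of_notMem_nonunits O (huO φ hφ) hw1)
        (neg_mem_nonunits O h4)
    · obtain ⟨y, hy1, hy2⟩ := hD0 _ (res_mem_Emb hle 𝒱 hx0 ιx hφ) _
        (res_mem_Emb hle 𝒱 hx0 ιx hφ') hres
      exact ⟨⟨y.1, hle y.2⟩, fun ψ hψ => hy1 _ (res_mem_Emb hle 𝒱 hx0 ιx hψ), hy2⟩
  · intro φ hφ
    obtain ⟨μ, hμ, hwμ⟩ := exists_root_of_pow O hp.pos hz (hpow φ hφ)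
    rw [hφe]
    by_cases h1 : μ = 1
    · exact Or.inr ((e_value O hp.ne_zero hpO hμ hwμ).1 h1)
    · exact Or.inl ((e_value O hp.ne_zero hpO hμ hwμ).2 h1)
  all_goals
    obtain ⟨ψ, hψ⟩ := hex
    obtain ⟨w, hw⟩ := IsAlgClosed.exists_pow_nat_eq (ψ ⟨g, hg⟩) hp.pos
    have hw1 : w ^ p - 1 ∈ O.nonunits := by rw [hw]; exact hg1 ψ hψ
    obtain ⟨μ, hμ, hwμ⟩ := exists_root_of_pow O hp.pos hz hw1
    have hμ0 : μ ≠ 0 := by
      rintro rfl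
      rw [zero_pow hp.ne_zero] at hμ
      exact zero_ne_one hμ
    have hμinv : μ⁻¹ ^ p = 1 := by rw [inv_pow, hμ, inv_one]
    have hw2 : w * μ⁻¹ - 1 ∈ O.nonunits := by
      have : w * μ⁻¹ - 1 = μ⁻¹ * (w - μ) := by
        field_simp
      rw [this]
      exact mul_mem_nonunits O (root_mem O hp.ne_zero hμinv) hwμ
  · obtain ⟨φ, hφ, hφu⟩ := hext ψ hψ (w * μ⁻¹ * 𝒱.ιK ζ) (by
      rw [mul_pow, mul_pow, hμinv, hz.pow_eq_one, hw, mul_one, mul_one])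
    refine ⟨φ, hφ, ?_⟩
    rw [hφe, hφu]
    refine (e_value O hp.ne_zero hpO hz.pow_eq_one ?_).2 (hz.ne_one hp.one_lt)
    have : w * μ⁻¹ * 𝒱.ιK ζ - 𝒱.ιK ζ = 𝒱.ιK ζ * (w * μ⁻¹ - 1) := by ring
    rw [this]
    exact mul_mem_nonunits O (root_mem O hp.ne_zero hz.pow_eq_one) hw2
  · obtain ⟨φ, hφ, hφu⟩ := hext ψ hψ (w * μ⁻¹) (by
      rw [mul_pow, hμinv, hw, mul_one])
    refine ⟨φ, hφ, ?_⟩
    rw [hφe, hφu]
    exact (e_value O hp.ne_zero hpO (one_pow p) hw2).1 rfl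

end field

end Fermat.Agent.S18.VK

/-! ## V6c-KummerIF: helper16's form (`E ≤ K(E0, u)`), from `VK.kummer_vdata` (helper10) -/

namespace Fermat.Agent.S18.V

open Polynomial

theorem kummerIF {R K L : Type} [CommRing R] [Field K] [Algebra R K] [Field L] [Algebra K L]
    (E0 E : IntermediateField K L) (h0 : E0 ≤ E) (u : L) (hu : u ∈ E)
    (hE : E ≤ IntermediateField.adjoin K ((E0 : Set L) ∪ {u}))
    (𝒱 : VData R K) (x : L) (hx : x ∈ E0) (ιx : 𝒱.Ω)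
    (p : ℕ) (hp : p.Prime) (hpO : (p : 𝒱.Ω) ∉ 𝒱.O.nonunits) (ζ : K) (hζ : IsPrimitiveRoot ζ p)
    (g : L) (hg : g ∈ E0) (hug : u ^ p = g) (hirr : ¬ ∃ w ∈ E0, w ^ p = g)
    (hne : (Emb 𝒱 (⟨x, hx⟩ : ↥E0) ιx).Nonempty)
    (h1 : ∀ φ ∈ Emb 𝒱 (⟨x, hx⟩ : ↥E0) ιx, φ ⟨g, hg⟩ - 1 ∈ 𝒱.O.nonunits)
    (hD : DistinctRed 𝒱 (⟨x, hx⟩ : ↥E0) ιx) :
    DistinctRed 𝒱 (⟨x, h0 hx⟩ : ↥E) ιx ∧
      (∀ φ ∈ Emb 𝒱 (⟨x, h0 hx⟩ : ↥E) ιx,
        φ ((∑ i ∈ Finset.range p, (⟨u, hu⟩ : ↥E) ^ i) / (p : ↥E)) ∈ 𝒱.O.nonunits ∨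
        φ ((∑ i ∈ Finset.range p, (⟨u, hu⟩ : ↥E) ^ i) / (p : ↥E)) - 1 ∈ 𝒱.O.nonunits) ∧
      (∃ φ ∈ Emb 𝒱 (⟨x, h0 hx⟩ : ↥E) ιx,
        φ ((∑ i ∈ Finset.range p, (⟨u, hu⟩ : ↥E) ^ i) / (p : ↥E)) ∈ 𝒱.O.nonunits) ∧
      (∃ φ ∈ Emb 𝒱 (⟨x, h0 hx⟩ : ↥E) ιx,
        φ ((∑ i ∈ Finset.range p, (⟨u, hu⟩ : ↥E) ^ i) / (p : ↥E)) - 1 ∈ 𝒱.O.nonunits) := by
  have hE' : E = IntermediateField.adjoin K ((E0 : Set L) ∪ {u}) := by
    refine le_antisymm hE ?_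
    rw [IntermediateField.adjoin_le_iff]
    rintro y (hy | hy)
    · exact h0 hy
    · rw [Set.mem_singleton_iff] at hy
      rw [hy]
      exact hu
  exact VK.kummer_vdata E0 E u hE' x hx (h0 hx) hu p hp ζ hζ g hg hug hirr 𝒱 ιx hpO hne h1 hD

end Fermat.Agent.S18.V
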