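import Fermat.Agent.S18.V.Distinct
import Fermat.Agent.S18.V.EmbG
import Fermat.Agent.S18.V.KummerIF

set_option autoImplicit false

/-!
# V6e-Main: the abstract form of `Ctx.exists_vdata`

`kummerIF` applied to `E0 = EE0 K N x ≤ E = EE K N x u`, with the `E0`-level inputs `incM_mem`, `VHyp.emb_g`,
`VHyp.distinctRed`.
-/

noncomputable section

namespace Fermat.Agent.S18.V

open ModularCurve Polynomial

variable {R K : Type} [CommRing R] [IsDomain R] [IsDiscreteValuationRing R] [Field K] [CharZero K]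
  [Algebra R K] [IsFractionRing R K] {N : ℕ} [NeZero N] {ℓ p : ℕ} [Fact ℓ.Prime]
  {x u : LaurentSeries K} {a b : ↥(FK K N)}

theorem EE_le (x u : LaurentSeries K) :
    EE K N x u ≤ IntermediateField.adjoin K (((EE0 K N x : IntermediateField K (LaurentSeries K)) :
      Set (LaurentSeries K)) ∪ {u}) := by
  refine IntermediateField.adjoin_le_iff.2 ?_
  rintro y (hy | hy | hy)
  · exact IntermediateField.subset_adjoin _ _ (Or.inl (IntermediateField.subset_adjoin _ _ (Or.inl hy)))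
  · exact IntermediateField.subset_adjoin _ _ (Or.inl (IntermediateField.subset_adjoin _ _ (Or.inr hy)))
  · exact IntermediateField.subset_adjoin _ _ (Or.inr hy)

theorem main (H : VHyp R N ℓ x) (hp : p.Prime) (hpR : IsUnit (p : R)) (ζ : K)
    (hζ : IsPrimitiveRoot ζ p) (hab : ABHyp R a b) (hu : u ^ p = (a / b).1)
    (hirr : ¬ ∃ w ∈ EE0 K N x, w ^ p = (a / b).1) :
    IsGauss (vdata R K) (inc K x) ∧
      DistinctRed (vdata R K) (⟨x, EE0_le_EE x u (x_mem_EE0 x)⟩ : ↥(EE K N x u)) (inc K x) ∧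
      (∀ φ ∈ Emb (vdata R K) (⟨x, EE0_le_EE x u (x_mem_EE0 x)⟩ : ↥(EE K N x u)) (inc K x),
        φ ((∑ i ∈ Finset.range p, (⟨u, u_mem_EE x u⟩ : ↥(EE K N x u)) ^ i) / (p : ↥(EE K N x u)))
            ∈ (vdata R K).O.nonunits ∨
        φ ((∑ i ∈ Finset.range p, (⟨u, u_mem_EE x u⟩ : ↥(EE K N x u)) ^ i) / (p : ↥(EE K N x u))) - 1
            ∈ (vdata R K).O.nonunits) ∧
      (∃ φ ∈ Emb (vdata R K) (⟨x, EE0_le_EE x u (x_mem_EE0 x)⟩ : ↥(EE K N x u)) (inc K x),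
        φ ((∑ i ∈ Finset.range p, (⟨u, u_mem_EE x u⟩ : ↥(EE K N x u)) ^ i) / (p : ↥(EE K N x u)))
            ∈ (vdata R K).O.nonunits) ∧
      (∃ φ ∈ Emb (vdata R K) (⟨x, EE0_le_EE x u (x_mem_EE0 x)⟩ : ↥(EE K N x u)) (inc K x),
        φ ((∑ i ∈ Finset.range p, (⟨u, u_mem_EE x u⟩ : ↥(EE K N x u)) ^ i) / (p : ↥(EE K N x u))) - 1
            ∈ (vdata R K).O.nonunits) := by
  refine ⟨H.isGauss_x, ?_⟩
  have hFM : FK K N ≤ EE0 K N x := FK_le_EE0 x
  have H' : VHyp R N ℓ ((⟨x, x_mem_EE0 x⟩ : ↥(EE0 K N x)) : LaurentSeries K) := H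
  refine kummerIF (EE0 K N x) (EE K N x u) (EE0_le_EE x u) u (u_mem_EE x u) (EE_le x u) (vdata R K) x
    (x_mem_EE0 x) (inc K x) p hp (natCast_notMem_nonunits hpR) ζ hζ (a / b).1 (hFM (a / b).2) hu hirr
    ⟨incM _, incM_mem R _⟩ ?_ (H'.distinctRed hFM le_rfl)
  intro φ hφ
  have h := H'.emb_g hFM hab hφ
  have e : inclF hFM (a / b) = ⟨(a / b).1, hFM (a / b).2⟩ := Subtype.ext (inclF_coe hFM _)
  rwa [e] at h

end Fermat.Agent.S18.V
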