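import Fermat.Agent.S18.V.Defs

set_option autoImplicit false

/-!
# V2: the ring `BR = R · 𝔹 ⊆ K((q))`

`𝔹 = chartAlgFin N ℓ` = integral closure of `ℤ_(ℓ)[j]` in `F_ℚ = ℚ(j(q^d) : d ∣ N)` (Prelude).
`BR R K N ℓ` = the `R`-subalgebra of `K((q))` generated by (the image of) `𝔹`.
-/

noncomputable section

namespace Fermat.Agent.S18.V

open ModularCurve Polynomial

/-- the underlying set of `q`-expansions of `𝔹 = chartAlgFin N ℓ`. -/
def chartSet (N : ℕ) [NeZero N] (ℓ : ℕ) [Fact ℓ.Prime] : Set (LaurentSeries ℚ) :=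
  {f | ∃ h : f ∈ modularFunctionFieldFull N,
    (⟨f, h⟩ : ↥(modularFunctionFieldFull N)) ∈ IgusaScheme.chartAlgFin N ℓ}

/-- `BR = R · 𝔹`. -/
def BR (R K : Type) [CommRing R] [Field K] [Algebra R K] [Algebra ℚ K] (N : ℕ) [NeZero N] (ℓ : ℕ)
    [Fact ℓ.Prime] : Subalgebra R (LaurentSeries K) :=
  Algebra.adjoin R (coeffEmb K '' chartSet N ℓ)

/-- `R[X] → K((q))`, `X ↦ j`. -/
def evJ (R K : Type) [CommRing R] [Field K] [Algebra R K] : R[X] →+* LaurentSeries K :=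
  Polynomial.eval₂RingHom (algebraMap R (LaurentSeries K)) (jqModC K)

end Fermat.Agent.S18.V
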