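import Fermat.Agent.S18.V.BRInt

set_option autoImplicit false

/-!
# V2b-BRDiv: the `q`-expansion principle over the (possibly ramified) DVR `R`

`BR_div`: an element of `BR = R·𝔹` whose `q`-expansion vanishes mod `𝔪_R` lies in `ϖ·BR`.

Sketch.  `BR = span_R (coeffEmb K '' 𝔹)` (`Algebra.adjoin_eq_span`; `𝔹` is closed under products).  Write
`f = ∑ r_i • b_i`.  Strong induction on the number of `i` with `r_i` a unit ("bad" indices):
* no bad index: every `r_i = ϖ r_i'`, done.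
* the residues `r̄_i` (bad `i`) are linearly independent over `𝔽_ℓ`: reading
  `0 = f̄ = ∑_{bad} r̄_i b̄_i` coefficientwise (`b̄_i ∈ 𝔽_ℓ((q))`) gives `b̄_i = 0`, i.e.
  `b_i = ℓ * y_i` with `y_i` `ℓ`-integral, so `b_i = ℓ b_i'` with `b_i' = cInv * b_i ∈ 𝔹` by
  `Fermat.Agent.S28.Final.div_mem_fin (wData ℓ) hℓN`; `ℓ ∈ ϖ R`.
* otherwise some `r_{i₀} = -∑_{i ≠ i₀} c_i r_i + ϖ ρ` with `c_i ∈ ℤ` : substitute, one bad index less.
Alternative: `Fermat.Agent.S28.psiHom_injective` (with the field `κ = R/𝔪`) + right exactness of `𝔹 ⊗ -`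
(`lTensor_exact`) applied to `ϖR → R → κ`.
-/

noncomputable section

namespace Fermat.Agent.S18.V

open ModularCurve Polynomial

namespace BRDiv

/-- pure algebra: the `q`-expansion principle passes from `ℤ_(ℓ)` to any ring `R` with `ϖ ∣ ℓ`. -/
theorem abs_family {R M κ : Type*} [CommRing R] [AddCommGroup M] [Module R M]
    (c : κ → M →ₗ[R] R) (ϖ : R) (ℓ : ℕ) (hℓ : ℓ.Prime) (hϖℓ : ϖ ∣ (ℓ : R))
    (B : AddSubgroup M)
    (hC : ∀ b ∈ B, ∀ n, ∃ m : ℤ, ϖ ∣ c n b - (m : R))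
    (hP : ∀ b ∈ B, (∀ n, ϖ ∣ c n b) → ∃ b' ∈ B, b = (ℓ : R) • b')
    {ι : Type*} (k : ℕ) : ∀ (s : Finset ι) (r : ι → R) (b : ι → M), s.card = k → (∀ i ∈ s, b i ∈ B) →
      (∀ n, ϖ ∣ c n (∑ i ∈ s, r i • b i)) →
      ∃ g ∈ Submodule.span R (B : Set M), ∑ i ∈ s, r i • b i = ϖ • g := by
  classical
  induction k with
  | zero =>
    intro s r b hs _ _
    rw [Finset.card_eq_zero] at hs
    subst hs
    exact ⟨0, zero_mem _, by simp⟩
  | succ k ih =>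
    intro s r b hs hb hf
    by_cases hA : ∃ a : ι → ℤ, (∃ i₀ ∈ s, ¬ (ℓ : ℤ) ∣ a i₀) ∧ ϖ ∣ ∑ i ∈ s, (a i : R) * r i
    · obtain ⟨a, ⟨i₀, hi₀, hai₀⟩, ha⟩ := hA
      -- normalise `a i₀ ≡ 1`
      have hcop : IsCoprime (a i₀) (ℓ : ℤ) :=
        ((Nat.prime_iff_prime_int.1 hℓ).coprime_iff_not_dvd.2 hai₀).symm
      obtain ⟨e, t, het⟩ := hcop
      obtain ⟨ρ₁, hρ₁⟩ := ha
      obtain ⟨ρ₂, hρ₂⟩ := hϖℓ
      -- `r i₀ = - ∑_{i ≠ i₀} e a_i r_i + ϖ ρ`
      have hsum : ∑ i ∈ s, (a i : R) * r i =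
          (a i₀ : R) * r i₀ + ∑ i ∈ s.erase i₀, (a i : R) * r i :=
        (Finset.add_sum_erase s _ hi₀).symm
      have het' : (e : R) * (a i₀ : R) + (t : R) * (ℓ : R) = 1 := by
        exact_mod_cast congrArg (fun z : ℤ => (z : R)) het
      have hr : r i₀ = - ∑ i ∈ s.erase i₀, ((e * a i : ℤ) : R) * r i +
          ϖ * ((e : R) * ρ₁ + (t : R) * ρ₂ * r i₀) := by
        have h1 : (e : R) * ∑ i ∈ s.erase i₀, (a i : R) * r i =
            ∑ i ∈ s.erase i₀, ((e * a i : ℤ) : R) * r i := by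
          rw [Finset.mul_sum]
          refine Finset.sum_congr rfl fun i _ => ?_
          push_cast
          ring
        rw [← h1]
        have h2 : ∑ i ∈ s.erase i₀, (a i : R) * r i = ϖ * ρ₁ - (a i₀ : R) * r i₀ := by
          rw [← hρ₁, hsum]; ring
        rw [h2]
        calc r i₀ = ((e : R) * (a i₀ : R) + (t : R) * (ℓ : R)) * r i₀ := by rw [het', one_mul]
          _ = _ := by rw [hρ₂]; ring
      set ρ : R := (e : R) * ρ₁ + (t : R) * ρ₂ * r i₀ with hρ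
      set b' : ι → M := fun i => b i - (e * a i : ℤ) • b i₀ with hb'
      have hdecomp : ∑ i ∈ s, r i • b i = ∑ i ∈ s.erase i₀, r i • b' i + ϖ • (ρ • b i₀) := by
        rw [← Finset.add_sum_erase s _ hi₀]
        have h3 : ∑ i ∈ s.erase i₀, r i • b' i =
            ∑ i ∈ s.erase i₀, r i • b i - (∑ i ∈ s.erase i₀, ((e * a i : ℤ) : R) * r i) • b i₀ := by
          rw [Finset.sum_smul, ← Finset.sum_sub_distrib]
          refine Finset.sum_congr rfl fun i _ => ?_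
          simp only [hb', smul_sub]
          congr 1
          rw [← Int.cast_smul_eq_zsmul R, smul_smul, mul_comm]
        rw [h3]
        conv_lhs => rw [hr]
        rw [add_smul, neg_smul, smul_smul]
        abel
      obtain ⟨g', hg', hg'eq⟩ := ih (s.erase i₀) r b'
        (by rw [Finset.card_erase_of_mem hi₀, hs]; rfl)
        (fun i hi => B.sub_mem (hb i (Finset.mem_of_mem_erase hi)) (B.zsmul_mem (hb i₀ hi₀) _))
        (fun n => by
          have h4 : ∑ i ∈ s.erase i₀, r i • b' i = ∑ i ∈ s, r i • b i - ϖ • (ρ • b i₀) := by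
            rw [hdecomp]; abel
          rw [h4, map_sub, map_smul]
          exact dvd_sub (hf n) (Dvd.intro _ rfl))
      refine ⟨g' + ρ • b i₀, add_mem hg' (Submodule.smul_mem _ _ (Submodule.subset_span (hb i₀ hi₀))), ?_⟩
      rw [hdecomp, hg'eq, smul_add]
    · push Not at hA
      -- all `b i` are divisible by `ℓ`
      have hdiv : ∀ i ∈ s, ∀ n, ϖ ∣ c n (b i) := by
        intro i hi n
        choose! m hm using fun j (hj : j ∈ s) => hC (b j) (hb j hj) n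
        have h5 : ϖ ∣ ∑ j ∈ s, (m j : R) * r j := by
          have h6 : ∑ j ∈ s, (m j : R) * r j =
              c n (∑ j ∈ s, r j • b j) - ∑ j ∈ s, r j * (c n (b j) - (m j : R)) := by
            rw [map_sum, ← Finset.sum_sub_distrib]
            refine Finset.sum_congr rfl fun j _ => ?_
            rw [map_smul, smul_eq_mul]
            ring
          rw [h6]
          exact dvd_sub (hf n) (Finset.dvd_sum fun j hj => Dvd.dvd.mul_left (hm j hj) _)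
        have h7 : (ℓ : ℤ) ∣ m i := by
          by_contra hcon
          exact hA m ⟨i, hi, hcon⟩ h5
        obtain ⟨q, hq⟩ := h7
        have h8 : c n (b i) = (c n (b i) - (m i : R)) + (ℓ : R) * (q : R) := by
          rw [hq]; push_cast; ring
        rw [h8]
        exact dvd_add (hm i hi) (Dvd.dvd.mul_right hϖℓ _)
      choose! b' hb'B hb'eq using fun i (hi : i ∈ s) => hP (b i) (hb i hi) (hdiv i hi)
      obtain ⟨ρ₂, hρ₂⟩ := hϖℓ
      refine ⟨∑ i ∈ s, (ρ₂ * r i) • b' i, Submodule.sum_mem _ fun i hi =>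
        Submodule.smul_mem _ _ (Submodule.subset_span (hb'B i hi)), ?_⟩
      rw [Finset.smul_sum]
      refine Finset.sum_congr rfl fun i hi => ?_
      conv_lhs => rw [hb'eq i hi]
      rw [smul_smul, smul_smul, hρ₂]
      congr 1
      ring


/-- the span form. -/
theorem abs_span {R M κ : Type*} [CommRing R] [AddCommGroup M] [Module R M]
    (c : κ → M →ₗ[R] R) (ϖ : R) (ℓ : ℕ) (hℓ : ℓ.Prime) (hϖℓ : ϖ ∣ (ℓ : R))
    (B : AddSubgroup M)
    (hC : ∀ b ∈ B, ∀ n, ∃ m : ℤ, ϖ ∣ c n b - (m : R))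
    (hP : ∀ b ∈ B, (∀ n, ϖ ∣ c n b) → ∃ b' ∈ B, b = (ℓ : R) • b')
    (f : M) (hf : f ∈ Submodule.span R (B : Set M)) (hf' : ∀ n, ϖ ∣ c n f) :
    ∃ g ∈ Submodule.span R (B : Set M), f = ϖ • g := by
  obtain ⟨a, ha, rfl⟩ := (Submodule.mem_span_set).1 hf
  exact abs_family c ϖ ℓ hℓ hϖℓ B hC hP _ a.support a id rfl (fun i hi => ha hi) hf'

/-- the algebra form. -/
theorem abs_alg {R A' κ : Type*} [CommRing R] [CommRing A'] [Algebra R A']
    (c : κ → A' →ₗ[R] R) (ϖ : R) (ℓ : ℕ) (hℓ : ℓ.Prime) (hϖℓ : ϖ ∣ (ℓ : R))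
    (B : Subring A')
    (hC : ∀ b ∈ B, ∀ n, ∃ m : ℤ, ϖ ∣ c n b - (m : R))
    (hP : ∀ b ∈ B, (∀ n, ϖ ∣ c n b) → ∃ b' ∈ B, b = (ℓ : A') * b')
    (f : A') (hf : f ∈ Algebra.adjoin R (B : Set A')) (hf' : ∀ n, ϖ ∣ c n f) :
    ∃ g ∈ Algebra.adjoin R (B : Set A'), f = algebraMap R A' ϖ * g := by
  have hspan : Subalgebra.toSubmodule (Algebra.adjoin R (B : Set A')) =
      Submodule.span R (B.toAddSubgroup : Set A') := by
    rw [Algebra.adjoin_eq_span]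
    congr 1
    exact congrArg _ (Submonoid.closure_eq B.toSubmonoid)
  have hf2 : f ∈ Submodule.span R (B.toAddSubgroup : Set A') := by
    rw [← hspan]; exact hf
  obtain ⟨g, hg, hfg⟩ := abs_span c ϖ ℓ hℓ hϖℓ B.toAddSubgroup hC
    (fun b hb h => by
      obtain ⟨b', hb', e⟩ := hP b hb h
      exact ⟨b', hb', by rw [e, Algebra.smul_def, map_natCast]⟩) f hf2 hf'
  refine ⟨g, ?_, by rw [hfg, Algebra.smul_def]⟩
  have : g ∈ Subalgebra.toSubmodule (Algebra.adjoin R (B : Set A')) := by rw [hspan]; exact hg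
  exact this

theorem algebraMap_eq_C {R A' : Type*} [CommRing R] [CommRing A'] [Algebra R A'] (r : R) :
    algebraMap R (LaurentSeries A') r = HahnSeries.C (algebraMap R A' r) := by
  rw [HahnSeries.algebraMap_apply', PowerSeries.algebraMap_apply, HahnSeries.ofPowerSeries_C]

/-- the coefficient functionals. -/
def coeffL (R : Type) [CommRing R] (n : ℤ) :
    @LinearMap R R _ _ (RingHom.id R) (LaurentSeries R) R _ _ Algebra.toModule _ :=
  @LinearMap.mk R R _ _ (RingHom.id R) (LaurentSeries R) R _ _ Algebra.toModule _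
    ⟨fun y => y.coeff n, fun _ _ => rfl⟩ (fun r y => by
      simp only [RingHom.id_apply, smul_eq_mul]
      rw [Algebra.smul_def, algebraMap_eq_C, HahnSeries.C_mul_eq_smul, HahnSeries.coeff_smul]
      rfl)

theorem coeffL_apply (R : Type) [CommRing R] (n : ℤ) (y : LaurentSeries R) :
    coeffL R n y = y.coeff n := rfl

/-- `ℤ_(ℓ) = ℤ + ℓ ℤ_(ℓ)`. -/
theorem ratLoc_decomp (ℓ : ℕ) (z : ℚ) (hz : z ∈ GaloisRep.ratLocalizedAt ℓ) :
    ∃ (m : ℤ) (z' : ℚ), z' ∈ GaloisRep.ratLocalizedAt ℓ ∧ z = (m : ℚ) + (ℓ : ℚ) * z' := by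
  have hcop : IsCoprime (z.den : ℤ) (ℓ : ℤ) := Nat.isCoprime_iff_coprime.2 hz
  obtain ⟨e, t, het⟩ := hcop
  refine ⟨e * z.num, (t : ℚ) * z, Subring.mul_mem _ (intCast_mem _ t) hz, ?_⟩
  have hden : (z.den : ℚ) ≠ 0 := by exact_mod_cast z.den_ne_zero
  have het' : (e : ℚ) * (z.den : ℚ) + (t : ℚ) * (ℓ : ℚ) = 1 := by exact_mod_cast het
  have hz' : (z.num : ℚ) = z * (z.den : ℚ) := (Rat.mul_den_eq_num z).symm
  push_cast
  rw [hz']
  calc z = ((e : ℚ) * (z.den : ℚ) + (t : ℚ) * (ℓ : ℚ)) * z := by rw [het', one_mul]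
    _ = _ := by ring

end BRDiv

variable {R K : Type} [CommRing R] [IsDomain R] [IsDiscreteValuationRing R] [Field K] [CharZero K]
  [Algebra R K] [IsFractionRing R K] {N : ℕ} [NeZero N] {ℓ : ℕ} [Fact ℓ.Prime]

namespace BRDiv

theorem cR_injective : Function.Injective (cR R K) := by
  intro y z h
  ext n
  have := congrArg (fun s => s.coeff n) h
  simp only [coeffMap_coeff] at this
  exact IsFractionRing.injective R K this

/-- `𝔹` inside `K((q))`, as a subring. -/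
def BK (K : Type) [Field K] [CharZero K] (N : ℕ) [NeZero N] (ℓ : ℕ) [Fact ℓ.Prime] :
    Subring (LaurentSeries K) where
  carrier := {f | ∃ b ∈ IgusaScheme.chartAlgFin N ℓ, coeffEmb K b.1 = f}
  mul_mem' := by
    rintro _ _ ⟨b, hb, rfl⟩ ⟨b', hb', rfl⟩
    exact ⟨b * b', mul_mem hb hb', by rw [MulMemClass.coe_mul, map_mul]⟩
  one_mem' := ⟨1, one_mem _, by rw [OneMemClass.coe_one, map_one]⟩
  add_mem' := by
    rintro _ _ ⟨b, hb, rfl⟩ ⟨b', hb', rfl⟩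
    exact ⟨b + b', add_mem hb hb', by rw [AddMemClass.coe_add, map_add]⟩
  zero_mem' := ⟨0, zero_mem _, by rw [ZeroMemClass.coe_zero, map_zero]⟩
  neg_mem' := by
    rintro _ ⟨b, hb, rfl⟩
    exact ⟨-b, neg_mem hb, by rw [NegMemClass.coe_neg, map_neg]⟩

theorem mem_BK {f : LaurentSeries K} :
    f ∈ BK K N ℓ ↔ ∃ b ∈ IgusaScheme.chartAlgFin N ℓ, coeffEmb K b.1 = f := Iff.rfl

theorem coe_BK : (BK K N ℓ : Set (LaurentSeries K)) = coeffEmb K '' chartSet N ℓ := by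
  ext f
  constructor
  · rintro ⟨b, hb, rfl⟩
    exact ⟨b.1, ⟨b.2, hb⟩, rfl⟩
  · rintro ⟨b, ⟨h, hb⟩, rfl⟩
    exact ⟨⟨b, h⟩, hb, rfl⟩

/-- the pull back of `𝔹` to `R((q))`. -/
def BRR (R K : Type) [CommRing R] [Field K] [CharZero K] [Algebra R K] (N : ℕ) [NeZero N] (ℓ : ℕ)
    [Fact ℓ.Prime] : Subring (LaurentSeries R) := (BK K N ℓ).comap (cR R K)

theorem mem_BR_of_mem_BK {f : LaurentSeries K} (hf : f ∈ BK K N ℓ) : f ∈ BR R K N ℓ := by
  have : f ∈ coeffEmb K '' chartSet N ℓ := by rw [← coe_BK]; exact hf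
  exact Algebra.subset_adjoin this

theorem cR_algebraMap (r : R) :
    cR R K (algebraMap R (LaurentSeries R) r) = algebraMap R (LaurentSeries K) r := by
  rw [algebraMap_eq_C, algebraMap_eq_C]
  exact coeffMap_single _ _ _

theorem exists_mem_BRS (hℓR : ¬ IsUnit (ℓ : R)) (hℓN : ¬ ℓ ∣ N) {f : LaurentSeries K}
    (hf : f ∈ BR R K N ℓ) :
    ∃ y ∈ Algebra.adjoin R (BRR R K N ℓ : Set (LaurentSeries R)), cR R K y = f := by
  induction hf using Algebra.adjoin_induction with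
  | mem x hx =>
    have hx' : x ∈ BK K N ℓ := by
      have : x ∈ (BK K N ℓ : Set (LaurentSeries K)) := by rw [coe_BK]; exact hx
      exact this
    obtain ⟨y, rfl⟩ := BR_int (R := R) hℓR hℓN (mem_BR_of_mem_BK hx')
    exact ⟨y, Algebra.subset_adjoin hx', rfl⟩
  | algebraMap r => exact ⟨algebraMap R _ r, Subalgebra.algebraMap_mem _ r, cR_algebraMap r⟩
  | add x y _ _ hx hy =>
    obtain ⟨x', hx', rfl⟩ := hx
    obtain ⟨y', hy', rfl⟩ := hy
    exact ⟨x' + y', add_mem hx' hy', map_add _ _ _⟩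
  | mul x y _ _ hx hy =>
    obtain ⟨x', hx', rfl⟩ := hx
    obtain ⟨y', hy', rfl⟩ := hy
    exact ⟨x' * y', mul_mem hx' hy', map_mul _ _ _⟩

theorem cR_mem_BR {y : LaurentSeries R}
    (hy : y ∈ Algebra.adjoin R (BRR R K N ℓ : Set (LaurentSeries R))) :
    cR R K y ∈ BR R K N ℓ := by
  induction hy using Algebra.adjoin_induction with
  | mem x hx => exact mem_BR_of_mem_BK hx
  | algebraMap r => rw [cR_algebraMap]; exact Subalgebra.algebraMap_mem _ r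
  | add x y _ _ hx hy => rw [map_add]; exact add_mem hx hy
  | mul x y _ _ hx hy => rw [map_mul]; exact mul_mem hx hy

theorem dvd_of_not_isUnit {ϖ : R} (hϖ : Irreducible ϖ) {r : R} (hr : ¬ IsUnit r) : ϖ ∣ r := by
  have h1 := (IsDiscreteValuationRing.irreducible_iff_uniformizer ϖ).1 hϖ
  have h2 : r ∈ IsLocalRing.maximalIdeal R := hr
  rw [h1, Ideal.mem_span_singleton] at h2
  exact h2

/-- the coefficients of an element of `𝔹`. -/
theorem coeff_decomp (hℓR : ¬ IsUnit (ℓ : R)) (hℓN : ¬ ℓ ∣ N) {y : LaurentSeries R}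
    {b : ↥(modularFunctionFieldFull N)} (hb : b ∈ IgusaScheme.chartAlgFin N ℓ)
    (hby : coeffEmb K b.1 = cR R K y) (n : ℤ) :
    ∃ (m : ℤ) (z' : ℚ) (r' : R), z' ∈ GaloisRep.ratLocalizedAt ℓ ∧
      b.1.coeff n = (m : ℚ) + (ℓ : ℚ) * z' ∧ y.coeff n = (m : R) + (ℓ : R) * r' := by
  have hz := Fermat.Agent.S28.mem_intSeries_of_chartAlg (Fermat.Agent.S28.wData ℓ) hℓN _
    (IgusaScheme.sFin_subset N) b hb n
  obtain ⟨m, z', hz', hzeq⟩ := ratLoc_decomp ℓ _ hz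
  obtain ⟨r', hr'⟩ := exists_of_ratLoc (R := R) (K := K) hℓR z' hz'
  refine ⟨m, z', r', hz', hzeq, IsFractionRing.injective R K ?_⟩
  have h1 := congrArg (fun s => s.coeff n) hby
  simp only [coeffEmb_coeff, coeffMap_coeff] at h1
  rw [← h1, map_add, map_mul, hr', map_intCast, map_natCast, hzeq, map_add, map_mul, map_intCast,
    map_natCast]

theorem int_dvd_of_dvd {ϖ : R} (hϖ : Irreducible ϖ) (hϖℓ : ϖ ∣ (ℓ : R)) {m : ℤ}
    (hm : ϖ ∣ (m : R)) : (ℓ : ℤ) ∣ m := by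
  by_contra hcon
  have hℓ : ℓ.Prime := Fact.out
  have hcop : IsCoprime m (ℓ : ℤ) :=
    ((Nat.prime_iff_prime_int.1 hℓ).coprime_iff_not_dvd.2 hcon).symm
  obtain ⟨e, t, het⟩ := hcop
  have het' : (e : R) * (m : R) + (t : R) * (ℓ : R) = 1 := by
    exact_mod_cast congrArg (fun z : ℤ => (z : R)) het
  have : ϖ ∣ 1 := by
    rw [← het']
    exact dvd_add (Dvd.dvd.mul_left hm _) (Dvd.dvd.mul_left hϖℓ _)
  exact hϖ.not_isUnit (isUnit_of_dvd_one this)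

theorem hC (hℓR : ¬ IsUnit (ℓ : R)) (hℓN : ¬ ℓ ∣ N) {ϖ : R} (hϖℓ : ϖ ∣ (ℓ : R)) :
    ∀ b ∈ BRR R K N ℓ, ∀ n, ∃ m : ℤ, ϖ ∣ coeffL R n b - (m : R) := by
  rintro b ⟨b0, hb0, hb0eq⟩ n
  obtain ⟨m, z', r', -, -, h⟩ := coeff_decomp hℓR hℓN hb0 hb0eq n
  refine ⟨m, ?_⟩
  rw [coeffL_apply, h, add_sub_cancel_left]
  exact Dvd.dvd.mul_right hϖℓ _

theorem hP (hℓR : ¬ IsUnit (ℓ : R)) (hℓN : ¬ ℓ ∣ N) {ϖ : R} (hϖ : Irreducible ϖ)
    (hϖℓ : ϖ ∣ (ℓ : R)) :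
    ∀ b ∈ BRR R K N ℓ, (∀ n, ϖ ∣ coeffL R n b) →
      ∃ b' ∈ BRR R K N ℓ, b = (ℓ : LaurentSeries R) * b' := by
  rintro b ⟨b0, hb0, hb0eq⟩ hdiv
  have hℓ0 : (ℓ : ℚ) ≠ 0 := by exact_mod_cast (Fact.out : ℓ.Prime).ne_zero
  have hcoef : ∀ n, ∃ w ∈ GaloisRep.ratLocalizedAt ℓ, b0.1.coeff n = (ℓ : ℚ) * w := by
    intro n
    obtain ⟨m, z', r', hz', h1, h2⟩ := coeff_decomp hℓR hℓN hb0 hb0eq n
    have h3 : ϖ ∣ (m : R) := by
      have h4 : (m : R) = b.coeff n - (ℓ : R) * r' := by rw [h2]; ring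
      rw [h4]
      exact dvd_sub (hdiv n) (Dvd.dvd.mul_right hϖℓ _)
    obtain ⟨q, hq⟩ := int_dvd_of_dvd hϖ hϖℓ h3
    refine ⟨(q : ℚ) + z', Subring.add_mem _ (intCast_mem _ q) hz', ?_⟩
    rw [h1, hq]
    push_cast
    ring
  set Y : LaurentSeries ℚ := HahnSeries.C ((ℓ : ℚ)⁻¹) * b0.1 with hYdef
  have hY : Y ∈ Fermat.Agent.S28.intSeries (GaloisRep.ratLocalizedAt ℓ) := by
    intro n
    obtain ⟨w, hw, hwe⟩ := hcoef n
    rw [hYdef, HahnSeries.C_mul_eq_smul, HahnSeries.coeff_smul, hwe, smul_eq_mul, ← mul_assoc,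
      inv_mul_cancel₀ hℓ0, one_mul]
    exact hw
  have hfy : b0.1 = (ℓ : LaurentSeries ℚ) * Y := by
    have : (ℓ : LaurentSeries ℚ) = HahnSeries.C (ℓ : ℚ) := (map_natCast HahnSeries.C ℓ).symm
    rw [this, hYdef, ← mul_assoc, ← map_mul, mul_inv_cancel₀ hℓ0, map_one, one_mul]
  have hmem := Fermat.Agent.S28.Final.div_mem_fin (Fermat.Agent.S28.wData ℓ) hℓN b0 hb0 Y hY hfy
  have hBK : coeffEmb K (Fermat.Agent.S28.Final.cInv ℓ N * b0).1 ∈ BK K N ℓ := ⟨_, hmem, rfl⟩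
  obtain ⟨y', hy'⟩ := BR_int (R := R) hℓR hℓN (mem_BR_of_mem_BK hBK)
  refine ⟨y', ?_, cR_injective (K := K) ?_⟩
  · show cR R K y' ∈ BK K N ℓ
    rw [hy']
    exact hBK
  · rw [map_mul, map_natCast, hy', ← hb0eq]
    have h5 := congrArg Subtype.val (Fermat.Agent.S28.Final.eq_mul_cInv_mul (ℓ := ℓ) b0)
    rw [MulMemClass.coe_mul] at h5
    have h6 : ((ℓ : ↥(modularFunctionFieldFull N)) : LaurentSeries ℚ) = (ℓ : LaurentSeries ℚ) :=
      map_natCast (modularFunctionFieldFull N).val ℓ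
    rw [h6] at h5
    conv_lhs => rw [h5]
    rw [map_mul, map_natCast]

end BRDiv

theorem BR_div (hℓR : ¬ IsUnit (ℓ : R)) (hℓN : ¬ ℓ ∣ N) (ϖ : R) (hϖ : Irreducible ϖ)
    (y : LaurentSeries R) (hf : cR R K y ∈ BR R K N ℓ) (hy : ∀ n, ¬ IsUnit (y.coeff n)) :
    ∃ g ∈ BR R K N ℓ, cR R K y = algebraMap R (LaurentSeries K) ϖ * g := by
  have hℓ : ℓ.Prime := Fact.out
  have hϖℓ : ϖ ∣ (ℓ : R) := BRDiv.dvd_of_not_isUnit hϖ hℓR
  obtain ⟨y', hy', hyy'⟩ := BRDiv.exists_mem_BRS hℓR hℓN hf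
  have : y' = y := BRDiv.cR_injective hyy'
  subst this
  obtain ⟨g, hg, hgy⟩ := BRDiv.abs_alg (BRDiv.coeffL R) ϖ ℓ hℓ hϖℓ (BRDiv.BRR R K N ℓ)
    (BRDiv.hC hℓR hℓN hϖℓ) (BRDiv.hP hℓR hℓN hϖ hϖℓ) y' hy'
    (fun n => BRDiv.dvd_of_not_isUnit hϖ (hy n))
  exact ⟨cR R K g, BRDiv.cR_mem_BR hg, by rw [hgy, map_mul, BRDiv.cR_algebraMap]⟩

namespace BRDiv

theorem normalize_aux (hℓR : ¬ IsUnit (ℓ : R)) (hℓN : ¬ ℓ ∣ N) (ϖ : R) (hϖ : Irreducible ϖ)
    (n₀ : ℕ) : ∀ y : LaurentSeries R, cR R K y ∈ BR R K N ℓ → (∃ k, ¬ ϖ ^ (n₀ + 1) ∣ y.coeff k) →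
      ∃ (n : ℕ) (y' : LaurentSeries R), cR R K y' ∈ BR R K N ℓ ∧ (∃ k, IsUnit (y'.coeff k)) ∧
        cR R K y = algebraMap R (LaurentSeries K) (ϖ ^ n) * cR R K y' := by
  induction n₀ with
  | zero =>
    rintro y hy ⟨k, hk⟩
    refine ⟨0, y, hy, ⟨k, ?_⟩, by rw [pow_zero, map_one, one_mul]⟩
    by_contra hcon
    exact hk (by rw [zero_add, pow_one]; exact dvd_of_not_isUnit hϖ hcon)
  | succ n₀ ih =>
    rintro y hy ⟨k, hk⟩
    by_cases hu : ∃ k, IsUnit (y.coeff k)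
    · exact ⟨0, y, hy, hu, by rw [pow_zero, map_one, one_mul]⟩
    · push Not at hu
      obtain ⟨g, hg, hgy⟩ := BR_div hℓR hℓN ϖ hϖ y hy hu
      obtain ⟨y₁, rfl⟩ := BR_int (R := R) hℓR hℓN hg
      have hyy₁ : y = algebraMap R (LaurentSeries R) ϖ * y₁ :=
        cR_injective (K := K) (by rw [hgy, map_mul, cR_algebraMap])
      have hcoef : y.coeff k = ϖ * y₁.coeff k := by
        rw [hyy₁, algebraMap_eq_C, HahnSeries.C_mul_eq_smul, HahnSeries.coeff_smul]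
        rfl
      obtain ⟨n, y', hy', hu', he⟩ := ih y₁ hg ⟨k, fun hdvd => hk (by
        rw [hcoef, pow_succ' ϖ (n₀ + 1)]
        exact mul_dvd_mul_left ϖ hdvd)⟩
      exact ⟨n + 1, y', hy', hu', by rw [hgy, he, ← mul_assoc, ← map_mul, pow_succ']⟩

end BRDiv

/-- consequence (iterate `BR_div`; the minimum of the valuations of the coefficients of `y ≠ 0` exists):
every nonzero element of `BR` is `ϖ^n` times an element of `BR` with a unit coefficient. -/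
theorem BR_normalize (hℓR : ¬ IsUnit (ℓ : R)) (hℓN : ¬ ℓ ∣ N) (ϖ : R) (hϖ : Irreducible ϖ)
    {f : LaurentSeries K} (hf : f ∈ BR R K N ℓ) (hf0 : f ≠ 0) :
    ∃ (n : ℕ) (y : LaurentSeries R), cR R K y ∈ BR R K N ℓ ∧ (∃ k, IsUnit (y.coeff k)) ∧
      f = algebraMap R (LaurentSeries K) (ϖ ^ n) * cR R K y := by
  obtain ⟨y, rfl⟩ := BR_int (R := R) hℓR hℓN hf
  have hy0 : y ≠ 0 := by
    rintro rfl
    exact hf0 (map_zero _)
  have : ∃ k, y.coeff k ≠ 0 := by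
    by_contra hcon
    push Not at hcon
    exact hy0 (HahnSeries.ext (funext hcon))
  obtain ⟨k, hk⟩ := this
  obtain ⟨n₀, u, hu⟩ := IsDiscreteValuationRing.eq_unit_mul_pow_irreducible hk hϖ
  refine BRDiv.normalize_aux hℓR hℓN ϖ hϖ n₀ y hf ⟨k, ?_⟩
  rintro ⟨d, hd⟩
  rw [hu, pow_succ, mul_comm (u : R), mul_assoc] at hd
  have h1 := mul_left_cancel₀ (pow_ne_zero n₀ hϖ.ne_zero) hd
  exact hϖ.not_isUnit (isUnit_of_dvd_unit ⟨d, h1⟩ u.isUnit)

end Fermat.Agent.S18.V
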