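import Fermat.Agent.S18.V.BRInt

set_option autoImplicit false

/-!
# V2c-BRFrac: `F_K = Frac BR`
-/

noncomputable section

namespace Fermat.Agent.S18.V

open ModularCurve Polynomial

variable {R K : Type} [CommRing R] [IsDomain R] [IsDiscreteValuationRing R] [Field K] [CharZero K]
  [Algebra R K] [IsFractionRing R K] {N : ℕ} [NeZero N] {ℓ : ℕ} [Fact ℓ.Prime]

namespace BRFrac

open Fermat.Agent.S28 Fermat.Agent.S28.DescFin IgusaScheme

theorem int_mem_ratLoc (ℓ : ℕ) (n : ℤ) : (n : ℚ) ∈ GaloisRep.ratLocalizedAt ℓ := by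
  show (n : ℚ).den.Coprime ℓ
  rw [Rat.den_intCast]
  exact Nat.coprime_one_left ℓ

/-- an integer constant lies in `𝔹`. -/
theorem intCast_mem (N : ℕ) [NeZero N] (ℓ : ℕ) [Fact ℓ.Prime] (n : ℤ) :
    (algebraMap ℚ ↥(modularFunctionFieldFull N) (n : ℚ)) ∈ chartAlgFin N ℓ :=
  adjoin_le_chartAlg N ℓ _ (algebraMap_mem_adjoin ℓ (jFull N) _ (int_mem_ratLoc ℓ n))

/-- an element integral over `ℚ[j]` has a nonzero integer multiple in `𝔹`. -/
theorem exists_int_mul_mem (y : ↥(modularFunctionFieldFull N)) (P : Polynomial ℚ[X]) (hP : P.Monic)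
    (hy : P.eval₂ (psi N (jFull N)) y = 0) :
    ∃ D : ℤ, D ≠ 0 ∧ algebraMap ℚ ↥(modularFunctionFieldFull N) (D : ℚ) * y ∈ chartAlgFin N ℓ := by
  classical
  obtain ⟨b, hb⟩ := IsLocalization.exist_integer_multiples_of_finset (nonZeroDivisors ℤ)
    (P.support.biUnion fun i => (P.coeff i).support.image (P.coeff i).coeff)
  have hb0 : (b : ℤ) ≠ 0 := nonZeroDivisors.coe_ne_zero b
  have hint : ∀ i j, ∃ z : ℤ, (z : ℚ) = ((b : ℤ) : ℚ) * (P.coeff i).coeff j := by
    intro i j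
    by_cases h0 : (P.coeff i).coeff j = 0
    · exact ⟨0, by rw [h0]; simp⟩
    have hi : i ∈ P.support := by
      rw [Polynomial.mem_support_iff]
      intro h
      exact h0 (by rw [h]; simp)
    obtain ⟨z, hz⟩ := hb ((P.coeff i).coeff j) (by
      rw [Finset.mem_biUnion]
      exact ⟨i, hi, Finset.mem_image.2 ⟨j, Polynomial.mem_support_iff.2 h0, rfl⟩⟩)
    refine ⟨z, ?_⟩
    rw [Algebra.smul_def] at hz
    simpa using hz
  refine ⟨b, hb0, ?_⟩
  rw [mem_chartAlg_iff]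
  have hpsiC : psi N (jFull N) (C ((b : ℤ) : ℚ)) =
      algebraMap ℚ ↥(modularFunctionFieldFull N) ((b : ℤ) : ℚ) := by
    unfold psi
    rw [Polynomial.coe_eval₂RingHom, Polynomial.eval₂_C]
  apply isIntegral_of_monic ℓ (jFull N) _ (P.scaleRoots (C ((b : ℤ) : ℚ)))
    ((Polynomial.monic_scaleRoots_iff _).2 hP)
  · rw [← hpsiC, Polynomial.scaleRoots_eval₂_mul, hy, mul_zero]
  · intro i j
    rw [Polynomial.coeff_scaleRoots]
    rcases lt_trichotomy i P.natDegree with hi | hi | hi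
    · obtain ⟨k, hk⟩ : ∃ k, P.natDegree - i = k + 1 := ⟨P.natDegree - i - 1, by omega⟩
      obtain ⟨z, hz⟩ := hint i j
      have : (P.coeff i * C ((b : ℤ) : ℚ) ^ (P.natDegree - i)).coeff j =
          (((b : ℤ) ^ k * z : ℤ) : ℚ) := by
        rw [hk, ← C_pow, Polynomial.coeff_mul_C]
        push_cast
        rw [hz]
        ring
      rw [this]
      exact int_mem_ratLoc ℓ _
    · rw [hi, Nat.sub_self, pow_zero, mul_one, hP.coeff_natDegree, Polynomial.coeff_one]
      split_ifs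
      · exact (GaloisRep.ratLocalizedAt ℓ).one_mem
      · exact (GaloisRep.ratLocalizedAt ℓ).zero_mem
    · rw [Polynomial.coeff_eq_zero_of_natDegree_lt hi, zero_mul, Polynomial.coeff_zero]
      exact (GaloisRep.ratLocalizedAt ℓ).zero_mem

/-- the inclusion `F → ℚ((q))`. -/
def valF (N : ℕ) : ↥(modularFunctionFieldFull N) →+* LaurentSeries ℚ :=
  (modularFunctionFieldFull N).toSubfield.subtype

/-- transport of `IntJ` to `F`. -/
theorem exists_monic_of_intJ (y : ↥(modularFunctionFieldFull N)) (h : IntJ y.1) :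
    ∃ P : Polynomial ℚ[X], P.Monic ∧ P.eval₂ (psi N (jFull N)) y = 0 := by
  obtain ⟨P, hP, hPy⟩ := h
  refine ⟨P, hP, ?_⟩
  apply Subtype.ext
  have hcomp : (valF N).comp (psi N (jFull N)) = pe ℚ jq := by
    apply Polynomial.ringHom_ext
    · intro a
      exact congrArg (fun f : ℚ →+* LaurentSeries ℚ => f a) (Subsingleton.elim
        (((valF N).comp (psi N (jFull N))).comp Polynomial.C) ((pe ℚ jq).comp Polynomial.C))
    · have h1 : psi N (jFull N) X = jFull N := by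
        show Polynomial.eval₂ _ _ X = _
        rw [Polynomial.eval₂_X]
      rw [RingHom.comp_apply, h1, pe_apply, Polynomial.eval₂_X]
      rfl
  have := Polynomial.hom_eval₂ P (psi N (jFull N)) (valF N) y
  rw [hcomp] at this
  exact this.trans hPy

theorem coe_algebraMap_rat (r : ℚ) :
    ((algebraMap ℚ ↥(modularFunctionFieldFull N) r : ↥(modularFunctionFieldFull N)) :
      LaurentSeries ℚ) = algebraMap ℚ (LaurentSeries ℚ) r :=
  congrArg (fun f : ℚ →+* LaurentSeries ℚ => f r) (Subsingleton.elim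
    ((valF N).comp (algebraMap ℚ ↥(modularFunctionFieldFull N))) (algebraMap ℚ (LaurentSeries ℚ)))

end BRFrac

/-- every element of `F_ℚ` is a quotient of two elements of `𝔹`. -/
theorem chart_frac (f : ↥(modularFunctionFieldFull N)) :
    ∃ c ∈ IgusaScheme.chartAlgFin N ℓ, ∃ d ∈ IgusaScheme.chartAlgFin N ℓ, d ≠ 0 ∧ f * d = c := by
  obtain ⟨f, hf⟩ := f
  change f ∈ IntermediateField.adjoin ℚ (divisorExpansions N) at hf
  induction hf using IntermediateField.adjoin_induction with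
  | mem x hx =>
    obtain ⟨d, hd0, hd, rfl⟩ := hx
    have hI : Fermat.Agent.S28.IntJ (qExpand ℚ d jq) := by
      rw [Fermat.Agent.S28.qExpand_eq_evz]
      exact Fermat.Agent.S28.intJ_jd d (NeZero.ne d)
    obtain ⟨P, hP, hPy⟩ := BRFrac.exists_monic_of_intJ (N := N) ⟨qExpand ℚ d jq, _⟩ hI
    obtain ⟨D, hD0, hD⟩ := BRFrac.exists_int_mul_mem (ℓ := ℓ) _ P hP hPy
    refine ⟨_, hD, _, BRFrac.intCast_mem N ℓ D, ?_, mul_comm _ _⟩
    rw [Ne, map_eq_zero]
    exact_mod_cast hD0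
  | algebraMap r =>
    refine ⟨_, BRFrac.intCast_mem N ℓ r.num, _, BRFrac.intCast_mem N ℓ r.den, ?_, ?_⟩
    · rw [Ne, map_eq_zero]
      exact_mod_cast r.den_ne_zero
    · have : (⟨algebraMap ℚ (LaurentSeries ℚ) r, (modularFunctionFieldFull N).algebraMap_mem r⟩ :
          ↥(modularFunctionFieldFull N)) = algebraMap ℚ ↥(modularFunctionFieldFull N) r :=
        Subtype.ext (BRFrac.coe_algebraMap_rat r).symm
      rw [this, ← map_mul]
      congr 1
      exact_mod_cast Rat.mul_den_eq_num r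
  | add x y hx hy ihx ihy =>
    obtain ⟨c, hc, d, hd, hd0, h⟩ := ihx
    obtain ⟨c', hc', d', hd', hd0', h'⟩ := ihy
    refine ⟨c * d' + c' * d, add_mem (mul_mem hc hd') (mul_mem hc' hd), d * d', mul_mem hd hd',
      mul_ne_zero hd0 hd0', ?_⟩
    rw [← h, ← h']
    have : (⟨x + y, add_mem hx hy⟩ : ↥(modularFunctionFieldFull N)) = ⟨x, hx⟩ + ⟨y, hy⟩ := rfl
    rw [this]
    ring
  | inv x hx ih =>
    obtain ⟨c, hc, d, hd, hd0, h⟩ := ih
    by_cases hx0 : x = 0
    · subst hx0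
      refine ⟨0, zero_mem _, 1, one_mem _, one_ne_zero, ?_⟩
      apply Subtype.ext
      simp
    · have hx0' : (⟨x, hx⟩ : ↥(modularFunctionFieldFull N)) ≠ 0 := fun h => hx0 (congrArg Subtype.val h)
      have hc0 : c ≠ 0 := by
        rw [← h]
        exact mul_ne_zero hx0' hd0
      refine ⟨d, hd, c, hc, hc0, ?_⟩
      have : (⟨x⁻¹, inv_mem hx⟩ : ↥(modularFunctionFieldFull N)) = (⟨x, hx⟩)⁻¹ := rfl
      rw [this, ← h]
      field_simp
  | mul x y hx hy ihx ihy =>
    obtain ⟨c, hc, d, hd, hd0, h⟩ := ihx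
    obtain ⟨c', hc', d', hd', hd0', h'⟩ := ihy
    refine ⟨c * c', mul_mem hc hc', d * d', mul_mem hd hd', mul_ne_zero hd0 hd0', ?_⟩
    rw [← h, ← h']
    have : (⟨x * y, mul_mem hx hy⟩ : ↥(modularFunctionFieldFull N)) = ⟨x, hx⟩ * ⟨y, hy⟩ := rfl
    rw [this]
    ring

theorem BRFrac.algebraMap_R_eq (r : R) :
    algebraMap R (LaurentSeries K) r = algebraMap K (LaurentSeries K) (algebraMap R K r) := by
  rw [HahnSeries.algebraMap_apply', HahnSeries.algebraMap_apply']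
  congr 1
  exact IsScalarTower.algebraMap_apply R K (PowerSeries K) r

theorem BR_frac {f : LaurentSeries K} (hf : f ∈ FK K N) :
    ∃ c ∈ BR R K N ℓ, ∃ d ∈ BR R K N ℓ, d ≠ 0 ∧ f * d = c := by
  change f ∈ IntermediateField.adjoin K (divisorExpansionsC K N) at hf
  induction hf using IntermediateField.adjoin_induction with
  | mem x hx =>
    obtain ⟨d, hd0, hd, rfl⟩ := hx
    obtain ⟨c, hc, e, he, he0, h⟩ := chart_frac (ℓ := ℓ) (jdQ N d hd)
    refine ⟨coeffEmb K c.1, Algebra.subset_adjoin ⟨c.1, ⟨c.2, hc⟩, rfl⟩, coeffEmb K e.1,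
      Algebra.subset_adjoin ⟨e.1, ⟨e.2, he⟩, rfl⟩, ?_, ?_⟩
    · rw [Ne, map_eq_zero]
      exact fun h0 => he0 (Subtype.ext h0)
    · rw [← baseQ_jdQ_coe K N d hd, baseQ_coe, ← map_mul, ← h]
      rfl
  | algebraMap a =>
    obtain ⟨r, s, hs, rfl⟩ := IsFractionRing.div_surjective (A := R) a
    have hs0 : algebraMap R K s ≠ 0 := by
      rw [Ne, map_eq_zero_iff _ (IsFractionRing.injective R K)]
      exact nonZeroDivisors.ne_zero hs
    refine ⟨algebraMap R (LaurentSeries K) r, Subalgebra.algebraMap_mem _ r,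
      algebraMap R (LaurentSeries K) s, Subalgebra.algebraMap_mem _ s, ?_, ?_⟩
    · rw [BRFrac.algebraMap_R_eq s, Ne, map_eq_zero]
      exact hs0
    · rw [BRFrac.algebraMap_R_eq r, BRFrac.algebraMap_R_eq s, ← map_mul, div_mul_cancel₀ _ hs0]
  | add x y hx hy ihx ihy =>
    obtain ⟨c, hc, d, hd, hd0, h⟩ := ihx
    obtain ⟨c', hc', d', hd', hd0', h'⟩ := ihy
    refine ⟨c * d' + c' * d, add_mem (mul_mem hc hd') (mul_mem hc' hd), d * d', mul_mem hd hd',
      mul_ne_zero hd0 hd0', ?_⟩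
    rw [← h, ← h']
    ring
  | inv x hx ih =>
    obtain ⟨c, hc, d, hd, hd0, h⟩ := ih
    by_cases hx0 : x = 0
    · subst hx0
      exact ⟨0, zero_mem _, 1, one_mem _, one_ne_zero, by simp⟩
    · have hc0 : c ≠ 0 := by
        rw [← h]
        exact mul_ne_zero hx0 hd0
      refine ⟨d, hd, c, hc, hc0, ?_⟩
      rw [← h]
      field_simp
  | mul x y hx hy ihx ihy =>
    obtain ⟨c, hc, d, hd, hd0, h⟩ := ihx
    obtain ⟨c', hc', d', hd', hd0', h'⟩ := ihy
    refine ⟨c * c', mul_mem hc hc', d * d', mul_mem hd hd', mul_ne_zero hd0 hd0', ?_⟩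
    rw [← h, ← h']
    ring

end Fermat.Agent.S18.V
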