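import Fermat.Agent.S18.V.BRDefs
import Fermat.Agent.S28.Final
import Fermat.Agent.S28.WittData
import Fermat.Agent.S28

set_option autoImplicit false

/-!
# V2a-BRInt: elementary properties of `BR`

* `exists_of_ratLoc`: `ℤ_(ℓ) ⊆ R` inside `K` (a denominator prime to `ℓ` is a unit of the local ring `R`
  because `ℓ` is a nonunit: Bezout).
* `BR_int`: elements of `BR` have `q`-expansion coefficients in `R`.
* `BR_le_FK`.
* `BR_integral`: elements of `BR` are integral over `R[j]`.
-/

noncomputable section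

namespace Fermat.Agent.S18.V

open ModularCurve Polynomial ModularCurve.IgusaScheme

variable {R K : Type} [CommRing R] [IsDomain R] [IsDiscreteValuationRing R] [Field K] [CharZero K]
  [Algebra R K] [IsFractionRing R K] {N : ℕ} [NeZero N] {ℓ : ℕ} [Fact ℓ.Prime]

namespace BRInt

omit [IsDomain R] [IsDiscreteValuationRing R] [Fact ℓ.Prime] in
theorem isUnit_natCast [IsLocalRing R] (hℓR : ¬ IsUnit (ℓ : R)) {n : ℕ} (hn : n.Coprime ℓ) :
    IsUnit (n : R) := by
  by_contra h
  have h1 : (n : R) ∈ IsLocalRing.maximalIdeal R := h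
  have h2 : (ℓ : R) ∈ IsLocalRing.maximalIdeal R := hℓR
  have hb : ((n : ℤ) * Nat.gcdA n ℓ + (ℓ : ℤ) * Nat.gcdB n ℓ : ℤ) = 1 := by
    rw [← Nat.gcd_eq_gcd_ab, hn.gcd_eq_one, Nat.cast_one]
  have h3 : (1 : R) ∈ IsLocalRing.maximalIdeal R := by
    have := congrArg (Int.cast : ℤ → R) hb
    push_cast at this
    rw [← this]
    exact add_mem (Ideal.mul_mem_right _ _ h1) (Ideal.mul_mem_right _ _ h2)
  exact (Ideal.ne_top_iff_one _).1 (IsLocalRing.maximalIdeal.isMaximal _).ne_top h3

omit [IsDiscreteValuationRing R] [CharZero K] in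
/-- a series all of whose coefficients come from `R` comes from `R((q))`. -/
theorem exists_cR (f : LaurentSeries K) (h : ∀ n, ∃ r : R, algebraMap R K r = f.coeff n) :
    ∃ y : LaurentSeries R, cR R K y = f := by
  choose r hr using h
  refine ⟨⟨r, f.isPWO_support.mono ?_⟩, ?_⟩
  · intro n hn
    rw [Function.mem_support] at hn
    rw [HahnSeries.mem_support]
    intro h0
    apply hn
    apply IsFractionRing.injective R K
    rw [hr, h0, map_zero]
  · ext n
    rw [coeffMap_coeff]
    exact hr n

omit [IsDomain R] [IsDiscreteValuationRing R] [CharZero K] [IsFractionRing R K] in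
theorem algebraMap_eq (r : R) :
    algebraMap R (LaurentSeries K) r = cR R K (HahnSeries.single 0 r) := by
  rw [coeffMap_single, HahnSeries.algebraMap_apply', PowerSeries.algebraMap_apply,
    HahnSeries.ofPowerSeries_C]
  rfl

omit [IsDomain R] [IsDiscreteValuationRing R] [CharZero K] [IsFractionRing R K] in
theorem algebraMap_eq' (r : R) :
    algebraMap R (LaurentSeries K) r = algebraMap K (LaurentSeries K) (algebraMap R K r) := by
  rw [algebraMap_eq, coeffMap_single, algebraMap_laurentSeries_eq_single]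

omit [IsDomain R] [IsDiscreteValuationRing R] [CharZero K] [IsFractionRing R K] in
theorem evJ_C (r : R) : evJ R K (C r) = algebraMap R (LaurentSeries K) r := by
  rw [evJ, Polynomial.coe_eval₂RingHom, Polynomial.eval₂_C]

omit [IsDomain R] [IsDiscreteValuationRing R] [CharZero K] [IsFractionRing R K] in
theorem evJ_X : evJ R K X = jqModC K := by
  rw [evJ, Polynomial.coe_eval₂RingHom, Polynomial.eval₂_X]

theorem jq_mem_chartSet : (jq : LaurentSeries ℚ) ∈ chartSet N ℓ :=
  ⟨(IgusaScheme.jFull N).2, IgusaScheme.subset_chartAlg N ℓ _ rfl⟩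

end BRInt

theorem exists_of_ratLoc (hℓR : ¬ IsUnit (ℓ : R)) (c : ℚ) (hc : c ∈ GaloisRep.ratLocalizedAt ℓ) :
    ∃ r : R, algebraMap R K r = algebraMap ℚ K c := by
  have hden : c.den.Coprime ℓ := hc
  obtain ⟨v, hv⟩ := BRInt.isUnit_natCast hℓR hden
  refine ⟨(c.num : R) * (v⁻¹ : Rˣ), ?_⟩
  have hden0 : ((c.den : K)) ≠ 0 := by exact_mod_cast c.den_ne_zero
  have h1 : algebraMap R K ((v⁻¹ : Rˣ) : R) * (c.den : K) = 1 := by
    have : ((v⁻¹ : Rˣ) : R) * (c.den : R) = 1 := by rw [← hv]; exact v.inv_mul
    have := congrArg (algebraMap R K) this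
    rwa [map_mul, map_natCast, map_one] at this
  rw [eq_ratCast, Rat.cast_def, eq_div_iff hden0, map_mul, map_intCast, mul_assoc, h1, mul_one]

theorem BR_int (hℓR : ¬ IsUnit (ℓ : R)) (hℓN : ¬ ℓ ∣ N) {f : LaurentSeries K}
    (hf : f ∈ BR R K N ℓ) : ∃ y : LaurentSeries R, cR R K y = f := by
  change f ∈ (cR R K).range
  induction hf using Algebra.adjoin_induction with
  | mem y hy =>
      obtain ⟨g, ⟨hg, hg'⟩, rfl⟩ := hy
      have h1 := Fermat.Agent.S28.mem_intSeries_of_chartAlg (Fermat.Agent.S28.wData ℓ) hℓN _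
        (IgusaScheme.sFin_subset N) ⟨g, hg⟩ hg'
      exact BRInt.exists_cR _ (fun n => exists_of_ratLoc hℓR _ (h1 n))
  | algebraMap r => exact ⟨_, (BRInt.algebraMap_eq r).symm⟩
  | add x y _ _ hx hy => exact Subring.add_mem _ hx hy
  | mul x y _ _ hx hy => exact Subring.mul_mem _ hx hy

theorem BR_le_FK {f : LaurentSeries K} (hf : f ∈ BR R K N ℓ) : f ∈ FK K N := by
  induction hf using Algebra.adjoin_induction with
  | mem y hy =>
      obtain ⟨g, ⟨hg, -⟩, rfl⟩ := hy
      exact coeffEmb_mem_FK K N hg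
  | algebraMap r =>
      rw [BRInt.algebraMap_eq']
      exact (FK K N).algebraMap_mem _
  | add x y _ _ hx hy => exact add_mem hx hy
  | mul x y _ _ hx hy => exact mul_mem hx hy

theorem BR_integral (hℓR : ¬ IsUnit (ℓ : R)) {f : LaurentSeries K} (hf : f ∈ BR R K N ℓ) :
    (evJ R K).IsIntegralElem f := by
  induction hf using Algebra.adjoin_induction with
  | mem y hy =>
      obtain ⟨g, ⟨hg, hg'⟩, rfl⟩ := hy
      have h1 : (algebraMap (Algebra.adjoin ↥(GaloisRep.ratLocalizedAt ℓ) {IgusaScheme.jFull N})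
          ↥(modularFunctionFieldFull N)).IsIntegralElem ⟨g, hg⟩ :=
        (IgusaScheme.mem_chartAlg_iff N ℓ).mp hg'
      refine Fermat.Agent.S28.isIntegralElem_transfer _ _ h1
        ((coeffEmb K).comp (modularFunctionFieldFull N).toSubfield.subtype) (evJ R K) ?_
      rintro ⟨c, hc⟩
      change coeffEmb K c.1 ∈ (evJ R K).range
      induction hc using Algebra.adjoin_induction with
      | mem x hx =>
          rw [Set.mem_singleton_iff] at hx
          subst hx
          exact ⟨X, by rw [BRInt.evJ_X]; exact (coeffEmb_jq K).symm⟩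
      | algebraMap r =>
          obtain ⟨r', hr'⟩ := exists_of_ratLoc (R := R) (K := K) hℓR r.1 r.2
          refine ⟨C r', ?_⟩
          rw [BRInt.evJ_C, BRInt.algebraMap_eq', hr']
          have h2 : ((algebraMap ↥(GaloisRep.ratLocalizedAt ℓ) ↥(modularFunctionFieldFull N) r :
              ↥(modularFunctionFieldFull N)) : LaurentSeries ℚ) =
              algebraMap ℚ (LaurentSeries ℚ) (r : ℚ) := by
            show ((algebraMap ℚ ↥(modularFunctionFieldFull N) (r : ℚ) :
              ↥(modularFunctionFieldFull N)) : LaurentSeries ℚ) = _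
            rw [eq_ratCast, eq_ratCast]
            simp
          rw [h2, algebraMap_laurentSeries_eq_single, algebraMap_laurentSeries_eq_single, coeffEmb,
            coeffMap_single]
      | add x y _ _ hx hy =>
          have : coeffEmb K (x + y).1 = coeffEmb K x.1 + coeffEmb K y.1 := map_add _ _ _
          rw [this]
          exact Subring.add_mem _ hx hy
      | mul x y _ _ hx hy =>
          have : coeffEmb K (x * y).1 = coeffEmb K x.1 * coeffEmb K y.1 := map_mul _ _ _
          rw [this]
          exact Subring.mul_mem _ hx hy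
  | algebraMap r =>
      rw [← BRInt.evJ_C]
      exact RingHom.isIntegralElem_map _
  | add x y _ _ hx hy => exact RingHom.IsIntegralElem.add _ hx hy
  | mul x y _ _ hx hy => exact RingHom.IsIntegralElem.mul _ hx hy

theorem evJ_mem_BR (Q : R[X]) : evJ R K Q ∈ BR R K N ℓ := by
  have hj : jqModC K ∈ BR R K N ℓ :=
    Algebra.subset_adjoin ⟨jq, BRInt.jq_mem_chartSet, coeffEmb_jq K⟩
  induction Q using Polynomial.induction_on' with
  | add p q hp hq =>
      rw [map_add]
      exact add_mem hp hq
  | monomial n r =>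
      rw [← Polynomial.C_mul_X_pow_eq_monomial, map_mul, map_pow, BRInt.evJ_C, BRInt.evJ_X]
      exact mul_mem (Subalgebra.algebraMap_mem _ r) (pow_mem hj n)

end Fermat.Agent.S18.V
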