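import Fermat.Agent.S18.V.Defs
import Fermat.Agent.S28

set_option autoImplicit false
set_option linter.unusedSectionVars false

/-!
# V4a-CertA (S28 world): the minimal polynomial of `j(q^d)` over `ℚ(j)` is `ℓ`-integral with separable
reduction

Notation of S28: `K0 = ℚ(X)`, `F1 N ⊇ F_ℚ`, `𝔇 = wData ℓ : Data ℓ V C κ` (`V = W(𝔽̄_ℓ)`, `C = Frac V`,
`κ = 𝔽̄_ℓ`), `Lbar C N` = alg. closure of `C((t))`, `eV V C N : V((t)) → Lbar C N`, `𝔇.redS : V((t)) → κ((t))`.

Sketch.  `z := ⟨jd d, jd_mem_F1 hd⟩ : F1 N` (`jd d = qExpand ℚ d jq` by `qExpand_eq_evz`), `μ := minpoly K0 z`.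
1. As in the proof of `Fermat.Agent.S28.exists_monic_of_embeddings_mem` (copy it): `μ = Q.map (algebraMap ℚ[X] K0)`
   with `Q : ℚ[X][Y]` monic, and `μ.map (algebraMap K0 (Lbar C N)) = ∏_{r ∈ roots} (Y - r)`, every root being
   `σ z` for some `σ : F1 N →ₐ[K0] Lbar C N`, and `σ z = eV V C N (𝔇.EvV (pts 𝔇 hℓN σ d) (jqModC V))` by
   `pts_good` (`Good` = `_ ∧ _ ∧ Maps σ (jd d) _`).  The roots are distinct (`μ` separable, char 0).
2. So the coefficients of `Q` map into `(eV V C N).range`, hence lie in `ℤ_(ℓ)[X]`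
   (as at the end of `Fermat.Agent.S28.mem_chartAlgFin_of`: `𝔇.mem_intSeries_of_eV`,
   `coeff_mem_of_aeval_mem_intSeries`): `Q = P.map (mapRingHom subtype)`.
3. By injectivity of `eV`, the image of `P` in `V((t))[Y]` is `∏ (Y - Y_r)`, `Y_r = 𝔇.EvV P_r (jqModC V)`, with
   pairwise distinct points `P_r`; applying `𝔇.redS`, the image of `P̄` in `κ((t))[Y]` (via
   `𝔽_ℓ[X] → κ((t))`, `X ↦ j(t^N)`) is `∏ (Y - Ȳ_r)` with pairwise distinct `Ȳ_r`
   (`Data.redS_EvV_jq_inj`), so it is separable (`Polynomial.separable_prod_X_sub_C_iff` or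
   `Polynomial.nodup_roots`-style).  `𝔽_ℓ[X] → κ((t))` is injective (`j(t^N)` has negative order:
   `eq_zero_of_orderTop_aeval_pos`), extend it to `FractionRing 𝔽_ℓ[X]` (`IsFractionRing.lift`) and use
   `Polynomial.separable_map`.
-/

noncomputable section

namespace Fermat.Agent.S18.V

open ModularCurve Polynomial Fermat.Agent.S28

namespace CertA

section abs

variable {K0 L E : Type*} [Field K0] [CharZero K0] [Field L] [Algebra K0 L]
  [FiniteDimensional K0 L] [Field E] [IsAlgClosed E] [Algebra K0 E]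

/-- the minimal polynomial of an integral element has coefficients in `ℚ[X]`. -/
theorem exists_monic_lift (φ : ℚ[X] →+* K0)
    (hφ : ∀ r, φ.IsIntegralElem r → r ∈ φ.range) (z : L)
    (hz : ((algebraMap K0 L).comp φ).IsIntegralElem z) :
    ∃ Q : Polynomial ℚ[X], Q.Monic ∧ Q.map φ = minpoly K0 z := by
  classical
  obtain ⟨f, hf, hfz⟩ := hz
  have hzint : IsIntegral K0 z := Algebra.IsIntegral.isIntegral z
  have hmonic : (minpoly K0 z).Monic := minpoly.monic hzint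
  let _ : Algebra ℚ[X] K0 := φ.toAlgebra
  have hdvd : minpoly K0 z ∣ f.map (algebraMap ℚ[X] K0) := by
    apply minpoly.dvd
    rw [aeval_def, eval₂_map]
    exact hfz
  have hl := integralClosure.mem_lifts_of_monic_of_dvd_map K0 hf hmonic hdvd
  have hl' : minpoly K0 z ∈ lifts φ := by
    rw [lifts_iff_coeff_lifts] at hl ⊢
    intro n
    obtain ⟨⟨c, hc⟩, hcn⟩ := hl n
    have : φ.IsIntegralElem c := hc
    obtain ⟨r, hr⟩ := hφ c this
    exact ⟨r, by rw [hr]; exact hcn⟩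
  obtain ⟨Q, hQmap, -, hQmonic⟩ := lifts_and_natDegree_eq_and_monic hl' hmonic
  exact ⟨Q, hQmonic, hQmap⟩

/-- the minimal polynomial is the product over the distinct conjugates. -/
theorem minpoly_map_eq_prod [DecidableEq E] (z : L) :
    (minpoly K0 z).map (algebraMap K0 E) =
      ∏ r ∈ Finset.univ.image (fun σ : L →ₐ[K0] E => σ z), (X - C r) := by
  have hzint : IsIntegral K0 z := Algebra.IsIntegral.isIntegral z
  have hmonic : (minpoly K0 z).Monic := minpoly.monic hzint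
  have hsplit : ((minpoly K0 z).map (algebraMap K0 E)).Splits := IsAlgClosed.splits _
  have hprod := hsplit.eq_prod_roots_of_monic (hmonic.map _)
  have hsep : ((minpoly K0 z).map (algebraMap K0 E)).Separable :=
    (minpoly.irreducible hzint).separable.map
  have hnodup := nodup_roots hsep
  have hfin : Finset.univ.image (fun σ : L →ₐ[K0] E => σ z) =
      ((minpoly K0 z).map (algebraMap K0 E)).roots.toFinset := by
    have h1 := Algebra.IsAlgebraic.range_eval_eq_rootSet_minpoly (F := K0) E z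
    rw [rootSet_def, aroots_def] at h1
    apply Finset.coe_injective
    rw [← h1]
    simp
  rw [hfin, Finset.prod_eq_multiset_prod, Multiset.toFinset_val, Multiset.dedup_eq_self.2 hnodup]
  exact hprod

end abs

section conc

variable {ℓ : ℕ} [Fact ℓ.Prime] {V C κ : Type} [CommRing V] [IsDomain V] [IsPrincipalIdealRing V]
  [Field C] [CharZero C] [Algebra V C] [IsFractionRing V C] [Field κ] [IsAlgClosed κ]
  [Algebra (ZMod ℓ) κ] (𝔇 : Data ℓ V C κ) (N : ℕ) [NeZero N]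

/-- `ℤ_(ℓ) → V`. -/
def rV : Rl ℓ →+* V :=
  liftInj ((algebraMap ℚ C).comp (GaloisRep.ratLocalizedAt ℓ).subtype) (algebraMap V C)
    (IsFractionRing.injective V C) (fun a => (𝔇.mem_iff a.1).2 a.2)

/-- `ℤ_(ℓ)[X] → V((t))`, `X ↦ j(t^N)`. -/
def thV : (Rl ℓ)[X] →+* LaurentSeries V :=
  eval₂RingHom ((algebraMap V (LaurentSeries V)).comp (rV 𝔇)) (evz 1 N (jqModC V))

variable (ℓ κ) in
/-- `𝔽_ℓ[X] → κ((t))`, `X ↦ j(t^N)`. -/
def thK : (ZMod ℓ)[X] →+* LaurentSeries κ :=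
  eval₂RingHom ((algebraMap κ (LaurentSeries κ)).comp (algebraMap (ZMod ℓ) κ)) (evz 1 N (jqModC κ))

/-- `ℤ_(ℓ)[X] → ℚ[X]`. -/
def sub (ℓ : ℕ) : (Rl ℓ)[X] →+* ℚ[X] := mapRingHom (GaloisRep.ratLocalizedAt ℓ).subtype

theorem eV_comp_thV : (eV V C N).comp (thV 𝔇 N) =
    ((algebraMap K0 (Lbar C N)).comp (algebraMap ℚ[X] K0)).comp (sub ℓ) := by
  apply Polynomial.ringHom_ext
  · intro a
    exact congrArg (fun f : Rl ℓ →+* Lbar C N => f a) (ratLoc_ringHom_ext
      (((eV V C N).comp (thV 𝔇 N)).comp Polynomial.C)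
      ((((algebraMap K0 (Lbar C N)).comp (algebraMap ℚ[X] K0)).comp (sub ℓ)).comp Polynomial.C))
  · have h1 : thV 𝔇 N X = evz 1 N (jqModC V) := by
      show Polynomial.eval₂ _ _ X = _
      rw [Polynomial.eval₂_X]
    have h2 : sub ℓ X = X := by
      show Polynomial.map _ X = X
      rw [Polynomial.map_X]
    rw [RingHom.comp_apply, h1, RingHom.comp_apply, h2, RingHom.comp_apply, algebraMap_K0_Lbar,
      kap_algebraMap, pe_apply, Polynomial.eval₂_X, inc_iotaC_jq (V := V)]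

theorem redS_comp_thV : 𝔇.redS.comp (thV 𝔇 N) = (thK ℓ κ N).comp (mapRingHom (resR ℓ)) := by
  apply Polynomial.ringHom_ext
  · intro a
    exact congrArg (fun f : Rl ℓ →+* LaurentSeries κ => f a) (ratLoc_ringHom_ext
      ((𝔇.redS.comp (thV 𝔇 N)).comp Polynomial.C)
      (((thK ℓ κ N).comp (mapRingHom (resR ℓ))).comp Polynomial.C))
  · have h1 : thV 𝔇 N X = evz 1 N (jqModC V) := by
      show Polynomial.eval₂ _ _ X = _
      rw [Polynomial.eval₂_X]
    have h2 : mapRingHom (resR ℓ) X = X := by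
      show Polynomial.map _ X = X
      rw [Polynomial.map_X]
    have h3 : thK ℓ κ N X = evz 1 N (jqModC κ) := by
      show Polynomial.eval₂ _ _ X = _
      rw [Polynomial.eval₂_X]
    rw [RingHom.comp_apply, h1, RingHom.comp_apply, h2, h3]
    show coeffMap 𝔇.red _ = _
    rw [coeffMap_evz, map_one, coeffMap_jq]

theorem thK_injective : Function.Injective (thK ℓ κ N) := by
  rw [injective_iff_map_eq_zero]
  intro P hP
  have h1 : P.map (algebraMap (ZMod ℓ) κ) = 0 := by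
    apply eq_zero_of_orderTop_aeval_pos (1 : κˣ) N
    have : aeval (ev (1 : κˣ) N (jqModC κ)) (P.map (algebraMap (ZMod ℓ) κ)) = thK ℓ κ N P := by
      rw [aeval_def, eval₂_map, ← evz_eq_ev]
      rfl
    rw [this, hP]
    simp
  exact (Polynomial.map_eq_zero_iff (algebraMap (ZMod ℓ) κ).injective).1 h1

variable (ℓ κ) in
/-- `𝔽_ℓ(X) → κ((t))`. -/
def lfK : FractionRing (ZMod ℓ)[X] →+* LaurentSeries κ :=
  IsFractionRing.lift (thK_injective (ℓ := ℓ) (κ := κ) N)

theorem lfK_algebraMap (c : (ZMod ℓ)[X]) :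
    lfK ℓ κ N (algebraMap (ZMod ℓ)[X] (FractionRing (ZMod ℓ)[X]) c) = thK ℓ κ N c := by
  unfold lfK
  exact IsFractionRing.lift_algebraMap _ _

theorem lfK_comp :
    (lfK ℓ κ N).comp (algebraMap (ZMod ℓ)[X] (FractionRing (ZMod ℓ)[X])) = thK ℓ κ N :=
  RingHom.ext fun c => lfK_algebraMap N c

theorem pe_comp_sub : (pe ℚ jq).comp (sub ℓ) = Polynomial.eval₂RingHom
    ((algebraMap ℚ (LaurentSeries ℚ)).comp (GaloisRep.ratLocalizedAt ℓ).subtype) jq := by
  apply Polynomial.ringHom_ext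
  · intro a
    exact congrArg (fun f : Rl ℓ →+* LaurentSeries ℚ => f a) (ratLoc_ringHom_ext
      (((pe ℚ jq).comp (sub ℓ)).comp Polynomial.C)
      ((Polynomial.eval₂RingHom
        ((algebraMap ℚ (LaurentSeries ℚ)).comp (GaloisRep.ratLocalizedAt ℓ).subtype) jq).comp
          Polynomial.C))
  · have h2 : sub ℓ X = X := by
      show Polynomial.map _ X = X
      rw [Polynomial.map_X]
    rw [RingHom.comp_apply, h2, pe_apply, Polynomial.eval₂_X, Polynomial.coe_eval₂RingHom,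
      Polynomial.eval₂_X]

variable {N}

include 𝔇 in
theorem main (hℓN : ¬ ℓ ∣ N) (d : ℕ) [NeZero d] (hd : d ∣ N) :
    ∃ P : ((Rl ℓ)[X])[X], P.Monic ∧ P.eval₂ ((pe ℚ jq).comp (sub ℓ)) (jd d) = 0 ∧
      ((P.map (Polynomial.mapRingHom (resR ℓ))).map
        (algebraMap (ZMod ℓ)[X] (FractionRing (ZMod ℓ)[X]))).Separable := by
  classical
  set z : F1 N := ⟨jd d, jd_mem_F1 hd⟩ with hz
  have hφ : ∀ r, (algebraMap ℚ[X] K0).IsIntegralElem r → r ∈ (algebraMap ℚ[X] K0).range := by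
    intro r hr
    exact IsIntegrallyClosed.isIntegral_iff.1 hr
  have hzint : ((algebraMap K0 (F1 N)).comp (algebraMap ℚ[X] K0)).IsIntegralElem z := by
    rw [intJ_iff]
    exact intJ_jd d (NeZero.ne d)
  obtain ⟨Q, hQmonic, hQmap⟩ := exists_monic_lift (K0 := K0) (L := F1 N) (algebraMap ℚ[X] K0) hφ z
    hzint
  -- the points
  set S : Finset (Pt κ) := Finset.univ.image (fun σ : F1 N →ₐ[K0] Lbar C N => pts 𝔇 hℓN σ d) with hS
  have hS0 : ∀ P ∈ S, P.2 ≠ 0 := by
    intro P hP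
    obtain ⟨σ, -, rfl⟩ := Finset.mem_image.1 hP
    exact (pts_good 𝔇 hℓN σ hd).1
  set Pi₀ : (LaurentSeries V)[X] := ∏ P ∈ S, (X - Polynomial.C (𝔇.EvV P (jqModC V))) with hPi₀
  have hσz : ∀ σ : F1 N →ₐ[K0] Lbar C N, σ z = eV V C N (𝔇.EvV (pts 𝔇 hℓN σ d) (jqModC V)) :=
    fun σ => (pts_good 𝔇 hℓN σ hd).2.2.eq _
  have hM1 : (minpoly K0 z).map (algebraMap K0 (Lbar C N)) = Pi₀.map (eV V C N) := by
    rw [minpoly_map_eq_prod (E := Lbar C N) z]
    have h1 : Finset.univ.image (fun σ : F1 N →ₐ[K0] Lbar C N => σ z) =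
        S.image (fun P => eV V C N (𝔇.EvV P (jqModC V))) := by
      rw [hS, Finset.image_image]
      refine Finset.image_congr fun σ _ => ?_
      exact hσz σ
    rw [h1, Finset.prod_image, hPi₀, Polynomial.map_prod]
    · refine Finset.prod_congr rfl fun P _ => ?_
      rw [Polynomial.map_sub, Polynomial.map_X, Polynomial.map_C]
    · intro P hP P' hP' h
      exact 𝔇.redS_EvV_jq_inj (hS0 P hP) (hS0 P' hP')
        (congrArg 𝔇.redS (eV_injective (V := V) (C := C) N h))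
  -- integrality of the coefficients
  have hM2 : ∀ i j, (Q.coeff i).coeff j ∈ GaloisRep.ratLocalizedAt ℓ := by
    intro i
    have hw : algebraMap K0 (Lbar C N) (algebraMap ℚ[X] K0 (Q.coeff i)) =
        eV V C N (Pi₀.coeff i) := by
      rw [← Polynomial.coeff_map, ← Polynomial.coeff_map, hQmap, hM1, Polynomial.coeff_map]
    rw [algebraMap_K0_Lbar, kap_algebraMap] at hw
    have h1 := 𝔇.mem_intSeries_of_eV N _ _ hw
    rw [← DescFin.aeval_eq_pe] at h1
    exact coeff_mem_of_aeval_mem_intSeries (S := GaloisRep.ratLocalizedAt ℓ) (1 : ℚˣ)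
      (by simp) (by simp) 1 (Q.coeff i).natDegree (Q.coeff i) le_rfl h1
  have hlift : Q ∈ lifts (sub ℓ) := by
    rw [lifts_iff_coeff_lifts]
    intro i
    have h1 : Q.coeff i ∈ lifts (GaloisRep.ratLocalizedAt ℓ).subtype := by
      rw [lifts_iff_coeff_lifts]
      intro j
      exact ⟨⟨_, hM2 i j⟩, rfl⟩
    obtain ⟨c, hc⟩ := (mem_lifts _).1 h1
    exact ⟨c, hc⟩
  obtain ⟨P, hPmap, -, hPmonic⟩ := lifts_and_natDegree_eq_and_monic hlift hQmonic
  refine ⟨P, hPmonic, ?_, ?_⟩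
  · rw [← Polynomial.eval₂_map, hPmap]
    have h1 := minpoly.aeval K0 z
    rw [← hQmap, aeval_def, eval₂_map] at h1
    have h2 := congrArg ((F1 N).val : F1 N →+* LaurentSeries ℚ) h1
    rw [Polynomial.hom_eval₂, map_zero] at h2
    have hcomp : ((F1 N).val : F1 N →+* LaurentSeries ℚ).comp
        ((algebraMap K0 (F1 N)).comp (algebraMap ℚ[X] K0)) = Fermat.Agent.S28.pe ℚ jq :=
      RingHom.ext fun Q => kap_algebraMap Q
    rw [hcomp] at h2
    exact h2
  · have hM5 : P.map (thV 𝔇 N) = Pi₀ := by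
      apply Polynomial.map_injective _ (eV_injective (V := V) (C := C) N)
      rw [Polynomial.map_map, eV_comp_thV, ← Polynomial.map_map, hPmap, ← Polynomial.map_map, hQmap,
        hM1]
    have hM6 : ((P.map (Polynomial.mapRingHom (resR ℓ))).map (thK ℓ κ N)).Separable := by
      rw [Polynomial.map_map, ← redS_comp_thV 𝔇 N, ← Polynomial.map_map, hM5, hPi₀,
        Polynomial.map_prod]
      have : ∀ P ∈ S, (X - Polynomial.C (𝔇.EvV P (jqModC V))).map 𝔇.redS =
          X - Polynomial.C (𝔇.redS (𝔇.EvV P (jqModC V))) := by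
        intro P _
        rw [Polynomial.map_sub, Polynomial.map_X, Polynomial.map_C]
      rw [Finset.prod_congr rfl this, separable_prod_X_sub_C_iff']
      intro P hP P' hP' h
      exact 𝔇.redS_EvV_jq_inj (hS0 P hP) (hS0 P' hP') h
    rw [← lfK_comp, ← Polynomial.map_map] at hM6
    exact (Polynomial.separable_map (lfK ℓ κ N)).1 hM6

end conc

end CertA

/-- `ℤ_(ℓ)[X] → ℚ((q))`, `X ↦ j`. -/
def evJl (ℓ : ℕ) : (Rl ℓ)[X] →+* LaurentSeries ℚ :=
  Polynomial.eval₂RingHom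
    ((algebraMap ℚ (LaurentSeries ℚ)).comp (GaloisRep.ratLocalizedAt ℓ).subtype) jq

theorem exists_sep_poly {N : ℕ} [NeZero N] {ℓ : ℕ} [Fact ℓ.Prime] (hℓN : ¬ ℓ ∣ N) (d : ℕ) [NeZero d]
    (hd : d ∣ N) :
    ∃ P : ((Rl ℓ)[X])[X], P.Monic ∧ P.eval₂ (evJl ℓ) (qExpand ℚ d jq) = 0 ∧
      ((P.map (Polynomial.mapRingHom (resR ℓ))).map
        (algebraMap (ZMod ℓ)[X] (FractionRing (ZMod ℓ)[X]))).Separable := by
  obtain ⟨P, h1, h2, h3⟩ := CertA.main (wData ℓ) hℓN d hd
  refine ⟨P, h1, ?_, h3⟩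
  rw [CertA.pe_comp_sub] at h2
  rw [qExpand_eq_evz]
  exact h2

end Fermat.Agent.S18.V
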