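import Mathlib

set_option autoImplicit false

/-!
# V4b-CertB (pure algebra): a Bezout certificate from separability of the reduction

`A₀` a commutative ring, `red : A₀ → k₀` a surjection onto a field with kernel `(ℓ)`.
`P ∈ A₀[X][Y]` such that the reduction `P̄ ∈ k₀[X][Y]` is separable over `k₀(X)`.
Then `U P + W P' = c + ℓ G` with `c ∈ A₀[X]`, `c̄ ≠ 0`.
-/

noncomputable section

namespace Fermat.Agent.S18.V

open Polynomial

namespace CertB

theorem C_dvd_of_map_eq_zero {A B : Type*} [CommRing A] [CommRing B] (f : A →+* B) (l : A)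
    (hker : RingHom.ker f = Ideal.span {l}) (p : A[X]) (hp : p.map f = 0) : C l ∣ p := by
  rw [Polynomial.C_dvd_iff_dvd_coeff]
  intro i
  have h1 : f (p.coeff i) = 0 := by
    rw [← Polynomial.coeff_map, hp, Polynomial.coeff_zero]
  have h2 : p.coeff i ∈ RingHom.ker f := h1
  rw [hker, Ideal.mem_span_singleton] at h2
  exact h2

theorem ker_mapRingHom {A B : Type*} [CommRing A] [CommRing B] (f : A →+* B) (l : A)
    (hker : RingHom.ker f = Ideal.span {l}) :
    RingHom.ker (Polynomial.mapRingHom f) = Ideal.span {C l} := by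
  ext p
  rw [RingHom.mem_ker, Ideal.mem_span_singleton, Polynomial.coe_mapRingHom]
  constructor
  · exact C_dvd_of_map_eq_zero f l hker p
  · rintro ⟨g, rfl⟩
    have hl : f l = 0 := by
      have : l ∈ RingHom.ker f := by rw [hker]; exact Ideal.mem_span_singleton_self l
      exact this
    rw [Polynomial.map_mul, Polynomial.map_C, hl, C_0, zero_mul]

end CertB

theorem bezout_of_separable {A₀ k₀ : Type} [CommRing A₀] [Field k₀] (red : A₀ →+* k₀)
    (hred : Function.Surjective red) (l : A₀) (hker : RingHom.ker red = Ideal.span {l})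
    (P : (A₀[X])[X])
    (hsep : ((P.map (Polynomial.mapRingHom red)).map
      (algebraMap k₀[X] (FractionRing k₀[X]))).Separable) :
    ∃ (U W G : (A₀[X])[X]) (c : A₀[X]),
      U * P + W * derivative P = C c + C (C l) * G ∧ c.map red ≠ 0 := by
  set φ := algebraMap k₀[X] (FractionRing k₀[X]) with hφ
  have hφinj : Function.Injective φ := IsFractionRing.injective _ _
  set Pb := P.map (Polynomial.mapRingHom red) with hPb
  obtain ⟨a, b, hab⟩ := hsep
  obtain ⟨d₁, hd₁⟩ := IsLocalization.integerNormalization_map_to_map (nonZeroDivisors k₀[X]) a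
  obtain ⟨d₂, hd₂⟩ := IsLocalization.integerNormalization_map_to_map (nonZeroDivisors k₀[X]) b
  set a' := IsLocalization.integerNormalization (nonZeroDivisors k₀[X]) a
  set b' := IsLocalization.integerNormalization (nonZeroDivisors k₀[X]) b
  have hd₁0 : (d₁ : k₀[X]) ≠ 0 := nonZeroDivisors.coe_ne_zero d₁
  have hd₂0 : (d₂ : k₀[X]) ≠ 0 := nonZeroDivisors.coe_ne_zero d₂
  have key : C (d₂ : k₀[X]) * a' * Pb + C (d₁ : k₀[X]) * b' * derivative Pb =
      C ((d₁ : k₀[X]) * (d₂ : k₀[X])) := by
    apply Polynomial.map_injective φ hφinj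
    rw [Polynomial.map_add, Polynomial.map_mul, Polynomial.map_mul, Polynomial.map_mul,
      Polynomial.map_mul, Polynomial.map_C, Polynomial.map_C, Polynomial.map_C, hd₁, hd₂,
      ← Polynomial.derivative_map, map_mul, C_mul]
    rw [Algebra.smul_def, Algebra.smul_def]
    have e1 : algebraMap k₀[X] (FractionRing k₀[X])[X] (d₁ : k₀[X]) = C (φ d₁) := rfl
    have e2 : algebraMap k₀[X] (FractionRing k₀[X])[X] (d₂ : k₀[X]) = C (φ d₂) := rfl
    rw [e1, e2]
    linear_combination (C (φ d₁) * C (φ d₂)) * hab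
  have hsurj1 : Function.Surjective (Polynomial.mapRingHom red) :=
    Polynomial.map_surjective red hred
  have hsurj2 : Function.Surjective (Polynomial.map (Polynomial.mapRingHom red)) :=
    Polynomial.map_surjective _ hsurj1
  obtain ⟨U, hU⟩ := hsurj2 (C (d₂ : k₀[X]) * a')
  obtain ⟨W, hW⟩ := hsurj2 (C (d₁ : k₀[X]) * b')
  obtain ⟨c, hc⟩ := hsurj1 ((d₁ : k₀[X]) * (d₂ : k₀[X]))
  have hzero : (U * P + W * derivative P - C c).map (Polynomial.mapRingHom red) = 0 := by
    rw [Polynomial.map_sub, Polynomial.map_add, Polynomial.map_mul, Polynomial.map_mul,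
      Polynomial.map_C, hU, hW, hc, ← Polynomial.derivative_map, ← hPb, key, sub_self]
  obtain ⟨G, hG⟩ := CertB.C_dvd_of_map_eq_zero (Polynomial.mapRingHom red) (C l)
    (CertB.ker_mapRingHom red l hker) _ hzero
  refine ⟨U, W, G, c, ?_, ?_⟩
  · rw [← hG]; ring
  · have : c.map red = (d₁ : k₀[X]) * (d₂ : k₀[X]) := hc
    rw [this]
    exact mul_ne_zero hd₁0 hd₂0

end Fermat.Agent.S18.V
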