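import Mathlib

set_option autoImplicit false

/-!
# V4a-CertSep (pure algebra): separability of the reduction from distinct reductions of the roots

Abstract form of step 3 of `CertA`.
* `sep_of_roots`: `P ∈ A[Y]`, `θ : A → 𝒱`, `e : 𝒱 → E` injective, `red : 𝒱 → k'`.  If `P` splits over `E` as
  `∏_{r ∈ T} (Y - r)` with `r = e (w r)` and the `red (w r)` pairwise distinct, then `P.map (red ∘ θ)` is separable.
* `sep_descend`: separability descends along an injection `A₁ → k'` to `Frac A₁`.
-/

noncomputable section

namespace Fermat.Agent.S18.V.CertSep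

open Polynomial

theorem sep_of_roots {A 𝒱 E k' : Type*} [CommRing A] [CommRing 𝒱] [Field E] [Field k']
    (P : A[X]) (θ : A →+* 𝒱) (e : 𝒱 →+* E) (he : Function.Injective e) (red : 𝒱 →+* k')
    (T : Finset E) (w : E → 𝒱) (hw : ∀ r ∈ T, e (w r) = r)
    (hs : P.map (e.comp θ) = ∏ r ∈ T, (X - C r))
    (hred : ∀ r ∈ T, ∀ r' ∈ T, red (w r) = red (w r') → r = r') :
    (P.map (red.comp θ)).Separable := by
  have h1 : P.map θ = ∏ r ∈ T, (X - C (w r)) := by
    apply Polynomial.map_injective e he
    rw [Polynomial.map_map, hs, Polynomial.map_prod]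
    refine Finset.prod_congr rfl (fun r hr => ?_)
    rw [Polynomial.map_sub, Polynomial.map_X, Polynomial.map_C, hw r hr]
  have h2 : P.map (red.comp θ) = ∏ r ∈ T, (X - C (red (w r))) := by
    rw [← Polynomial.map_map, h1, Polynomial.map_prod]
    refine Finset.prod_congr rfl (fun r _ => ?_)
    rw [Polynomial.map_sub, Polynomial.map_X, Polynomial.map_C]
  rw [h2, Polynomial.separable_prod_X_sub_C_iff']
  exact hred

theorem sep_descend {A₁ k' : Type*} [CommRing A₁] [IsDomain A₁] [Field k'] (ι : A₁ →+* k')
    (hι : Function.Injective ι) (P : A₁[X]) (h : (P.map ι).Separable) :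
    (P.map (algebraMap A₁ (FractionRing A₁))).Separable := by
  have h1 : (IsFractionRing.lift hι : FractionRing A₁ →+* k').comp
      (algebraMap A₁ (FractionRing A₁)) = ι := by
    ext a
    exact IsFractionRing.lift_algebraMap hι a
  rw [← h1, ← Polynomial.map_map] at h
  exact (Polynomial.separable_map _).1 h

/-- the minimal polynomial over `E` (algebraically closed) as a product over a finset of conjugates. -/
theorem minpoly_map_eq_prod {K0 L E : Type*} [Field K0] [CharZero K0] [Field L] [Algebra K0 L]
    [FiniteDimensional K0 L] [Field E] [IsAlgClosed E] [Algebra K0 E] (z : L) :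
    ∃ T : Finset E, (minpoly K0 z).map (algebraMap K0 E) = ∏ r ∈ T, (X - C r) ∧
      ∀ r ∈ T, ∃ σ : L →ₐ[K0] E, σ z = r := by
  classical
  have hzint : IsIntegral K0 z := Algebra.IsIntegral.isIntegral z
  have hmonic : (minpoly K0 z).Monic := minpoly.monic hzint
  have hsep : ((minpoly K0 z).map (algebraMap K0 E)).Separable :=
    ((minpoly.irreducible hzint).separable).map
  have hsplit : ((minpoly K0 z).map (algebraMap K0 E)).Splits := IsAlgClosed.splits _
  have hprod := hsplit.eq_prod_roots_of_monic (hmonic.map _)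
  have hnodup := Polynomial.nodup_roots hsep
  refine ⟨((minpoly K0 z).map (algebraMap K0 E)).roots.toFinset, ?_, ?_⟩
  · conv_lhs => rw [hprod]
    rw [Finset.prod_eq_multiset_prod, Multiset.toFinset_val, Multiset.dedup_eq_self.2 hnodup]
  · intro r hr
    rw [Multiset.mem_toFinset] at hr
    have hr' : r ∈ (minpoly K0 z).rootSet E := by
      rw [rootSet_def, aroots_def]
      simpa using hr
    rw [← Algebra.IsAlgebraic.range_eval_eq_rootSet_minpoly E z] at hr'
    obtain ⟨σ, rfl⟩ := hr'
    exact ⟨σ, rfl⟩

end Fermat.Agent.S18.V.CertSep
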