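import Fermat.Agent.S18.AbsDefs
import Fermat.Prelude.Def_ModularCurve_ReductionModL
import Fermat.Prelude.Def_ModularCurve_IgusaScheme

set_option autoImplicit false

/-!
# S18, chapter V (vertical glue): common definitions

`R` a DVR, `K = Frac R` (char. 0), residue characteristic `ℓ ∤ N`.
* `cR R K : R((q)) → K((q))`, `Om K` = an algebraic closure of `K((q))`, `inc K : K((q)) → Om K`;
* `FK K N` = the function field of `X₀(N)` over `K` inside `K((q))` (Prelude's
  `modularFunctionFieldFullC K N`).
-/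

noncomputable section

namespace Fermat.Agent.S18.V

open ModularCurve Polynomial

/-- `R((q)) → K((q))`. -/
abbrev cR (R K : Type) [CommRing R] [Field K] [Algebra R K] :
    LaurentSeries R →+* LaurentSeries K := coeffMap (algebraMap R K)

/-- the big field: an algebraic closure of `K((q))`. -/
abbrev Om (K : Type) [Field K] : Type := AlgebraicClosure (LaurentSeries K)

/-- `K((q)) → Om K`. -/
abbrev inc (K : Type) [Field K] : LaurentSeries K →+* Om K := algebraMap _ _

/-- the function field of `X₀(N)` over `K`. -/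
abbrev FK (K : Type) [Field K] (N : ℕ) : IntermediateField K (LaurentSeries K) :=
  modularFunctionFieldFullC K N

theorem coeffEmb_mem_FK (K : Type) [Field K] [Algebra ℚ K] (N : ℕ) {f : LaurentSeries ℚ}
    (hf : f ∈ modularFunctionFieldFull N) : coeffEmb K f ∈ FK K N := by
  have hf' : f ∈ Subfield.closure
      (Set.range (algebraMap ℚ (LaurentSeries ℚ)) ∪ divisorExpansions N) := hf
  clear hf
  induction hf' using Subfield.closure_induction with
  | mem y hy =>
      rcases hy with ⟨a, rfl⟩ | ⟨d, hd, hdN, rfl⟩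
      · have : coeffEmb K (algebraMap ℚ (LaurentSeries ℚ) a) =
            algebraMap K (LaurentSeries K) (algebraMap ℚ K a) := by
          rw [algebraMap_laurentSeries_eq_single, algebraMap_laurentSeries_eq_single, coeffEmb,
            coeffMap_single]
        rw [this]
        exact (FK K N).algebraMap_mem _
      · have : coeffEmb K (qExpand ℚ d jq) = qExpand K d (jqModC K) := by
          have h1 : (jq : LaurentSeries ℚ) = jqModC ℚ := rfl
          rw [coeffEmb, coeffMap_qExpand, h1, coeffMap_jqModC]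
        rw [this]
        exact jqModCd_mem_full K N hdN
  | one => simp
  | add x y _ _ hx hy => simpa using add_mem hx hy
  | neg x _ hx => simpa using neg_mem hx
  | inv x _ hx => simpa using inv_mem hx
  | mul x y _ _ hx hy => simpa using mul_mem hx hy

/-- `F_ℚ → F_K`. -/
def baseQ (K : Type) [Field K] [Algebra ℚ K] (N : ℕ) : ↥(modularFunctionFieldFull N) →+* ↥(FK K N) where
  toFun f := ⟨coeffEmb K f.1, coeffEmb_mem_FK K N f.2⟩
  map_one' := Subtype.ext (map_one (coeffEmb K))
  map_mul' f g := Subtype.ext (map_mul (coeffEmb K) f.1 g.1)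
  map_zero' := Subtype.ext (map_zero (coeffEmb K))
  map_add' f g := Subtype.ext (map_add (coeffEmb K) f.1 g.1)

@[simp] theorem baseQ_coe (K : Type) [Field K] [Algebra ℚ K] (N : ℕ)
    (f : ↥(modularFunctionFieldFull N)) : ((baseQ K N f : ↥(FK K N)) : LaurentSeries K) = coeffEmb K f.1 :=
  rfl

/-- `j(q^d) ∈ F_ℚ`. -/
def jdQ (N d : ℕ) [NeZero d] (hd : d ∣ N) : ↥(modularFunctionFieldFull N) :=
  ⟨qExpand ℚ d jq, jqd_mem_full N hd⟩

/-- `j ∈ F_K`. -/
def jK (K : Type) [Field K] (N : ℕ) : ↥(FK K N) := ⟨jqModC K, jqModC_mem_full K N⟩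

theorem coeffEmb_jq (K : Type) [Field K] [Algebra ℚ K] : coeffEmb K jq = jqModC K := by
  have h1 : (jq : LaurentSeries ℚ) = jqModC ℚ := rfl
  rw [coeffEmb, h1, coeffMap_jqModC]

theorem baseQ_jFull (K : Type) [Field K] [Algebra ℚ K] (N : ℕ) [NeZero N] :
    baseQ K N (IgusaScheme.jFull N) = jK K N :=
  Subtype.ext (coeffEmb_jq K)

theorem baseQ_jdQ_coe (K : Type) [Field K] [Algebra ℚ K] (N d : ℕ) [NeZero d] (hd : d ∣ N) :
    ((baseQ K N (jdQ N d hd) : ↥(FK K N)) : LaurentSeries K) = qExpand K d (jqModC K) := by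
  have h1 : (jq : LaurentSeries ℚ) = jqModC ℚ := rfl
  rw [baseQ_coe, jdQ, coeffEmb, coeffMap_qExpand, h1, coeffMap_jqModC]

end Fermat.Agent.S18.V
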