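import Fermat.Agent.S18.V.CertA
import Fermat.Agent.S18.V.CertB
import Fermat.Agent.S18.AT.Val

set_option autoImplicit false
set_option linter.unusedSectionVars false
set_option linter.style.haveILetI false

/-!
# V5-Transfer: distinct conjugates of `j(q^d)` differ by a unit, in ANY valued field

`(Ω, O)` a valued field with `ℓ ∈ 𝔪_O`, `φ φ' : F_ℚ → Ω` two ring homs with the same value `J` at `j`, `J`
being "Gauss" (`J ∈ O` and `Q(J) ∈ 𝔪_O → ℓ ∣ Q` for `Q ∈ ℤ[X]`).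

Sketch.  `exists_sep_poly` + `bezout_of_separable (resR ℓ) _ (ℓ : Rl ℓ) (ker_resR ℓ)` give `P U W G c`.
`θ : (Rl ℓ)[X] →+* Ω := eval₂RingHom (φ restricted to the constants ℤ_(ℓ) ⊆ ℚ ⊆ F_ℚ) J`; it is the same for
`φ` and `φ'` (`ratLoc_ringHom_ext`) and `φ (f) = θ`-evaluation: `φ ∘ (corestriction of evJl) = θ`.
`θ` takes values in `O` (an integer prime to `ℓ` is a unit of `O`: Bezout with `ℓ ∈ 𝔪_O`).
* `y := φ (jdQ N d hd)` is a root of the monic `P.map θ ∈ O[Y]`, so `y ∈ O` (integrally closed), same for `y'`.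
* `θ c` is a unit of `O`: `s c ∈ ℤ[X]` for some integer `s` prime to `ℓ`, not divisible by `ℓ`; use `hG`.
* evaluating the Bezout identity at `y`: `W(y) P'(y) = θ c + ℓ G(y)` is a unit, so `P'(y)` is a unit of `O`.
* `P.map θ = (Y - y) * Q₁` with `Q₁ ∈ O[Y]` (`Polynomial.divByMonic`/`mul_divByMonic_eq_iff_isRoot`, over the
  subring `O`), `P'(y) = Q₁(y)`; if `y' ≠ y` then `Q₁(y') = 0` and `y - y' ∣ Q₁(y) - Q₁(y')` in `O`
  (`Polynomial.sub_dvd_eval_sub`), so `y - y'` divides a unit.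
-/

noncomputable section

namespace Fermat.Agent.S18.V

open ModularCurve Polynomial Fermat.Agent.S28

namespace Transfer

/-- the abstract core: a Bezout certificate forces distinct roots to differ by a unit. -/
theorem core {B S : Type} [CommRing B] [CommRing S] [IsDomain S] [IsLocalRing S] (θ : B →+* S)
    (P U W G : B[X]) (c l : B) (h : U * P + W * derivative P = C c + C l * G)
    (hc : IsUnit (θ c)) (hl : θ l ∈ IsLocalRing.maximalIdeal S) (y y' : S)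
    (hy : P.eval₂ θ y = 0) (hy' : P.eval₂ θ y' = 0) (hne : y ≠ y') : IsUnit (y - y') := by
  have h1 := congrArg (fun f => f.eval₂ θ y) h
  simp only [eval₂_add, eval₂_mul, eval₂_C, hy, mul_zero, zero_add] at h1
  have h2 : IsUnit (W.eval₂ θ y * (derivative P).eval₂ θ y) := by
    rw [h1]
    by_contra hcon
    have h3 : θ c + θ l * G.eval₂ θ y ∈ IsLocalRing.maximalIdeal S :=
      (IsLocalRing.mem_maximalIdeal _).mpr hcon
    have h4 : θ c ∈ IsLocalRing.maximalIdeal S := by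
      have := Ideal.sub_mem _ h3 (Ideal.mul_mem_right (G.eval₂ θ y) _ hl)
      rwa [add_sub_cancel_right] at this
    exact (IsLocalRing.mem_maximalIdeal _).mp h4 hc
  have h3 : IsUnit ((derivative P).eval₂ θ y) := isUnit_of_mul_isUnit_right h2
  obtain ⟨k, hk⟩ := (P.map θ).binomExpansion y (y' - y)
  rw [add_sub_cancel, eval_map, eval_map, hy, hy', derivative_map, eval_map, zero_add] at hk
  have h4 : (derivative P).eval₂ θ y = (y - y') * k := by
    have h5 : (y' - y) * ((derivative P).eval₂ θ y - (y - y') * k) = 0 := by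
      linear_combination -hk
    rcases mul_eq_zero.mp h5 with h6 | h6
    · exact absurd (sub_eq_zero.mp h6).symm hne
    · exact sub_eq_zero.mp h6
  rw [h4] at h3
  exact isUnit_of_mul_isUnit_left h3

section loc

variable {ℓ : ℕ} [Fact ℓ.Prime]

/-- clearing denominators in `ℤ_(ℓ)[X]`. -/
theorem exists_int_poly (c : (Rl ℓ)[X]) : ∃ (s : ℕ) (Q : ℤ[X]), s.Coprime ℓ ∧
    Q.map (Int.castRingHom (Rl ℓ)) = C (s : Rl ℓ) * c := by
  induction c using Polynomial.induction_on' with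
  | add c₁ c₂ h₁ h₂ =>
    obtain ⟨s₁, Q₁, hs₁, hQ₁⟩ := h₁
    obtain ⟨s₂, Q₂, hs₂, hQ₂⟩ := h₂
    refine ⟨s₁ * s₂, C (s₂ : ℤ) * Q₁ + C (s₁ : ℤ) * Q₂, hs₁.mul_left hs₂, ?_⟩
    rw [Polynomial.map_add, Polynomial.map_mul, Polynomial.map_mul, hQ₁, hQ₂, map_C, map_C]
    simp only [eq_intCast, Int.cast_natCast, Nat.cast_mul, C_mul]
    ring
  | monomial n a =>
    refine ⟨(a : ℚ).den, monomial n (a : ℚ).num, a.2, ?_⟩
    rw [map_monomial, C_mul_monomial]
    congr 1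
    apply Subtype.ext
    simp [Rat.den_mul_eq_num]

theorem resR_surjective : Function.Surjective (resR ℓ) := by
  intro z
  refine ⟨(z.val : Rl ℓ), ?_⟩
  rw [map_natCast, ZMod.natCast_zmod_val]

/-- integers prime to `ℓ` are units of `O`. -/
theorem natCast_notMem {Ω : Type} [Field Ω] (O : ValuationSubring Ω) (hℓ : (ℓ : Ω) ∈ O.nonunits)
    {s : ℕ} (hs : s.Coprime ℓ) : (s : Ω) ∉ O.nonunits := by
  intro h
  obtain ⟨a, b, hab⟩ := Nat.isCoprime_iff_coprime.mpr hs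
  have h1 := congrArg (Int.cast : ℤ → Ω) hab
  push_cast at h1
  apply one_notMem_nonunits O
  rw [← h1]
  exact add_mem_nonunits O (mul_mem_nonunits O (intCast_mem O a) h)
    (mul_mem_nonunits O (intCast_mem O b) hℓ)

/-- every ring hom `ℤ_(ℓ) → Ω` has values in `O`. -/
theorem map_Rl_mem {Ω : Type} [Field Ω] (O : ValuationSubring Ω) (hℓ : (ℓ : Ω) ∈ O.nonunits)
    (θ₀ : Rl ℓ →+* Ω) (r : Rl ℓ) : θ₀ r ∈ O := by
  have h1 : r * ((r : ℚ).den : Rl ℓ) = ((r : ℚ).num : Rl ℓ) := by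
    apply Subtype.ext
    simp [Rat.mul_den_eq_num]
  have h2 := congrArg θ₀ h1
  rw [map_mul, map_natCast, map_intCast] at h2
  have h3 := natCast_notMem O hℓ r.2
  have h4 : (((r : ℚ).den : ℕ) : Ω) ≠ 0 := by
    intro h
    rw [h] at h3
    exact h3 (zero_mem_nonunits O)
  have h5 : θ₀ r = ((r : ℚ).num : Ω) * (((r : ℚ).den : ℕ) : Ω)⁻¹ := by
    rw [← h2, mul_inv_cancel_right₀ h4]
  rw [h5]
  exact O.mul_mem _ _ (intCast_mem O _) (inv_mem_of_notMem_nonunits O (natCast_mem O _) h3)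

theorem eval₂_mem {Ω B : Type} [Field Ω] [CommRing B] (O : ValuationSubring Ω) (θ₀ : B →+* Ω)
    (h : ∀ r, θ₀ r ∈ O) {J : Ω} (hJ : J ∈ O) (b : B[X]) : b.eval₂ θ₀ J ∈ O := by
  rw [eval₂_eq_sum_range]
  exact O.sum_mem fun i _ => O.mul_mem _ _ (h _) (O.pow_mem hJ i)

/-- the Gauss property passes from `ℤ[X]` to `ℤ_(ℓ)[X]`. -/
theorem gauss_Rl {Ω : Type} [Field Ω] (O : ValuationSubring Ω)
    (θ₀ : Rl ℓ →+* Ω) {J : Ω}
    (hG : ∀ Q : ℤ[X], Q.eval₂ (Int.castRingHom Ω) J ∈ O.nonunits → ∀ i, (ℓ : ℤ) ∣ Q.coeff i)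
    (c : (Rl ℓ)[X]) (hc : c.eval₂ θ₀ J ∈ O.nonunits) : c.map (resR ℓ) = 0 := by
  obtain ⟨s, Q, hs, hQ⟩ := exists_int_poly c
  have h1 : Q.eval₂ (Int.castRingHom Ω) J = (s : Ω) * c.eval₂ θ₀ J := by
    have h2 : (Q.map (Int.castRingHom (Rl ℓ))).eval₂ θ₀ J = (C (s : Rl ℓ) * c).eval₂ θ₀ J := by
      rw [hQ]
    rw [eval₂_map, eval₂_mul, eval₂_C, map_natCast] at h2
    rw [← h2]
    congr 1
    exact RingHom.ext_int _ _
  have h3 := hG Q (by rw [h1]; exact mul_mem_nonunits O (natCast_mem O s) hc)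
  ext i
  rw [coeff_map, coeff_zero]
  have h4 : resR ℓ ((Q.map (Int.castRingHom (Rl ℓ))).coeff i) =
      resR ℓ ((C (s : Rl ℓ) * c).coeff i) := by rw [hQ]
  rw [coeff_map, coeff_C_mul, map_mul, map_natCast, eq_intCast, map_intCast] at h4
  have h5 : ((Q.coeff i : ℤ) : ZMod ℓ) = 0 := (ZMod.intCast_zmod_eq_zero_iff_dvd _ _).mpr (h3 i)
  rw [h5] at h4
  have h6 : (s : ZMod ℓ) ≠ 0 := by
    rw [Ne, ZMod.natCast_eq_zero_iff]
    intro h
    have h7 : ℓ ∣ Nat.gcd s ℓ := Nat.dvd_gcd h dvd_rfl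
    rw [hs] at h7
    exact (Fact.out : ℓ.Prime).one_lt.ne' (Nat.dvd_one.mp h7)
  exact (mul_eq_zero.mp h4.symm).resolve_left h6

end loc

end Transfer

theorem jd_mem_and_sub_unit {N : ℕ} [NeZero N] {ℓ : ℕ} [Fact ℓ.Prime] (hℓN : ¬ ℓ ∣ N)
    {Ω : Type} [Field Ω] (O : ValuationSubring Ω) (φ φ' : ↥(modularFunctionFieldFull N) →+* Ω)
    (hj : φ (IgusaScheme.jFull N) = φ' (IgusaScheme.jFull N)) (hℓ : (ℓ : Ω) ∈ O.nonunits)
    (hJ : φ (IgusaScheme.jFull N) ∈ O)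
    (hG : ∀ Q : ℤ[X], Q.eval₂ (Int.castRingHom Ω) (φ (IgusaScheme.jFull N)) ∈ O.nonunits →
      ∀ i, (ℓ : ℤ) ∣ Q.coeff i)
    (d : ℕ) [NeZero d] (hd : d ∣ N) :
    φ (jdQ N d hd) ∈ O ∧
      (φ (jdQ N d hd) = φ' (jdQ N d hd) ∨ φ (jdQ N d hd) - φ' (jdQ N d hd) ∉ O.nonunits) := by
  obtain ⟨P, hPm, hP0, hsep⟩ := exists_sep_poly hℓN d hd
  obtain ⟨U, W, G, c, hbez, hc⟩ := bezout_of_separable (resR ℓ) Transfer.resR_surjective
    (ℓ : Rl ℓ) (ker_resR ℓ) P hsep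
  -- the evaluation maps
  let ι₀ : Rl ℓ →+* ↥(modularFunctionFieldFull N) :=
    (algebraMap ℚ ↥(modularFunctionFieldFull N)).comp (GaloisRep.ratLocalizedAt ℓ).subtype
  let evF : (Rl ℓ)[X] →+* ↥(modularFunctionFieldFull N) :=
    Polynomial.eval₂RingHom ι₀ (IgusaScheme.jFull N)
  let sub : ↥(modularFunctionFieldFull N) →+* LaurentSeries ℚ :=
    algebraMap ↥(modularFunctionFieldFull N) (LaurentSeries ℚ)
  have hsub : sub.comp evF = evJl ℓ := by
    apply Polynomial.ringHom_ext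
    · intro a
      simp only [evF, evJl, RingHom.comp_apply, coe_eval₂RingHom, eval₂_C]
      exact RingHom.congr_fun (RingHom.ext_rat
        (sub.comp (algebraMap ℚ ↥(modularFunctionFieldFull N))) (algebraMap ℚ (LaurentSeries ℚ))) _
    · simp only [evF, evJl, RingHom.comp_apply, coe_eval₂RingHom, eval₂_X]
      rfl
  have hroot : P.eval₂ evF (jdQ N d hd) = 0 := by
    apply sub.injective
    rw [Polynomial.hom_eval₂, hsub, map_zero]
    exact hP0
  have hθθ' : φ.comp evF = φ'.comp evF := by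
    apply Polynomial.ringHom_ext
    · intro a
      simp only [evF, RingHom.comp_apply, coe_eval₂RingHom, eval₂_C]
      exact RingHom.congr_fun (ratLoc_ringHom_ext (φ.comp ι₀) (φ'.comp ι₀)) a
    · simp only [evF, RingHom.comp_apply, coe_eval₂RingHom, eval₂_X]
      exact hj
  have hθ : ∀ b : (Rl ℓ)[X], φ (evF b) = b.eval₂ (φ.comp ι₀) (φ (IgusaScheme.jFull N)) := by
    intro b
    simp only [evF, coe_eval₂RingHom]
    rw [Polynomial.hom_eval₂]
  have hθO : ∀ b : (Rl ℓ)[X], (φ.comp evF) b ∈ O := by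
    intro b
    rw [RingHom.comp_apply, hθ]
    exact Transfer.eval₂_mem O _ (Transfer.map_Rl_mem O hℓ _) hJ b
  have hy : P.eval₂ (φ.comp evF) (φ (jdQ N d hd)) = 0 := by
    rw [← Polynomial.hom_eval₂, hroot, map_zero]
  have hy' : P.eval₂ (φ.comp evF) (φ' (jdQ N d hd)) = 0 := by
    rw [hθθ', ← Polynomial.hom_eval₂, hroot, map_zero]
  have hyO : φ (jdQ N d hd) ∈ O := mem_of_isIntegralElem O _ hθO ⟨P, hPm, hy⟩
  have hyO' : φ' (jdQ N d hd) ∈ O := mem_of_isIntegralElem O _ hθO ⟨P, hPm, hy'⟩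
  refine ⟨hyO, ?_⟩
  by_cases hne : φ (jdQ N d hd) = φ' (jdQ N d hd)
  · exact Or.inl hne
  right
  let θO : (Rl ℓ)[X] →+* O := (φ.comp evF).codRestrict O.toSubring hθO
  have hθOc : O.subtype.comp θO = φ.comp evF := by
    ext <;> rfl
  have hev : ∀ z : O, P.eval₂ (φ.comp evF) (z : Ω) = 0 → P.eval₂ θO z = 0 := by
    intro z hz
    apply O.subtype_injective
    rw [Polynomial.hom_eval₂, hθOc, map_zero]
    exact hz
  have hcu : IsUnit (θO c) := by
    by_contra hcon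
    have h1 : θO c ∈ IsLocalRing.maximalIdeal O := (IsLocalRing.mem_maximalIdeal _).mpr hcon
    rw [← ValuationSubring.coe_mem_nonunits_iff] at h1
    have h2 : φ (evF c) ∈ O.nonunits := h1
    rw [hθ] at h2
    exact hc (Transfer.gauss_Rl O _ hG c h2)
  have hlm : θO (C (ℓ : Rl ℓ)) ∈ IsLocalRing.maximalIdeal O := by
    rw [← ValuationSubring.coe_mem_nonunits_iff]
    have h2 : ((θO (C (ℓ : Rl ℓ)) : O) : Ω) = (ℓ : Ω) := by
      show φ (evF (C (ℓ : Rl ℓ))) = _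
      rw [hθ, eval₂_C, map_natCast]
    rw [h2]
    exact hℓ
  have hfin := Transfer.core θO P U W G c (C (ℓ : Rl ℓ)) hbez hcu hlm ⟨_, hyO⟩ ⟨_, hyO'⟩
    (hev ⟨_, hyO⟩ hy) (hev ⟨_, hyO'⟩ hy') (fun h => hne (congrArg Subtype.val h))
  intro hmem
  have h3 : ((⟨_, hyO⟩ - ⟨_, hyO'⟩ : O) : Ω) ∈ O.nonunits := hmem
  rw [ValuationSubring.coe_mem_nonunits_iff] at h3
  exact (IsLocalRing.mem_maximalIdeal _).mp h3 hfin

end Fermat.Agent.S18.V
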