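import Fermat.Agent.S18.V.EmbJ
import Fermat.Agent.S18.V.Transfer

set_option autoImplicit false

/-!
# V6d-Distinct: distinct embeddings of `M = F_K(x)` have distinct reductions

KERNEL WARNING: see `Hyp.lean`.

Sketch.  Let `φ ≠ φ'` in `Emb`.
* `ext_M`: two ring homs `M → Ω` which agree on `K`, on `xM` and on the elements
  `inclF hFM (baseQ K N (jdQ N d hd))` (`d ∣ N`; underlying series `qExpand K d (jqModC K)`, `baseQ_jdQ_coe`) are equal
  (`IntermediateField.adjoin_induction` on the membership proof `hM y.2`, or: the equaliser is a subfield; elements of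
  `divisorExpansionsC K N` are by definition the `qExpand K d (jqModC K)`, `0 < d`, `d ∣ N`).
* so `φ, φ'` differ on some `j_d`: take `y = inclF hFM (baseQ K N (jdQ N d hd))`.  Apply `jd_mem_and_sub_unit H.hℓN
  (gaussO R K) (ψ.comp ((inclF hFM).comp (baseQ K N)))` for `ψ ∈ Emb` (hypotheses: `baseQ_jFull`, `H.emb_j`,
  `natCast_mem_nonunits`, `isGauss_j`, `gauss_int`).
-/

noncomputable section

namespace Fermat.Agent.S18.V

open ModularCurve Polynomial

variable {R K : Type} [CommRing R] [IsDomain R] [IsDiscreteValuationRing R] [Field K] [CharZero K]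
  [Algebra R K] [IsFractionRing R K] {N : ℕ} [NeZero N] {ℓ : ℕ} [Fact ℓ.Prime]
  {M : IntermediateField K (LaurentSeries K)}

/-- two ring homs on `M = F_K(x)` agreeing on `K`, the `j_d` and `x` are equal. -/
theorem ext_M {Ω : Type} [Field Ω] (hFM : FK K N ≤ M) (xM : ↥M)
    (hM : M ≤ IntermediateField.adjoin K (divisorExpansionsC K N ∪ {xM.1})) (φ φ' : ↥M →+* Ω)
    (hK : ∀ c : K, φ (algebraMap K _ c) = φ' (algebraMap K _ c))
    (hj : ∀ (d : ℕ) [NeZero d] (hd : d ∣ N),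
      φ (inclF hFM (baseQ K N (jdQ N d hd))) = φ' (inclF hFM (baseQ K N (jdQ N d hd))))
    (hx : φ xM = φ' xM) : φ = φ' := by
  have key : ∀ y : LaurentSeries K,
      y ∈ IntermediateField.adjoin K (divisorExpansionsC K N ∪ {xM.1}) →
      ∃ g : ↥M, (g : LaurentSeries K) = y ∧ φ g = φ' g := by
    intro y hy
    induction hy using IntermediateField.adjoin_induction with
    | mem y hy =>
      rcases hy with ⟨d, hd0, hd, rfl⟩ | hy
      · refine ⟨inclF hFM (baseQ K N (jdQ N d hd)), ?_, hj d hd⟩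
        rw [inclF_coe, baseQ_jdQ_coe]
      · exact ⟨xM, hy.symm, hx⟩
    | algebraMap r => exact ⟨algebraMap K ↥M r, rfl, hK r⟩
    | add y z _ _ h1 h2 =>
      obtain ⟨g1, rfl, h1⟩ := h1
      obtain ⟨g2, rfl, h2⟩ := h2
      exact ⟨g1 + g2, rfl, by rw [map_add, map_add, h1, h2]⟩
    | inv y _ h1 =>
      obtain ⟨g1, rfl, h1⟩ := h1
      exact ⟨g1⁻¹, rfl, by rw [map_inv₀, map_inv₀, h1]⟩
    | mul y z _ _ h1 h2 =>
      obtain ⟨g1, rfl, h1⟩ := h1
      obtain ⟨g2, rfl, h2⟩ := h2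
      exact ⟨g1 * g2, rfl, by rw [map_mul, map_mul, h1, h2]⟩
  ext y
  obtain ⟨g, hg, h⟩ := key y.1 (hM y.2)
  have : g = y := Subtype.ext hg
  rwa [this] at h

theorem VHyp.distinctRed {xM : ↥M} (H : VHyp R N ℓ xM.1) (hFM : FK K N ≤ M)
    (hM : M ≤ IntermediateField.adjoin K (divisorExpansionsC K N ∪ {xM.1})) :
    DistinctRed (vdata R K) xM (inc K xM.1) := by
  intro φ hφ φ' hφ' hne
  -- they differ on some `j_d`
  have hex : ∃ (d : ℕ) (_ : NeZero d) (hd : d ∣ N),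
      φ (inclF hFM (baseQ K N (jdQ N d hd))) ≠ φ' (inclF hFM (baseQ K N (jdQ N d hd))) := by
    by_contra hcon
    push Not at hcon
    apply hne
    refine ext_M hFM xM hM φ φ' (fun c => ?_) (fun d _ hd => hcon d _ hd) (hφ.2.trans hφ'.2.symm)
    have h1 := congrArg (fun f : K →+* Om K => f c) hφ.1
    have h2 := congrArg (fun f : K →+* Om K => f c) hφ'.1
    exact h1.trans h2.symm
  obtain ⟨d, hd0, hd, hdiff⟩ := hex
  have hjF : ∀ ψ : ↥M →+* (vdata R K).Ω, ψ ∈ EmbV R xM →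
      (ψ.comp ((inclF hFM).comp (baseQ K N))) (IgusaScheme.jFull N) = inc K (jqModC K) := by
    intro ψ hψ
    rw [RingHom.comp_apply, RingHom.comp_apply, baseQ_jFull]
    exact H.emb_j hFM hψ
  have hall : ∀ ψ ψ' : ↥M →+* (vdata R K).Ω, ψ ∈ EmbV R xM → ψ' ∈ EmbV R xM →
      ψ (inclF hFM (baseQ K N (jdQ N d hd))) ∈ gaussO R K ∧
      (ψ (inclF hFM (baseQ K N (jdQ N d hd))) = ψ' (inclF hFM (baseQ K N (jdQ N d hd))) ∨
        ψ (inclF hFM (baseQ K N (jdQ N d hd))) - ψ' (inclF hFM (baseQ K N (jdQ N d hd))) ∉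
          (gaussO R K).nonunits) := by
    intro ψ ψ' hψ hψ'
    exact jd_mem_and_sub_unit H.hℓN (gaussO R K) (ψ.comp ((inclF hFM).comp (baseQ K N)))
      (ψ'.comp ((inclF hFM).comp (baseQ K N))) ((hjF ψ hψ).trans (hjF ψ' hψ').symm)
      (natCast_mem_nonunits H.hℓR) (by rw [hjF ψ hψ]; exact (isGauss_j R K).1)
      (by rw [hjF ψ hψ]; exact gauss_int H.hℓR) d hd
  refine ⟨inclF hFM (baseQ K N (jdQ N d hd)), fun ψ hψ => (hall ψ ψ hψ hψ).1, ?_⟩
  exact ((hall φ φ' hφ hφ').2).resolve_left hdiff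

end Fermat.Agent.S18.V
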