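import Fermat.Agent.S18.V.BRDiv
import Fermat.Agent.S18.V.BRFrac
import Fermat.Agent.S18.AT.Val

set_option autoImplicit false
set_option linter.unusedSectionVars false

/-!
# V3a-Unique: uniqueness of the extension of the Gauss valuation from `K(j)` to `F_K`

`GaussHom R O φ`: the ring hom `φ : F_K → Ω` into a valued field `(Ω, O)` induces on `K(j)` the Gauss
valuation.  Then the valuation induced on `F_K` is the Gauss valuation of `q`-expansions.

Sketches.
* `map_BR_mem`: `BR_integral` + `O` integrally closed in `Ω` (image of `evJ Q` is `Q.eval₂ .. (φ j) ∈ O`).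
* `map_BR_unit`: `d = cR y ∈ BR`, `y` with a unit coefficient.  Take `m ∈ R[X][T]` monic with `m(d) = 0`
  (`BR_integral`), coefficients `Q_i`.  Let `k` be minimal such that `Q_k` has a unit coefficient
  (exists: `m` is monic).  In `κ((q))`: `d̄^k (Q̄_k(j̄) + d̄ s̄) = 0` with
  `s = ∑_{i>k} Q_i(j) d^{i-k-1} ∈ BR`, and `d̄ ≠ 0`, so `Q_k(j) + d s ∈ BR` has all coefficients nonunits;
  `BR_div`: `Q_k(j) + d s = ϖ e'`, `e' ∈ BR`.  Apply `φ`: `φ(Q_k(j))` is a unit of `O` (`gauss`, `j_mem`),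
  `φ(ϖ) φ(e') ∈ 𝔪_O`, so `φ(d) φ(s)` is a unit, hence `φ(d)` is.
-/

noncomputable section

namespace Fermat.Agent.S18.V

open ModularCurve Polynomial

namespace Unique

/-- reduction `R((q)) → κ((q))`. -/
abbrev red (R : Type) [CommRing R] [IsLocalRing R] :
    LaurentSeries R →+* LaurentSeries (IsLocalRing.ResidueField R) :=
  coeffMap (IsLocalRing.residue R)

theorem red_eq_zero_iff {R : Type} [CommRing R] [IsLocalRing R] (y : LaurentSeries R) :
    red R y = 0 ↔ ∀ n, ¬ IsUnit (y.coeff n) := by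
  constructor
  · intro h n
    have h1 : (red R y).coeff n = 0 := by rw [h]; rfl
    rw [coeffMap_coeff, IsLocalRing.residue_eq_zero_iff] at h1
    exact (IsLocalRing.mem_maximalIdeal _).1 h1
  · intro h
    ext n
    rw [coeffMap_coeff]
    exact (IsLocalRing.residue_eq_zero_iff _).2 ((IsLocalRing.mem_maximalIdeal _).2 (h n))

theorem red_ne_zero_iff {R : Type} [CommRing R] [IsLocalRing R] (y : LaurentSeries R) :
    red R y ≠ 0 ↔ ∃ n, IsUnit (y.coeff n) := by
  rw [Ne, red_eq_zero_iff]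
  push Not
  rfl

theorem cR_injective (R K : Type) [CommRing R] [Field K] [Algebra R K] [IsFractionRing R K] :
    Function.Injective (cR R K) := by
  intro a b hab
  ext n
  have h1 : (cR R K a).coeff n = (cR R K b).coeff n := by rw [hab]
  rw [coeffMap_coeff, coeffMap_coeff] at h1
  exact IsFractionRing.injective R K h1

theorem algebraMap_eq_single (R A : Type) [CommRing R] [CommRing A] [Algebra R A] (r : R) :
    algebraMap R (LaurentSeries A) r = HahnSeries.single 0 (algebraMap R A r) := by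
  rw [HahnSeries.algebraMap_apply', PowerSeries.algebraMap_apply, HahnSeries.ofPowerSeries_C]
  rfl

theorem cR_algebraMap (R K : Type) [CommRing R] [Field K] [Algebra R K] (r : R) :
    cR R K (algebraMap R (LaurentSeries R) r) = algebraMap R (LaurentSeries K) r := by
  rw [algebraMap_eq_single, algebraMap_eq_single, coeffMap_single]
  rfl

theorem algebraMap_tower (R K : Type) [CommRing R] [Field K] [Algebra R K] (r : R) :
    algebraMap R (LaurentSeries K) r = algebraMap K (LaurentSeries K) (algebraMap R K r) := by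
  rw [algebraMap_eq_single, algebraMap_eq_single]
  rfl

/-- `R[X] → R((q))`, `X ↦ j`. -/
def evS (R : Type) [CommRing R] : R[X] →+* LaurentSeries R :=
  Polynomial.eval₂RingHom (algebraMap R (LaurentSeries R)) (jqModC R)

theorem cR_comp_evS (R K : Type) [CommRing R] [Field K] [Algebra R K] :
    (cR R K).comp (evS R) = evJ R K := by
  refine Polynomial.ringHom_ext (fun r => ?_) ?_
  · simp only [evS, evJ, RingHom.comp_apply, coe_eval₂RingHom, eval₂_C]
    exact cR_algebraMap R K r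
  · simp only [evS, evJ, RingHom.comp_apply, coe_eval₂RingHom, eval₂_X]
    exact coeffMap_jqModC _

theorem cR_evS (R K : Type) [CommRing R] [Field K] [Algebra R K] (Q : R[X]) :
    cR R K (evS R Q) = evJ R K Q :=
  congrArg (fun f => f Q) (cR_comp_evS R K)

theorem red_evS {R : Type} [CommRing R] [IsLocalRing R] (Q : R[X]) (hQ : ∀ k, ¬ IsUnit (Q.coeff k)) :
    red R (evS R Q) = 0 := by
  rw [evS, coe_eval₂RingHom, eval₂_eq_sum_range, map_sum]
  refine Finset.sum_eq_zero fun k _ => ?_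
  rw [map_mul, algebraMap_eq_single, coeffMap_single]
  have : IsLocalRing.residue R (algebraMap R R (Q.coeff k)) = 0 :=
    (IsLocalRing.residue_eq_zero_iff _).2 ((IsLocalRing.mem_maximalIdeal _).2 (hQ k))
  rw [this, HahnSeries.single_eq_zero, zero_mul]

/-- `R[X] → F_K`, `X ↦ j`. -/
def evF (R K : Type) [CommRing R] [Field K] [Algebra R K] (N : ℕ) : R[X] →+* ↥(FK K N) :=
  Polynomial.eval₂RingHom ((algebraMap K ↥(FK K N)).comp (algebraMap R K)) (jK K N)

theorem val_comp_evF (R K : Type) [CommRing R] [Field K] [Algebra R K] (N : ℕ) :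
    (algebraMap ↥(FK K N) (LaurentSeries K)).comp (evF R K N) = evJ R K := by
  refine Polynomial.ringHom_ext (fun r => ?_) ?_
  · simp only [evF, evJ, RingHom.comp_apply, coe_eval₂RingHom, eval₂_C]
    exact (algebraMap_tower R K r).symm
  · simp only [evF, evJ, RingHom.comp_apply, coe_eval₂RingHom, eval₂_X]
    rfl

theorem evF_coe (R K : Type) [CommRing R] [Field K] [Algebra R K] (N : ℕ) (Q : R[X]) :
    ((evF R K N Q : ↥(FK K N)) : LaurentSeries K) = evJ R K Q :=
  congrArg (fun f => f Q) (val_comp_evF R K N)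

end Unique

variable (R : Type) {K : Type} [CommRing R] [IsDomain R] [IsDiscreteValuationRing R] [Field K] [CharZero K]
  [Algebra R K] [IsFractionRing R K] {N : ℕ} [NeZero N] {ℓ : ℕ} [Fact ℓ.Prime]
  {Ω : Type} [Field Ω]

/-- `φ : F_K → Ω` induces the Gauss valuation on `K(j)`. -/
structure GaussHom (O : ValuationSubring Ω) (φ : ↥(FK K N) →+* Ω) : Prop where
  mem : ∀ r : R, φ (algebraMap K ↥(FK K N) (algebraMap R K r)) ∈ O
  nonunit : ∀ r : R, ¬ IsUnit r → φ (algebraMap K ↥(FK K N) (algebraMap R K r)) ∈ O.nonunits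
  j_mem : φ (jK K N) ∈ O
  gauss : ∀ Q : R[X],
    Q.eval₂ (φ.comp ((algebraMap K ↥(FK K N)).comp (algebraMap R K))) (φ (jK K N)) ∈ O.nonunits →
      ∀ i, ¬ IsUnit (Q.coeff i)

variable {R} {O : ValuationSubring Ω} {φ : ↥(FK K N) →+* Ω}

namespace Unique

theorem map_evF (φ : ↥(FK K N) →+* Ω) (Q : R[X]) : φ (evF R K N Q) =
    Q.eval₂ (φ.comp ((algebraMap K ↥(FK K N)).comp (algebraMap R K))) (φ (jK K N)) := by
  rw [evF, coe_eval₂RingHom, hom_eval₂]

theorem map_evF_mem (h : GaussHom R O φ) (Q : R[X]) : φ (evF R K N Q) ∈ O := by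
  rw [map_evF, eval₂_eq_sum_range]
  exact sum_mem fun k _ => mul_mem (h.mem _) (pow_mem h.j_mem _)

end Unique

theorem GaussHom.map_BR_mem (h : GaussHom R O φ) (hℓR : ¬ IsUnit (ℓ : R)) {f : LaurentSeries K}
    (hf : f ∈ BR R K N ℓ) : φ ⟨f, BR_le_FK hf⟩ ∈ O := by
  obtain ⟨P, hP, hPf⟩ := BR_integral (N := N) hℓR hf
  refine mem_of_isIntegralElem O (φ.comp (Unique.evF R K N)) (fun Q => Unique.map_evF_mem h Q)
    ⟨P, hP, ?_⟩
  rw [← hom_eval₂]
  have h0 : eval₂ (Unique.evF R K N) (⟨f, BR_le_FK hf⟩ : ↥(FK K N)) P = 0 := by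
    apply Subtype.ext
    have h1 := hom_eval₂ P (Unique.evF R K N) (algebraMap ↥(FK K N) (LaurentSeries K))
      ⟨f, BR_le_FK hf⟩
    rw [Unique.val_comp_evF] at h1
    exact h1.trans hPf
  rw [h0, map_zero]

namespace Unique

theorem cR_eval₂_mem {y : LaurentSeries R} (hf : cR R K y ∈ BR R K N ℓ) (m : R[X][X]) :
    cR R K (m.eval₂ (evS R) y) ∈ BR R K N ℓ := by
  rw [hom_eval₂, cR_comp_evS, eval₂_eq_sum_range]
  exact sum_mem fun k _ => mul_mem (evJ_mem_BR _) (pow_mem hf _)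

theorem eval₂_split (y : LaurentSeries R) (m : R[X][X]) :
    m.eval₂ (evS R) y = m.divX.eval₂ (evS R) y * y + evS R (m.coeff 0) := by
  conv_lhs => rw [← divX_mul_X_add m]
  rw [eval₂_add, eval₂_mul, eval₂_X, eval₂_C]

theorem case_one (h : GaussHom R O φ) (hℓR : ¬ IsUnit (ℓ : R)) (hℓN : ¬ ℓ ∣ N)
    (y : LaurentSeries R) (hf : cR R K y ∈ BR R K N ℓ)
    (hφ : φ ⟨cR R K y, BR_le_FK hf⟩ ∈ O.nonunits) (m : R[X][X])
    (hm : ∃ k, IsUnit ((m.coeff 0).coeff k)) : red R (m.eval₂ (evS R) y) ≠ 0 := by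
  intro hred
  obtain ⟨k, hk⟩ := hm
  obtain ⟨ϖ, hϖ⟩ := IsDiscreteValuationRing.exists_irreducible R
  have hw := cR_eval₂_mem hf m
  have hw₁ := cR_eval₂_mem hf m.divX
  obtain ⟨g, hg, hwg⟩ := BR_div hℓR hℓN ϖ hϖ _ hw ((red_eq_zero_iff _).1 hred)
  have e1 : (⟨cR R K (m.eval₂ (evS R) y), BR_le_FK hw⟩ : ↥(FK K N)) =
      algebraMap K ↥(FK K N) (algebraMap R K ϖ) * ⟨g, BR_le_FK hg⟩ := by
    apply Subtype.ext
    refine hwg.trans ?_
    rw [algebraMap_tower]
    rfl
  have e2 : (⟨cR R K (m.eval₂ (evS R) y), BR_le_FK hw⟩ : ↥(FK K N)) =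
      ⟨cR R K (m.divX.eval₂ (evS R) y), BR_le_FK hw₁⟩ * ⟨cR R K y, BR_le_FK hf⟩ +
        evF R K N (m.coeff 0) := by
    apply Subtype.ext
    change cR R K (m.eval₂ (evS R) y) = cR R K (m.divX.eval₂ (evS R) y) * cR R K y +
      ((evF R K N (m.coeff 0) : ↥(FK K N)) : LaurentSeries K)
    rw [evF_coe, ← cR_evS, ← map_mul, ← map_add, ← eval₂_split]
  have e3 : φ (evF R K N (m.coeff 0)) =
      φ (algebraMap K ↥(FK K N) (algebraMap R K ϖ)) * φ ⟨g, BR_le_FK hg⟩ -
        φ ⟨cR R K (m.divX.eval₂ (evS R) y), BR_le_FK hw₁⟩ * φ ⟨cR R K y, BR_le_FK hf⟩ := by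
    rw [← map_mul, ← map_mul, ← map_sub, ← e1, e2, add_sub_cancel_left]
  have e4 : φ (evF R K N (m.coeff 0)) ∈ O.nonunits := by
    rw [e3]
    exact sub_mem_nonunits O (mul_mem_nonunits' O (h.nonunit ϖ hϖ.not_isUnit) (h.map_BR_mem hℓR hg))
      (mul_mem_nonunits O (h.map_BR_mem hℓR hw₁) hφ)
  rw [map_evF] at e4
  exact h.gauss _ e4 k hk

theorem case_two (y : LaurentSeries R) (hy : ∃ n, IsUnit (y.coeff n)) (m : R[X][X])
    (hm : ∀ k, ¬ IsUnit ((m.coeff 0).coeff k)) (hred : red R (m.eval₂ (evS R) y) = 0) :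
    red R (m.divX.eval₂ (evS R) y) = 0 := by
  rw [eval₂_split, map_add, red_evS _ hm, add_zero, map_mul] at hred
  exact (mul_eq_zero.1 hred).resolve_right ((red_ne_zero_iff y).2 hy)

theorem main (h : GaussHom R O φ) (hℓR : ¬ IsUnit (ℓ : R)) (hℓN : ¬ ℓ ∣ N)
    (y : LaurentSeries R) (hf : cR R K y ∈ BR R K N ℓ) (hy : ∃ n, IsUnit (y.coeff n))
    (hφ : φ ⟨cR R K y, BR_le_FK hf⟩ ∈ O.nonunits) (n : ℕ) :
    ∀ m : R[X][X], m.natDegree ≤ n → (∃ i k, IsUnit ((m.coeff i).coeff k)) →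
      red R (m.eval₂ (evS R) y) ≠ 0 := by
  induction n with
  | zero =>
    intro m hm ⟨i, k, hik⟩
    refine case_one h hℓR hℓN y hf hφ m ?_
    rcases Nat.eq_zero_or_pos i with rfl | hi
    · exact ⟨k, hik⟩
    · rw [coeff_eq_zero_of_natDegree_lt (lt_of_le_of_lt hm hi)] at hik
      simp at hik
  | succ n ih =>
    intro m hm ⟨i, k, hik⟩
    by_cases h0 : ∃ k, IsUnit ((m.coeff 0).coeff k)
    · exact case_one h hℓR hℓN y hf hφ m h0
    · push Not at h0
      intro hred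
      refine ih m.divX ?_ ?_ (case_two y hy m h0 hred)
      · rw [natDegree_divX_eq_natDegree_tsub_one]
        omega
      · rcases Nat.eq_zero_or_pos i with rfl | hi
        · exact absurd hik (h0 k)
        · refine ⟨i - 1, k, ?_⟩
          rw [coeff_divX, Nat.sub_add_cancel hi]
          exact hik

end Unique

theorem GaussHom.map_BR_unit (h : GaussHom R O φ) (hℓR : ¬ IsUnit (ℓ : R)) (hℓN : ¬ ℓ ∣ N)
    (y : LaurentSeries R) (hf : cR R K y ∈ BR R K N ℓ) (hy : ∃ n, IsUnit (y.coeff n)) :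
    φ ⟨cR R K y, BR_le_FK hf⟩ ∉ O.nonunits := by
  intro hφ
  obtain ⟨P, hP, hPf⟩ := BR_integral (N := N) hℓR hf
  refine Unique.main h hℓR hℓN y hf hy hφ P.natDegree P le_rfl ⟨P.natDegree, 0, ?_⟩ ?_
  · rw [hP.coeff_natDegree]
    simp
  · have h1 : cR R K (P.eval₂ (Unique.evS R) y) = 0 := by
      rw [hom_eval₂, Unique.cR_comp_evS]
      exact hPf
    rw [Unique.cR_injective R K (h1.trans (map_zero _).symm), map_zero]

end Fermat.Agent.S18.V
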