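import Fermat.Agent.S18.V.Hyp
import Fermat.Agent.S18.V.Unique
import Fermat.Agent.S18.AT.Val

set_option autoImplicit false

/-!
# V6a-EmbJ: every `φ ∈ Emb` fixes `j` and induces the Gauss valuation on `K(j)`

`M` is a VARIABLE intermediate field `F_K ≤ M ≤ K((q))`, `xM : M`.

KERNEL WARNING (see `Hyp.lean`): use `inclF_coe`, `Subtype.ext`, `incM_apply`; never `rfl` between subfields.

Sketches.
* `incM_mem`: unfold `Emb`; `incM (algebraMap K M c) = inc (algebraMap K K((q)) c) = iotaK K c`.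
* `emb_j`: in `M`: `aeval xM Bp = inclF jK * aeval xM Ap` (apply `Subtype.ext`, `inclF_coe`, and
  `(aeval (y : M) P : M).1 = aeval y.1 P` = `Polynomial.aeval_algHom_apply`/`map_aeval` for `M.val`).  Apply `φ`:
  `φ (aeval xM P) = aeval (inc x) P = inc (aeval x P)` (`Polynomial.hom_eval₂`, coefficients are integers).
  Cancel `inc (aeval x Ap) ≠ 0`.
* `isGauss_j`: `isGauss_of_order R K (jqModC R)` (order `-1`, leading coefficient `1`:
  `coeff_jqModC_neg_one`, `coeff_jqModC_of_lt`, S28 `orderTop_jq`), `cR (jqModC R) = jqModC K` by `coeffMap_jqModC`.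
* `gaussHom`: fields `mem`/`nonunit` from `(vdata R K).map_mem/map_nonunit` and
  `φ.comp (algebraMap K M) = iotaK K`, `inclF_algebraMap`; `j_mem`, `gauss` from `emb_j`, `isGauss_j`.
* `gauss_int`: map `Q : ℤ[X]` to `R[X]`; a nonunit integer of `R` is divisible by `ℓ` (otherwise Bezout with the
  nonunit `ℓ` makes it a unit of the local ring `R`).
-/

noncomputable section

namespace Fermat.Agent.S18.V

open ModularCurve Polynomial

variable {R K : Type} [CommRing R] [IsDomain R] [IsDiscreteValuationRing R] [Field K] [CharZero K]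
  [Algebra R K] [IsFractionRing R K] {N : ℕ} [NeZero N] {ℓ : ℕ} [Fact ℓ.Prime]
  {M : IntermediateField K (LaurentSeries K)}

variable (R) in
/-- the embeddings of `M` over `K(x)`. -/
abbrev EmbV (xM : ↥M) : Set (↥M →+* (vdata R K).Ω) := Emb (vdata R K) xM (inc K xM.1)

namespace EmbJ

theorem map_aeval_int' {S T : Type*} [CommRing S] [CommRing T] [Algebra ℤ S] [Algebra ℤ T]
    (f : S →+* T) (x : S) (P : ℤ[X]) : f (aeval x P) = aeval (f x) P := by
  rw [aeval_def, aeval_def, hom_eval₂]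
  congr 1
  exact Subsingleton.elim _ _

theorem order_jqModC (S : Type*) [CommRing S] [Nontrivial S] : (jqModC S).order = -1 := by
  apply le_antisymm
  · apply HahnSeries.order_le_of_coeff_ne_zero
    rw [coeff_jqModC_neg_one]
    exact one_ne_zero
  · rw [HahnSeries.le_order_iff_forall (jqModC_ne_zero_of_nontrivial S)]
    intro k hk
    exact coeff_jqModC_of_lt S hk

end EmbJ

variable (R) in
theorem incM_mem (xM : ↥M) : (incM M : ↥M →+* (vdata R K).Ω) ∈ EmbV R xM := by
  refine ⟨?_, incM_apply M xM⟩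
  ext c
  rw [RingHom.comp_apply, incM_apply]
  rfl

theorem VHyp.isGauss_x {x : LaurentSeries K} (H : VHyp R N ℓ x) : IsGauss (vdata R K) (inc K x) := by
  obtain ⟨x₀, rfl, h1, h2⟩ := H.hx
  exact isGauss_of_order R K x₀ (by rw [h1]; norm_num) (by rw [h1]; exact h2)

variable (R K) in
theorem isGauss_j : IsGauss (vdata R K) (inc K (jqModC K)) := by
  have h := isGauss_of_order R K (jqModC R) (by rw [EmbJ.order_jqModC]; norm_num)
    (by rw [EmbJ.order_jqModC, coeff_jqModC_neg_one]; exact isUnit_one)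
  rwa [coeffMap_jqModC] at h

theorem VHyp.emb_j {xM : ↥M} (H : VHyp R N ℓ xM.1) (hFM : FK K N ≤ M) {φ : ↥M →+* (vdata R K).Ω}
    (hφ : φ ∈ EmbV R xM) : φ (inclF hFM (jK K N)) = inc K (jqModC K) := by
  obtain ⟨Ap, Bp, hrel, hA⟩ := H.hrel
  have hcoe : ∀ P : ℤ[X], ((aeval xM P : ↥M) : LaurentSeries K) = aeval xM.1 P := fun P =>
    EmbJ.map_aeval_int' M.val.toRingHom xM P
  have hM : (aeval xM Bp : ↥M) = inclF hFM (jK K N) * aeval xM Ap := by
    apply Subtype.ext
    rw [MulMemClass.coe_mul, hcoe, hcoe, inclF_coe]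
    exact hrel
  have hφa : ∀ P : ℤ[X], φ (aeval xM P) = inc K (aeval xM.1 P) := by
    intro P
    rw [EmbJ.map_aeval_int' φ xM P, EmbJ.map_aeval_int' (inc K) xM.1 P, hφ.2]
  have h1 := congrArg φ hM
  rw [map_mul, hφa, hφa, hrel, map_mul] at h1
  have h2 : inc K (aeval xM.1 Ap) ≠ 0 := by
    rw [Ne, map_eq_zero]
    exact hA
  exact (mul_right_cancel₀ h2 h1).symm

theorem VHyp.gaussHom {xM : ↥M} (H : VHyp R N ℓ xM.1) (hFM : FK K N ≤ M) {φ : ↥M →+* (vdata R K).Ω}
    (hφ : φ ∈ EmbV R xM) : GaussHom R (gaussO R K) (φ.comp (inclF hFM)) := by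
  have hK : ∀ c : K, (φ.comp (inclF hFM)) (algebraMap K ↥(FK K N) c) = iotaK K c := by
    intro c
    rw [RingHom.comp_apply, inclF_algebraMap]
    exact congrArg (fun f : K →+* Om K => f c) hφ.1
  have hj : (φ.comp (inclF hFM)) (jK K N) = inc K (jqModC K) := H.emb_j hFM hφ
  refine ⟨fun r => ?_, fun r hr => ?_, ?_, fun Q hQ => ?_⟩
  · rw [hK]
    exact (vdata R K).map_mem r
  · rw [hK]
    exact (vdata R K).map_nonunit r hr
  · rw [hj]
    exact (isGauss_j R K).1
  · rw [hj] at hQ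
    have hc : (φ.comp (inclF hFM)).comp ((algebraMap K ↥(FK K N)).comp (algebraMap R K)) =
        (iotaK K).comp (algebraMap R K) := by
      ext r
      exact hK _
    rw [hc] at hQ
    exact (isGauss_j R K).2 Q hQ

theorem natCast_mem_nonunits (hℓR : ¬ IsUnit (ℓ : R)) : ((ℓ : ℕ) : Om K) ∈ (gaussO R K).nonunits := by
  have h := (vdata R K).map_nonunit (ℓ : R) hℓR
  rwa [map_natCast, map_natCast] at h

/-- a natural number which is a unit of `R` is a unit of `O`. -/
theorem natCast_notMem_nonunits {p : ℕ} (hpR : IsUnit (p : R)) :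
    ((p : ℕ) : Om K) ∉ (gaussO R K).nonunits := by
  intro h
  obtain ⟨v, hv⟩ := hpR.exists_right_inv
  have h1 := (vdata R K).map_mem v
  have h2 : ((p : ℕ) : Om K) * iotaK K (algebraMap R K v) = 1 := by
    have := congrArg (fun r => iotaK K (algebraMap R K r)) hv
    simpa only [map_mul, map_natCast, map_one] using this
  have h3 := mul_mem_nonunits' (gaussO R K) h h1
  rw [h2] at h3
  exact one_notMem_nonunits _ h3

theorem gauss_int (hℓR : ¬ IsUnit (ℓ : R)) (Q : ℤ[X])
    (hQ : Q.eval₂ (Int.castRingHom (Om K)) (inc K (jqModC K)) ∈ (gaussO R K).nonunits) (i : ℕ) :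
    (ℓ : ℤ) ∣ Q.coeff i := by
  have h1 : (Q.map (Int.castRingHom R)).eval₂ ((iotaK K).comp (algebraMap R K)) (inc K (jqModC K)) =
      Q.eval₂ (Int.castRingHom (Om K)) (inc K (jqModC K)) := by
    rw [eval₂_map]
    congr 1
    exact Subsingleton.elim _ _
  rw [← h1] at hQ
  have h2 := (isGauss_j R K).2 _ hQ i
  rw [coeff_map] at h2
  by_contra hnd
  have hℓ : Prime (ℓ : ℤ) := Nat.prime_iff_prime_int.1 Fact.out
  have hcop : IsCoprime (ℓ : ℤ) (Q.coeff i) := (Prime.coprime_iff_not_dvd hℓ).2 hnd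
  obtain ⟨s, t, hst⟩ := hcop
  have h3 : (s : R) * (ℓ : R) + (t : R) * (Int.castRingHom R (Q.coeff i)) = 1 := by
    have := congrArg (Int.castRingHom R) hst
    simpa using this
  have h4 : (ℓ : R) ∈ IsLocalRing.maximalIdeal R := (IsLocalRing.mem_maximalIdeal _).2 hℓR
  have h5 : Int.castRingHom R (Q.coeff i) ∈ IsLocalRing.maximalIdeal R :=
    (IsLocalRing.mem_maximalIdeal _).2 h2
  have h6 : (1 : R) ∈ IsLocalRing.maximalIdeal R := by
    rw [← h3]
    exact Ideal.add_mem _ (Ideal.mul_mem_left _ _ h4) (Ideal.mul_mem_left _ _ h5)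
  exact (IsLocalRing.mem_maximalIdeal _).1 h6 isUnit_one

end Fermat.Agent.S18.V
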