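import Fermat.Agent.S18.V.Defs
import Fermat.Agent.S18.B.Trans

set_option autoImplicit false
set_option linter.unusedSectionVars false

/-!
# V1-Gauss: the valued field `(Om K, gaussO R K)`

`gaussO R K` is any valuation subring of `Om K` (alg. closure of `K((q))`) dominating the Gauss DVR
`R((q))_(π)`.

Sketch for `exists_gaussO`: `f := (inc K).comp (cR R K) : R((q)) →+* Om K` is injective; let
`S₀ := f.range` (a `Subring (Om K)`) and `P` := the image of
`ker (coeffMap (IsLocalRing.residue R)) : Ideal R((q))` in `S₀` (prime, because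
`LaurentSeries (ResidueField R)` is a field; `y ∈ ker ↔ ∀ n, ¬ IsUnit (y.coeff n)`).
`(LocalSubring.ofPrime S₀ P).exists_le_valuationSubring` gives `O` with `S₀ ⊆ O` and
`𝔪_O ∩ S₀ = P` (`LocalSubring.le_ofPrime`, the order on `LocalSubring` is domination: the inclusion
is a local hom).

Sketch for `isGauss_of_order`: `Q.eval₂ _ (inc (cR x₀)) = inc (cR (Q.eval₂ C' x₀))`
(`C' : R →+* R((q))` the constants); by `inc_mem_nonunits_iff` the reduction
`Q̄(x̄₀) = 0` in `κ((q))`; `x̄₀` has order `x₀.order < 0` with nonzero leading coefficient, so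
`Q̄(x̄₀)` has order `deg Q̄ * x₀.order` unless `Q̄ = 0`.
-/

noncomputable section

namespace Fermat.Agent.S18.V

open ModularCurve Polynomial

variable (R K : Type) [CommRing R] [IsDomain R] [IsDiscreteValuationRing R] [Field K]
  [Algebra R K] [IsFractionRing R K]

namespace Gauss

/-- `R((q)) → κ((q))`. -/
abbrev redR (R : Type) [CommRing R] [IsLocalRing R] :
    LaurentSeries R →+* LaurentSeries (IsLocalRing.ResidueField R) :=
  coeffMap (IsLocalRing.residue R)

theorem cR_injective : Function.Injective (cR R K) := by
  intro y z h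
  ext n
  have := congrArg (fun s => s.coeff n) h
  simp only [coeffMap_coeff] at this
  exact IsFractionRing.injective R K this

omit [IsDomain R] [IsDiscreteValuationRing R] in
theorem redR_surjective [IsLocalRing R] : Function.Surjective (redR R) := by
  intro z
  classical
  have hs := IsLocalRing.residue_surjective (R := R)
  refine ⟨⟨fun n => if z.coeff n = 0 then 0 else (hs (z.coeff n)).choose, ?_⟩, ?_⟩
  · refine z.isPWO_support.mono ?_
    intro n hn
    simp only [Function.mem_support, ne_eq] at hn ⊢
    intro h
    exact hn (by rw [if_pos h])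
  · ext n
    rw [coeffMap_coeff]
    show IsLocalRing.residue R (if z.coeff n = 0 then 0 else (hs (z.coeff n)).choose) = _
    split_ifs with h
    · rw [map_zero, h]
    · exact (hs (z.coeff n)).choose_spec

omit [IsDomain R] [IsDiscreteValuationRing R] in
theorem redR_eq_zero_iff [IsLocalRing R] (y : LaurentSeries R) :
    redR R y = 0 ↔ ∀ n, ¬ IsUnit (y.coeff n) := by
  constructor
  · intro h n
    have := congrArg (fun s => s.coeff n) h
    simp only [coeffMap_coeff, HahnSeries.coeff_zero] at this
    exact (IsLocalRing.residue_eq_zero_iff _).1 this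
  · intro h
    ext n
    rw [coeffMap_coeff, HahnSeries.coeff_zero]
    exact (IsLocalRing.residue_eq_zero_iff _).2 (h n)

end Gauss

open Gauss in
theorem exists_gaussO :
    ∃ O : ValuationSubring (Om K),
      (∀ y : LaurentSeries R, inc K (cR R K y) ∈ O) ∧
      (∀ y : LaurentSeries R, inc K (cR R K y) ∈ O.nonunits ↔ ∀ n, ¬ IsUnit (y.coeff n)) := by
  simp only [← redR_eq_zero_iff]
  set f : LaurentSeries R →+* Om K := (inc K).comp (cR R K) with hf
  have hfinj : Function.Injective f := (inc K).injective.comp (cR_injective R K)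
  set I : Ideal f.range := (RingHom.ker (redR R)).map f.rangeRestrict with hI
  have hI1 : I ≠ ⊤ := by
    intro h
    have h1 : (1 : f.range) ∈ I := by rw [h]; trivial
    rw [hI, Ideal.mem_map_iff_of_surjective _ f.rangeRestrict_surjective] at h1
    obtain ⟨y, hy, hy1⟩ := h1
    have h2 : f y = f 1 := by
      rw [map_one]
      exact congrArg Subtype.val hy1
    rw [hfinj h2, RingHom.mem_ker, map_one] at hy
    exact one_ne_zero hy
  obtain ⟨O, hO1, hO2⟩ := Ideal.image_subset_nonunits_valuationSubring I hI1
  have hmem : ∀ y : LaurentSeries R, inc K (cR R K y) ∈ O := fun y => hO1 ⟨y, rfl⟩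
  have hsmall : ∀ y : LaurentSeries R, redR R y = 0 → inc K (cR R K y) ∈ O.nonunits := by
    intro y hy
    apply hO2
    exact ⟨f.rangeRestrict y, Ideal.mem_map_of_mem _ (RingHom.mem_ker.2 hy), rfl⟩
  refine ⟨O, hmem, fun y => ⟨fun h => ?_, hsmall y⟩⟩
  by_contra hy
  obtain ⟨z, hz⟩ := redR_surjective R (redR R y)⁻¹
  have h1 : redR R (y * z - 1) = 0 := by
    rw [map_sub, map_mul, hz, mul_inv_cancel₀ hy, map_one, sub_self]
  have h2 := hsmall _ h1
  rw [map_sub, map_sub, map_mul, map_mul, map_one, map_one] at h2
  rw [ValuationSubring.mem_nonunits_iff] at h h2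
  have h3 : O.valuation (inc K (cR R K y) * inc K (cR R K z)) < 1 := by
    rw [map_mul]
    calc O.valuation (inc K (cR R K y)) * O.valuation (inc K (cR R K z))
        ≤ O.valuation (inc K (cR R K y)) * 1 := by
          gcongr
          exact (O.valuation_le_one_iff _).2 (hmem z)
      _ < 1 := by rw [mul_one]; exact h
  have h4 : O.valuation (1 : Om K) < 1 := by
    have : (1 : Om K) = inc K (cR R K y) * inc K (cR R K z)
        - (inc K (cR R K y) * inc K (cR R K z) - 1) := by ring
    rw [this]
    exact lt_of_le_of_lt (O.valuation.map_sub _ _) (max_lt h3 h2)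
  rw [map_one] at h4
  exact lt_irrefl _ h4

/-- a valuation subring of `Om K` dominating the Gauss DVR of `R((q))`. -/
def gaussO : ValuationSubring (Om K) := (exists_gaussO R K).choose

theorem inc_mem_gaussO (y : LaurentSeries R) : inc K (cR R K y) ∈ gaussO R K :=
  (exists_gaussO R K).choose_spec.1 y

theorem inc_mem_nonunits_iff (y : LaurentSeries R) :
    inc K (cR R K y) ∈ (gaussO R K).nonunits ↔ ∀ n, ¬ IsUnit (y.coeff n) :=
  (exists_gaussO R K).choose_spec.2 y

/-- constants `K → Om K`. -/
def iotaK : K →+* Om K := (inc K).comp (algebraMap K (LaurentSeries K))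

theorem iotaK_algebraMap (r : R) :
    iotaK K (algebraMap R K r) = inc K (cR R K (HahnSeries.single 0 r)) := by
  rw [iotaK, RingHom.comp_apply, algebraMap_laurentSeries_eq_single, coeffMap_single]

/-- the vertical data. -/
@[reducible] def vdata : VData R K where
  Ω := Om K
  O := gaussO R K
  ιK := iotaK K
  map_mem r := by
    rw [iotaK_algebraMap]
    exact inc_mem_gaussO R K _
  map_nonunit r hr := by
    rw [iotaK_algebraMap, inc_mem_nonunits_iff]
    intro n
    by_cases hn : n = 0
    · subst hn
      simpa using hr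
    · rw [HahnSeries.coeff_single_of_ne hn]
      exact not_isUnit_zero

open Gauss in
theorem isGauss_of_order (x₀ : LaurentSeries R) (hneg : x₀.order < 0)
    (hlead : IsUnit (x₀.coeff x₀.order)) :
    IsGauss (vdata R K) (inc K (cR R K x₀)) := by
  refine ⟨inc_mem_gaussO R K x₀, fun Q hQ i => ?_⟩
  have e1 : Q.eval₂ ((vdata R K).ιK.comp (algebraMap R K)) (inc K (cR R K x₀))
      = inc K (cR R K (Q.eval₂ HahnSeries.C x₀)) := by
    rw [hom_eval₂, hom_eval₂]
    congr 1
    ext r
    simp only [RingHom.comp_apply]
    exact iotaK_algebraMap R K r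
  rw [e1] at hQ
  have hQ' := (redR_eq_zero_iff R _).2 ((inc_mem_nonunits_iff R K _).1 hQ)
  rw [hom_eval₂] at hQ'
  set k := IsLocalRing.ResidueField R
  set z : LaurentSeries k := redR R x₀ with hz
  have e2 : aeval z (Q.map (IsLocalRing.residue R)) = 0 := by
    rw [aeval_def, eval₂_map, ← hQ']
    congr 1
    ext r
    simp only [RingHom.comp_apply]
    rw [algebraMap_laurentSeries_eq_single]
    exact congrArg (fun s => HahnSeries.coeff s _) (coeffMap_single (IsLocalRing.residue R) 0 r).symm
  have hzo : z.order < 0 := by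
    refine lt_of_le_of_lt (HahnSeries.order_le_of_coeff_ne_zero (g := x₀.order) ?_) hneg
    rw [hz, coeffMap_coeff]
    intro h0
    exact (IsLocalRing.residue_eq_zero_iff _).1 h0 hlead
  have htr : Transcendental k z := by
    intro halg
    obtain ⟨c, hc⟩ := trans_const z halg
    rw [← hc, algebraMap_laurentSeries_eq_single] at hzo
    by_cases hc0 : c = 0
    · rw [hc0, HahnSeries.single_eq_zero, HahnSeries.order_zero] at hzo
      omega
    · rw [HahnSeries.order_single hc0] at hzo
      omega
  have e3 : Q.map (IsLocalRing.residue R) = 0 := by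
    by_contra hne
    exact htr ⟨_, hne, e2⟩
  have e4 := congrArg (fun P => P.coeff i) e3
  simp only [coeff_map, coeff_zero] at e4
  exact (IsLocalRing.residue_eq_zero_iff _).1 e4

end Fermat.Agent.S18.V
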