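import Fermat.Agent.S18.V.Gauss

set_option autoImplicit false

/-!
# Chapter V: the abstract hypotheses `VHyp`, a VARIABLE intermediate field `F_K ⊆ M ⊆ K((q))`

All the lemmas on embeddings are stated for a variable `M : IntermediateField K K((q))` (with `F_K ≤ M`), and are
instantiated with `M = EE0 K N x = F_K(x)` only at the very end.

KERNEL WARNING: never prove an equality between the underlying series of elements of two DIFFERENT concrete
subfields of `K((q))` by `rfl`/defeq: the kernel then tries to unify the two subfields and times out.  Use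
`inclF_coe` / `IntermediateField.coe_inclusion` (proved for variable subfields), `Subtype.ext`, `incM_apply`.
-/

noncomputable section

namespace Fermat.Agent.S18.V

open ModularCurve Polynomial

/-- `E₀ = F_K(x)`. -/
abbrev EE0 (K : Type) [Field K] (N : ℕ) (x : LaurentSeries K) :
    IntermediateField K (LaurentSeries K) :=
  IntermediateField.adjoin K (divisorExpansionsC K N ∪ {x})

/-- `E = F_K(x,u)`. -/
abbrev EE (K : Type) [Field K] (N : ℕ) (x u : LaurentSeries K) :
    IntermediateField K (LaurentSeries K) :=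
  IntermediateField.adjoin K (divisorExpansionsC K N ∪ {x, u})

theorem FK_le_EE0 {K : Type} [Field K] {N : ℕ} (x : LaurentSeries K) : FK K N ≤ EE0 K N x :=
  IntermediateField.adjoin.mono K _ _ Set.subset_union_left

theorem EE0_le_EE {K : Type} [Field K] {N : ℕ} (x u : LaurentSeries K) : EE0 K N x ≤ EE K N x u :=
  IntermediateField.adjoin.mono K _ _
    (Set.union_subset_union_right _ (Set.singleton_subset_iff.2 (Or.inl rfl)))

theorem x_mem_EE0 {K : Type} [Field K] {N : ℕ} (x : LaurentSeries K) : x ∈ EE0 K N x :=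
  IntermediateField.subset_adjoin _ _ (Or.inr rfl)

theorem u_mem_EE {K : Type} [Field K] {N : ℕ} (x u : LaurentSeries K) : u ∈ EE K N x u :=
  IntermediateField.subset_adjoin _ _ (Or.inr (Or.inr rfl))

section

variable {K : Type} [Field K] {N : ℕ} (M : IntermediateField K (LaurentSeries K))

/-- the tautological embedding `M → Om K`. -/
def incM : ↥M →+* Om K := (inc K).comp M.val.toRingHom

theorem incM_apply (y : ↥M) : incM M y = inc K y.1 := by
  simp only [incM, RingHom.comp_apply]
  rfl

variable {M}

/-- `F_K → M`. -/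
def inclF (h : FK K N ≤ M) : ↥(FK K N) →+* ↥M := (IntermediateField.inclusion h).toRingHom

theorem inclF_coe (h : FK K N ≤ M) (f : ↥(FK K N)) : ((inclF h f : ↥M) : LaurentSeries K) = f.1 :=
  IntermediateField.coe_inclusion h f

theorem inclF_algebraMap (h : FK K N ≤ M) (c : K) :
    inclF h (algebraMap K ↥(FK K N) c) = algebraMap K ↥M c :=
  (IntermediateField.inclusion h).commutes c

end

/-- the hypotheses of chapter V on `x`. -/
structure VHyp (R : Type) {K : Type} [CommRing R] [Field K] [Algebra R K] (N ℓ : ℕ)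
    (x : LaurentSeries K) : Prop where
  hℓN : ¬ ℓ ∣ N
  hℓR : ¬ IsUnit (ℓ : R)
  hx : ∃ x₀ : LaurentSeries R, cR R K x₀ = x ∧ x₀.order = -1 ∧ IsUnit (x₀.coeff (-1))
  hrel : ∃ Ap Bp : ℤ[X], (aeval x Bp : LaurentSeries K) = jqModC K * aeval x Ap ∧
    (aeval x Ap : LaurentSeries K) ≠ 0

/-- the hypotheses of chapter V on `a, b`: integral `q`-expansions, `a ≡ b ≢ 0`. -/
def ABHyp (R : Type) {K : Type} [CommRing R] [Field K] [Algebra R K] {N : ℕ} (a b : ↥(FK K N)) : Prop :=
  ∃ a₀ b₀ : LaurentSeries R, cR R K a₀ = a.1 ∧ cR R K b₀ = b.1 ∧ (∃ n, IsUnit (b₀.coeff n)) ∧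
    ∀ n, ¬ IsUnit ((a₀ - b₀).coeff n)

end Fermat.Agent.S18.V
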