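import Fermat.Agent.S18.AbsDefs
import Fermat.Agent.S18.AT.Val

set_option autoImplicit false

/-!
# S18 / V / Kummer : the Kummer layer `E = E₀(u)`, `u ^ p = g`, of chapter V (abstract form)

Everything at the level of `E` follows from the facts at the level of `E₀`:
`Emb` non-empty, `φ g ≡ 1` for all `φ ∈ Emb`, `DistinctRed`.
-/

noncomputable section

namespace Fermat.Agent.S18

open Polynomial IntermediateField

namespace Kummer

section Val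

variable {Ω : Type*} [Field Ω] (O : ValuationSubring Ω)

theorem mul_notMem_nonunits {a b : Ω} (ha : a ∉ O.nonunits) (hb : b ∉ O.nonunits) :
    a * b ∉ O.nonunits := by
  rw [ValuationSubring.mem_nonunits_iff, not_lt] at ha hb ⊢
  rw [map_mul]
  exact one_le_mul ha hb

theorem exists_mem_nonunits_of_prod {ι : Type*} (s : Finset ι) (f : ι → Ω)
    (h : ∏ i ∈ s, f i ∈ O.nonunits) : ∃ i ∈ s, f i ∈ O.nonunits := by
  classical
  by_contra hcon
  push Not at hcon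
  revert h
  induction s using Finset.induction_on with
  | empty => simpa using one_notMem_nonunits O
  | insert a s ha ih =>
    rw [Finset.prod_insert ha]
    exact mul_notMem_nonunits O (hcon a (Finset.mem_insert_self a s))
      (ih fun i hi => hcon i (Finset.mem_insert_of_mem hi))

/-- `υ ≡ w ⟹ υ^j ≡ w^j`. -/
theorem pow_sub_pow_mem {υ w : Ω} (hυ : υ ∈ O) (hw : w ∈ O) (h : υ - w ∈ O.nonunits) (j : ℕ) :
    υ ^ j - w ^ j ∈ O.nonunits := by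
  induction j with
  | zero => simp [zero_mem_nonunits O]
  | succ j ih =>
    have : υ ^ (j + 1) - w ^ (j + 1) = υ ^ j * (υ - w) + (υ ^ j - w ^ j) * w := by ring
    rw [this]
    exact add_mem_nonunits O (mul_mem_nonunits O (pow_mem hυ j) h) (mul_mem_nonunits' O ih hw)

/-- the function `υ ↦ (1 + υ + ⋯ + υ^(p-1))/p`. -/
def ee (p : ℕ) (υ : Ω) : Ω := (∑ j ∈ Finset.range p, υ ^ j) / (p : Ω)

theorem ee_sub_ee_mem {p : ℕ} (hpO : (p : Ω)⁻¹ ∈ O) {υ w : Ω} (hυ : υ ∈ O) (hw : w ∈ O)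
    (h : υ - w ∈ O.nonunits) : ee p υ - ee p w ∈ O.nonunits := by
  unfold ee
  rw [← sub_div, ← Finset.sum_sub_distrib, div_eq_mul_inv]
  exact mul_mem_nonunits' O (sum_mem_nonunits O _ _ fun j _ => pow_sub_pow_mem O hυ hw h j) hpO

theorem ee_one {p : ℕ} (hp : (p : Ω) ≠ 0) : ee p (1 : Ω) = 1 := by
  unfold ee
  simp [hp]

theorem ee_of_ne_one {p : ℕ} {w : Ω} (hw : w ^ p = 1) (hw1 : w ≠ 1) : ee p w = 0 := by
  unfold ee
  have := geom_sum_mul w p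
  rw [hw, sub_self] at this
  rcases mul_eq_zero.1 this with h | h
  · rw [h, zero_div]
  · exact absurd (sub_eq_zero.1 h) hw1

/-- `1 - w` is a unit for a non trivial `p`-th root of unity. -/
theorem one_sub_notMem {p : ℕ} (hp0 : p ≠ 0) (hp : (p : Ω) ≠ 0) (hpO : (p : Ω)⁻¹ ∈ O) {w : Ω}
    (hw : w ^ p = 1) (hw1 : w ≠ 1) : 1 - w ∉ O.nonunits := by
  intro h
  have hwO : w ∈ O := mem_of_pow_mem O hp0 (by rw [hw]; exact O.one_mem)
  have := ee_sub_ee_mem O hpO O.one_mem hwO h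
  rw [ee_one hp, ee_of_ne_one hw hw1, sub_zero] at this
  exact one_notMem_nonunits O this

/-- `υ^p ≡ 1 ⟹ υ ≡` a `p`-th root of unity. -/
theorem exists_root_of_unity {p : ℕ} (hp0 : 0 < p) {z : Ω} (hz : IsPrimitiveRoot z p) {υ : Ω}
    (h : υ ^ p - 1 ∈ O.nonunits) : ∃ w : Ω, w ^ p = 1 ∧ υ - w ∈ O.nonunits := by
  have := hz.pow_sub_pow_eq_prod_sub_mul υ 1 hp0
  rw [one_pow] at this
  rw [this] at h
  obtain ⟨w, hw, hw'⟩ := exists_mem_nonunits_of_prod O _ _ h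
  rw [mul_one] at hw'
  exact ⟨w, ((Polynomial.mem_nthRootsFinset hp0 1).1 hw), hw'⟩

end Val

section Ext

variable {E0 E Ω : Type} [Field E0] [Field E] [Algebra E0 E] [Field Ω]

/-- two ring homs which agree on `E₀` and on `u` are equal. -/
theorem hom_ext {u : E} (hgen : E0⟮u⟯ = ⊤) {φ φ' : E →+* Ω}
    (h0 : φ.comp (algebraMap E0 E) = φ'.comp (algebraMap E0 E)) (hu : φ u = φ' u) : φ = φ' := by
  ext y
  have hy : y ∈ E0⟮u⟯ := by rw [hgen]; exact IntermediateField.mem_top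
  induction hy using IntermediateField.adjoin_induction with
  | mem x hx =>
    rw [Set.mem_singleton_iff] at hx
    rw [hx, hu]
  | algebraMap x => exact congrArg (fun f : E0 →+* Ω => f x) h0
  | add x y _ _ hx hy => rw [map_add, map_add, hx, hy]
  | inv x _ hx => rw [map_inv₀, map_inv₀, hx]
  | mul x y _ _ hx hy => rw [map_mul, map_mul, hx, hy]

/-- extension of an embedding to `E = E₀(u)` with a prescribed value at `u`. -/
theorem exists_ext {p : ℕ} (hp : p.Prime) {g : E0} {u : E} (hu : u ^ p = algebraMap E0 E g)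
    (hgen : E0⟮u⟯ = ⊤) (hg : ¬ ∃ w : E0, w ^ p = g) (φ0 : E0 →+* Ω) (υ : Ω) (hυ : υ ^ p = φ0 g) :
    ∃ φ : E →+* Ω, φ.comp (algebraMap E0 E) = φ0 ∧ φ u = υ := by
  let _ : Algebra E0 Ω := φ0.toAlgebra
  have hirr : Irreducible (X ^ p - C g : E0[X]) :=
    X_pow_sub_C_irreducible_of_prime hp (fun b hb => hg ⟨b, hb⟩)
  have hmonic : (X ^ p - C g : E0[X]).Monic := monic_X_pow_sub_C g hp.ne_zero
  have hroot : aeval u (X ^ p - C g : E0[X]) = 0 := by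
    simp [hu]
  have hmin : minpoly E0 u = X ^ p - C g := (minpoly.eq_of_irreducible_of_monic hirr hroot hmonic).symm
  have hint : IsIntegral E0 u := ⟨_, hmonic, hroot⟩
  let pb := IntermediateField.adjoin.powerBasis hint
  have hpbgen : minpoly E0 pb.gen = X ^ p - C g := by
    rw [IntermediateField.adjoin.powerBasis_gen, IntermediateField.minpoly_gen, hmin]
  let ψ : E0⟮u⟯ →ₐ[E0] Ω := pb.lift υ (by
    rw [hpbgen]
    simp only [map_sub, map_pow, aeval_X, aeval_C]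
    rw [hυ]
    exact sub_self _)
  have hψ : ψ (IntermediateField.AdjoinSimple.gen E0 u) = υ := pb.lift_gen υ _
  let e1 : E ≃ₐ[E0] E0⟮u⟯ :=
    (IntermediateField.topEquiv (F := E0) (E := E)).symm.trans (IntermediateField.equivOfEq hgen.symm)
  refine ⟨(ψ.comp e1.toAlgHom).toRingHom, ?_, ?_⟩
  · ext a
    exact (ψ.comp e1.toAlgHom).commutes a
  · have : e1 u = IntermediateField.AdjoinSimple.gen E0 u := by
      apply Subtype.ext
      rfl
    show ψ (e1 u) = υ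
    rw [this, hψ]

end Ext

end Kummer

section

variable {R K E0 E : Type} [CommRing R] [Field K] [Algebra R K] [Field E0] [Algebra K E0] [Field E]
  [Algebra K E] [Algebra E0 E] [IsScalarTower K E0 E]

namespace Kummer

theorem restrict_mem (𝒱 : VData R K) (x0 : E0) (ιx : 𝒱.Ω) {φ : E →+* 𝒱.Ω}
    (hφ : φ ∈ Emb 𝒱 (algebraMap E0 E x0) ιx) : φ.comp (algebraMap E0 E) ∈ Emb 𝒱 x0 ιx := by
  refine ⟨?_, hφ.2⟩
  rw [RingHom.comp_assoc, ← IsScalarTower.algebraMap_eq]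
  exact hφ.1

theorem mem_of_restrict (𝒱 : VData R K) (x0 : E0) (ιx : 𝒱.Ω) {φ : E →+* 𝒱.Ω}
    (hφ : φ.comp (algebraMap E0 E) ∈ Emb 𝒱 x0 ιx) : φ ∈ Emb 𝒱 (algebraMap E0 E x0) ιx := by
  refine ⟨?_, hφ.2⟩
  rw [IsScalarTower.algebraMap_eq K E0 E, ← RingHom.comp_assoc]
  exact hφ.1

end Kummer

/-- **The Kummer layer of chapter V.** -/
theorem kummer_vdata (𝒱 : VData R K) (x0 : E0) (ιx : 𝒱.Ω) {p : ℕ} (hp : p.Prime)
    (hp0 : (p : 𝒱.Ω) ≠ 0) (hpO : (p : 𝒱.Ω)⁻¹ ∈ 𝒱.O) {ζ : K} (hζ : IsPrimitiveRoot ζ p)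
    {g : E0} {u : E} (hu : u ^ p = algebraMap E0 E g) (hgen : E0⟮u⟯ = ⊤)
    (hg : ¬ ∃ w : E0, w ^ p = g)
    (hne : (Emb 𝒱 x0 ιx).Nonempty)
    (h1 : ∀ φ ∈ Emb 𝒱 x0 ιx, φ g - 1 ∈ 𝒱.O.nonunits)
    (hD : DistinctRed 𝒱 x0 ιx) :
    DistinctRed 𝒱 (algebraMap E0 E x0) ιx ∧
      (∀ φ ∈ Emb 𝒱 (algebraMap E0 E x0) ιx,
        φ ((∑ i ∈ Finset.range p, u ^ i) / (p : E)) ∈ 𝒱.O.nonunits ∨
        φ ((∑ i ∈ Finset.range p, u ^ i) / (p : E)) - 1 ∈ 𝒱.O.nonunits) ∧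
      (∃ φ ∈ Emb 𝒱 (algebraMap E0 E x0) ιx,
        φ ((∑ i ∈ Finset.range p, u ^ i) / (p : E)) ∈ 𝒱.O.nonunits) ∧
      (∃ φ ∈ Emb 𝒱 (algebraMap E0 E x0) ιx,
        φ ((∑ i ∈ Finset.range p, u ^ i) / (p : E)) - 1 ∈ 𝒱.O.nonunits) := by
  set O := 𝒱.O with hO
  have hz : IsPrimitiveRoot (𝒱.ιK ζ) p := hζ.map_of_injective 𝒱.ιK.injective
  have hee : ∀ φ : E →+* 𝒱.Ω, φ ((∑ i ∈ Finset.range p, u ^ i) / (p : E)) = Kummer.ee p (φ u) := by
    intro φ
    unfold Kummer.ee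
    rw [map_div₀, map_sum, map_natCast]
    simp only [map_pow]
  have hpow : ∀ φ ∈ Emb 𝒱 (algebraMap E0 E x0) ιx, (φ u) ^ p - 1 ∈ O.nonunits := by
    intro φ hφ
    have := h1 _ (Kummer.restrict_mem 𝒱 x0 ιx hφ)
    rwa [RingHom.comp_apply, ← hu, map_pow] at this
  have hmemO : ∀ υ : 𝒱.Ω, υ ^ p - 1 ∈ O.nonunits → υ ∈ O := by
    intro υ h
    apply mem_of_pow_mem O hp.ne_zero
    have : υ ^ p = (υ ^ p - 1) + 1 := by ring
    rw [this]
    exact O.add_mem _ _ (mem_of_mem_nonunits O h) O.one_mem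
  have hrootO : ∀ w : 𝒱.Ω, w ^ p = 1 → w ∈ O := fun w hw =>
    mem_of_pow_mem O hp.ne_zero (by rw [hw]; exact O.one_mem)
  -- the value of `ee` at `υ ≡ w`
  have hval : ∀ υ w : 𝒱.Ω, υ ∈ O → w ^ p = 1 → υ - w ∈ O.nonunits →
      (w = 1 → Kummer.ee p υ - 1 ∈ O.nonunits) ∧ (w ≠ 1 → Kummer.ee p υ ∈ O.nonunits) := by
    intro υ w hυ hw h
    have := Kummer.ee_sub_ee_mem O hpO hυ (hrootO w hw) h
    constructor
    · rintro rfl
      rwa [Kummer.ee_one hp0] at this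
    · intro hw1
      rwa [Kummer.ee_of_ne_one hw hw1, sub_zero] at this
  refine ⟨?_, ?_, ?_, ?_⟩
  · -- distinct reductions
    intro φ hφ φ' hφ' hne'
    by_cases h0 : φ.comp (algebraMap E0 E) = φ'.comp (algebraMap E0 E)
    · have hu' : φ u ≠ φ' u := fun h => hne' (Kummer.hom_ext hgen h0 h)
      refine ⟨u, fun ψ hψ => hmemO _ (hpow ψ hψ), ?_⟩
      have hυ0 : φ u ∉ O.nonunits := by
        intro h
        have h2 : (φ u) ^ p ∈ O.nonunits := by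
          obtain ⟨k, hk⟩ := Nat.exists_eq_succ_of_ne_zero hp.ne_zero
          rw [hk, pow_succ]
          exact mul_mem_nonunits O (pow_mem (mem_of_mem_nonunits O h) k) h
        have h3 := sub_mem_nonunits O h2 (hpow φ hφ)
        rw [sub_sub_cancel] at h3
        exact one_notMem_nonunits O h3
      have hυne : φ u ≠ 0 := by
        intro h
        exact hυ0 (by rw [h]; exact zero_mem_nonunits O)
      have hpp : (φ' u) ^ p = (φ u) ^ p := by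
        rw [← map_pow, ← map_pow, hu]
        exact (congrArg (fun f : E0 →+* 𝒱.Ω => f g) h0).symm
      have hw : (φ' u / φ u) ^ p = 1 := by
        rw [div_pow, hpp, div_self (pow_ne_zero p hυne)]
      have hw1 : φ' u / φ u ≠ 1 := by
        intro h
        rw [div_eq_one_iff_eq hυne] at h
        exact hu' h.symm
      have : φ u - φ' u = φ u * (1 - φ' u / φ u) := by
        field_simp
      rw [this]
      exact Kummer.mul_notMem_nonunits O hυ0 (Kummer.one_sub_notMem O hp.ne_zero hp0 hpO hw hw1)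
    · obtain ⟨y, hy, hy'⟩ := hD _ (Kummer.restrict_mem 𝒱 x0 ιx hφ) _
        (Kummer.restrict_mem 𝒱 x0 ιx hφ') h0
      exact ⟨algebraMap E0 E y, fun ψ hψ => hy _ (Kummer.restrict_mem 𝒱 x0 ιx hψ), hy'⟩
  · intro φ hφ
    rw [hee]
    obtain ⟨w, hw, hw'⟩ := Kummer.exists_root_of_unity O hp.pos hz (hpow φ hφ)
    have := hval (φ u) w (hmemO _ (hpow φ hφ)) hw hw'
    by_cases hw1 : w = 1
    · exact Or.inr (this.1 hw1)
    · exact Or.inl (this.2 hw1)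
  all_goals
    obtain ⟨φ0, hφ0⟩ := hne
    obtain ⟨υ0, hυ0⟩ := IsAlgClosed.exists_pow_nat_eq (φ0 g) hp.pos
    have hυ0' : υ0 ^ p - 1 ∈ O.nonunits := by rw [hυ0]; exact h1 φ0 hφ0
    obtain ⟨w, hw, hw'⟩ := Kummer.exists_root_of_unity O hp.pos hz hυ0'
    have hw0 : w ≠ 0 := by
      rintro rfl
      rw [zero_pow hp.ne_zero] at hw
      exact zero_ne_one hw
    have hwinv : w⁻¹ ∈ O := hrootO _ (by rw [inv_pow, hw, inv_one])
    have hυ1 : υ0 * w⁻¹ - 1 ∈ O.nonunits := by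
      have : υ0 * w⁻¹ - 1 = (υ0 - w) * w⁻¹ := by
        rw [sub_mul, mul_inv_cancel₀ hw0]
      rw [this]
      exact mul_mem_nonunits' O hw' hwinv
    have hυ1p : (υ0 * w⁻¹) ^ p = φ0 g := by
      rw [mul_pow, inv_pow, hw, inv_one, mul_one, hυ0]
    have hυ1O : υ0 * w⁻¹ ∈ O := O.mul_mem _ _ (hmemO _ hυ0') hwinv
  · -- `φ u ≡ ζ`
    have hzO : 𝒱.ιK ζ ∈ O := hrootO _ hz.pow_eq_one
    obtain ⟨φ, hφ, hφu⟩ := Kummer.exists_ext hp hu hgen hg φ0 (υ0 * w⁻¹ * 𝒱.ιK ζ)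
      (by rw [mul_pow, hυ1p, hz.pow_eq_one, mul_one])
    refine ⟨φ, Kummer.mem_of_restrict 𝒱 x0 ιx (by rw [hφ]; exact hφ0), ?_⟩
    rw [hee, hφu]
    refine (hval _ (𝒱.ιK ζ) (O.mul_mem _ _ hυ1O hzO) hz.pow_eq_one ?_).2 (hz.ne_one hp.one_lt)
    have : υ0 * w⁻¹ * 𝒱.ιK ζ - 𝒱.ιK ζ = (υ0 * w⁻¹ - 1) * 𝒱.ιK ζ := by ring
    rw [this]
    exact mul_mem_nonunits' O hυ1 hzO
  · -- `φ u ≡ 1`
    obtain ⟨φ, hφ, hφu⟩ := Kummer.exists_ext hp hu hgen hg φ0 (υ0 * w⁻¹) hυ1p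
    refine ⟨φ, Kummer.mem_of_restrict 𝒱 x0 ιx (by rw [hφ]; exact hφ0), ?_⟩
    rw [hee, hφu]
    exact (hval _ 1 hυ1O (one_pow p) hυ1).1 rfl

end

end Fermat.Agent.S18
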